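import Mathlib

/-!
# Program V (S27), leaf (C3a): pole-order-adapted normal form — definitions

A *shape* `δ = (N, d)` and a *multiplication table* `c` over a field `K`.  The ring
`B = ⊕_j K[X] e_j` with `e_i e_j = Σ_k c i j k · e_k` is built in `Pres/Ring.lean`, its pole order
(valuation at infinity) in `Pres/Ord.lean`.  All conditions are polynomial (in)equalities in the
coefficients of the table.
-/

namespace Fermat.Agent.V

open Polynomial

/-- A shape: `N` = pole order of `x`, `d j` = least pole order in the class `j mod N`. -/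
structure V27pShape where
  N : ℕ
  hN : 0 < N
  d : ZMod N → ℕ
  d_zero : d 0 = 0
  d_cong : ∀ j : ZMod N, ((d j : ℕ) : ZMod N) = j
  d_sub : ∀ i j : ZMod N, d (i + j) ≤ d i + d j

namespace V27pShape

instance instNeZero (δ : V27pShape) : NeZero δ.N := ⟨δ.hN.ne'⟩

/-- number of gaps of the pole-order semigroup -/
noncomputable def genus (δ : V27pShape) : ℕ := ∑ j : ZMod δ.N, δ.d j / δ.N

theorem d_add_cong (δ : V27pShape) (i j : ZMod δ.N) :
    δ.N ∣ δ.d i + δ.d j - δ.d (i + j) := by
  have h := δ.d_sub i j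
  have h1 : (((δ.d i + δ.d j - δ.d (i + j) : ℕ)) : ZMod δ.N) = 0 := by
    rw [Nat.cast_sub h, Nat.cast_add, δ.d_cong, δ.d_cong, δ.d_cong]; ring
  exact (ZMod.natCast_eq_zero_iff _ _).mp h1

/-- the exact degree of the leading structure constant `c i j (i+j)` -/
def leadDeg (δ : V27pShape) (i j : ZMod δ.N) : ℕ := (δ.d i + δ.d j - δ.d (i + j)) / δ.N

theorem leadDeg_spec (δ : V27pShape) (i j : ZMod δ.N) :
    δ.N * δ.leadDeg i j + δ.d (i + j) = δ.d i + δ.d j := by
  unfold leadDeg
  rw [Nat.mul_div_cancel' (δ.d_add_cong i j)]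
  exact Nat.sub_add_cancel (δ.d_sub i j)

end V27pShape

/-- A multiplication table of shape `δ` over `K`: helper24's `(P1)` + `(P2)` in coefficient form. -/
structure V27pTable (K : Type*) [Field K] (δ : V27pShape) where
  c : ZMod δ.N → ZMod δ.N → ZMod δ.N → K[X]
  deg_le : ∀ i j k (m : ℕ), δ.d i + δ.d j < δ.N * m + δ.d k → (c i j k).coeff m = 0
  comm : ∀ i j k, c i j k = c j i k
  one : ∀ j k, c 0 j k = if j = k then 1 else 0
  assoc : ∀ i j k m, ∑ l, c i j l * c l k m = ∑ l, c j k l * c i l m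
  lead : ∀ i j, (c i j (i + j)).coeff (δ.leadDeg i j) ≠ 0

end Fermat.Agent.V
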