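import Fermat.Agent.V.Pres.Ring

/-!
# Program V (S27), leaf (C3a): pole order on the table ring `B`

`V27pLe b m` : "pole order of `b` is `≤ m`", in coordinates (helper24's request (a)).
`v27pOrd b : ℕ` : the pole order (`0` at `0`), additive on non-zero elements; hence `B` is a
domain.  `v27pL T m` : the `K`-subspace of elements of pole order `≤ m`, with its dimension.
-/

noncomputable section

namespace Fermat.Agent.V

open Polynomial

variable {K : Type*} [Field K] {δ : V27pShape} {T : V27pTable K δ}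

namespace V27pShape

/-- the weight `N r + d j` of the monomial `x^r e_j` determines `(j, r)` -/
theorem weight_inj (δ : V27pShape) {i j : ZMod δ.N} {r s : ℕ}
    (h : δ.N * r + δ.d i = δ.N * s + δ.d j) : i = j ∧ r = s := by
  have hij : i = j := by
    have h1 := congrArg (fun n : ℕ => (n : ZMod δ.N)) h
    simp only [Nat.cast_add, Nat.cast_mul, ZMod.natCast_self, zero_mul, zero_add, δ.d_cong] at h1
    exact h1
  subst hij
  refine ⟨rfl, ?_⟩
  have : δ.N * r = δ.N * s := by omega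
  exact Nat.eq_of_mul_eq_mul_left δ.hN this

end V27pShape

/-- `b` has pole order `≤ m` (coordinate form). -/
def V27pLe (b : V27pB T) (m : ℕ) : Prop :=
  ∀ (j : ZMod δ.N) (r : ℕ), m < δ.N * r + δ.d j → (b j).coeff r = 0

namespace V27pLe

theorem mono {b : V27pB T} {m m' : ℕ} (h : V27pLe b m) (hm : m ≤ m') : V27pLe b m' :=
  fun j r hr => h j r (lt_of_le_of_lt hm hr)

theorem zero (m : ℕ) : V27pLe (0 : V27pB T) m := fun _ _ _ => by simp

theorem add {a b : V27pB T} {m : ℕ} (ha : V27pLe a m) (hb : V27pLe b m) : V27pLe (a + b) m :=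
  fun j r hr => by rw [V27pB.add_apply, coeff_add, ha j r hr, hb j r hr, add_zero]

theorem neg {a : V27pB T} {m : ℕ} (ha : V27pLe a m) : V27pLe (-a) m :=
  fun j r hr => by rw [V27pB.neg_apply, coeff_neg, ha j r hr, neg_zero]

theorem sub {a b : V27pB T} {m : ℕ} (ha : V27pLe a m) (hb : V27pLe b m) : V27pLe (a - b) m := by
  rw [sub_eq_add_neg]; exact ha.add hb.neg

theorem smul_const {a : V27pB T} {m : ℕ} (ha : V27pLe a m) (c : K) : V27pLe (c • a) m :=
  fun j r hr => by
    have : (c • a) j = C c * a j := by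
      rw [algebra_compatible_smul K[X] c a, V27pB.smul_apply]; rfl
    rw [this, coeff_C_mul, ha j r hr, mul_zero]

/-- degree bound for a non-zero coordinate -/
theorem natDegree_le {b : V27pB T} {m : ℕ} (h : V27pLe b m) (j : ZMod δ.N) (hj : b j ≠ 0) :
    δ.N * (b j).natDegree + δ.d j ≤ m := by
  by_contra hlt
  push Not at hlt
  have := h j _ hlt
  rw [coeff_natDegree, leadingCoeff_eq_zero] at this
  exact hj this

end V27pLe

/-- degree bound for the structure constants -/
theorem V27pTable.natDegree_c_le (T : V27pTable K δ) (i j k : ZMod δ.N) (h : T.c i j k ≠ 0) :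
    δ.N * (T.c i j k).natDegree + δ.d k ≤ δ.d i + δ.d j := by
  by_contra hlt
  push Not at hlt
  have := T.deg_le i j k _ hlt
  rw [coeff_natDegree, leadingCoeff_eq_zero] at this
  exact h this

theorem V27pTable.natDegree_c_lead_le (T : V27pTable K δ) (i j : ZMod δ.N) :
    (T.c i j (i + j)).natDegree ≤ δ.leadDeg i j := by
  by_cases h : T.c i j (i + j) = 0
  · simp [h]
  have h1 := T.natDegree_c_le i j (i + j) h
  have h2 := δ.leadDeg_spec i j
  have : δ.N * (T.c i j (i + j)).natDegree ≤ δ.N * δ.leadDeg i j := by omega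
  exact Nat.le_of_mul_le_mul_left this δ.hN

/-- a single term of the product has small degree -/
theorem v27p_term_coeff_eq_zero {a b : V27pB T}
    (i j k : ZMod δ.N) (D : ℕ)
    (hD : a i ≠ 0 → b j ≠ 0 →
      (δ.N * (a i).natDegree + δ.d i) + (δ.N * (b j).natDegree + δ.d j) < δ.N * D + δ.d k) :
    (a i * b j * T.c i j k).coeff D = 0 := by
  by_cases h1 : a i = 0
  · simp [h1]
  by_cases h2 : b j = 0
  · simp [h2]
  by_cases h3 : T.c i j k = 0
  · simp [h3]
  apply coeff_eq_zero_of_natDegree_lt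
  have hc := T.natDegree_c_le i j k h3
  have hd : (a i * b j * T.c i j k).natDegree ≤
      (a i).natDegree + (b j).natDegree + (T.c i j k).natDegree :=
    (natDegree_mul_le).trans (Nat.add_le_add_right natDegree_mul_le _)
  have hD' := hD h1 h2
  by_contra hge
  push Not at hge
  have h4 : δ.N * D ≤ δ.N * ((a i).natDegree + (b j).natDegree + (T.c i j k).natDegree) :=
    Nat.mul_le_mul_left _ (hge.trans hd)
  rw [Nat.mul_add, Nat.mul_add] at h4
  omega

theorem V27pLe.mul {a b : V27pB T} {A B : ℕ} (ha : V27pLe a A) (hb : V27pLe b B) :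
    V27pLe (a * b) (A + B) := by
  intro k D hD
  rw [V27pB.mul_apply, finsetSum_coeff]
  apply Finset.sum_eq_zero; intro i _
  rw [finsetSum_coeff]
  apply Finset.sum_eq_zero; intro j _
  apply v27p_term_coeff_eq_zero
  intro h1 h2
  have := ha.natDegree_le i h1
  have := hb.natDegree_le j h2
  omega

/-- the top coefficient of a product -/
theorem v27p_top_coeff {a b : V27pB T} {A B : ℕ} (ha : V27pLe a A) (hb : V27pLe b B)
    (i₀ j₀ : ZMod δ.N) (hi₀ : δ.N * (a i₀).natDegree + δ.d i₀ = A)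
    (hj₀ : δ.N * (b j₀).natDegree + δ.d j₀ = B) :
    ((a * b) (i₀ + j₀)).coeff ((a i₀).natDegree + (b j₀).natDegree + δ.leadDeg i₀ j₀) =
      (a i₀).leadingCoeff * (b j₀).leadingCoeff *
        (T.c i₀ j₀ (i₀ + j₀)).coeff (δ.leadDeg i₀ j₀) := by
  have hspec := δ.leadDeg_spec i₀ j₀
  rw [V27pB.mul_apply, finsetSum_coeff]
  rw [Finset.sum_eq_single i₀]
  · rw [finsetSum_coeff, Finset.sum_eq_single j₀]
    · rw [coeff_mul_add_eq_of_natDegree_le (natDegree_mul_le) (T.natDegree_c_lead_le i₀ j₀)]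
      rw [coeff_mul_add_eq_of_natDegree_le le_rfl le_rfl]
      rfl
    · intro j _ hj
      apply v27p_term_coeff_eq_zero
      intro _ h2
      have h3 := hb.natDegree_le j h2
      have h4 : δ.N * (b j).natDegree + δ.d j ≠ B := by
        intro h; rw [← hj₀] at h
        exact hj (δ.weight_inj h).1
      rw [Nat.mul_add, Nat.mul_add]
      omega
    · intro h; exact absurd (Finset.mem_univ _) h
  · intro i _ hi
    rw [finsetSum_coeff]
    apply Finset.sum_eq_zero; intro j _
    apply v27p_term_coeff_eq_zero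
    intro h1 h2
    have h3 := ha.natDegree_le i h1
    have h5 := hb.natDegree_le j h2
    have h4 : δ.N * (a i).natDegree + δ.d i ≠ A := by
      intro h; rw [← hi₀] at h
      exact hi (δ.weight_inj h).1
    rw [Nat.mul_add, Nat.mul_add]
    omega
  · intro h; exact absurd (Finset.mem_univ _) h

open scoped Classical in
/-- pole order, `ℕ`-valued (`0` at `0`) -/
def v27pOrd (b : V27pB T) : ℕ :=
  (Finset.univ.filter (fun j => b j ≠ 0)).sup (fun j => δ.N * (b j).natDegree + δ.d j)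

open scoped Classical in
theorem v27pOrd_le_iff (b : V27pB T) (m : ℕ) : v27pOrd b ≤ m ↔ V27pLe b m := by
  unfold v27pOrd
  rw [Finset.sup_le_iff]
  constructor
  · intro h j r hr
    by_cases hj : b j = 0
    · simp [hj]
    have h1 := h j (by simp [hj])
    apply coeff_eq_zero_of_natDegree_lt
    by_contra hge
    push Not at hge
    have := Nat.mul_le_mul_left δ.N hge
    omega
  · intro h j hj
    simp only [Finset.mem_filter, Finset.mem_univ, true_and] at hj
    exact h.natDegree_le j hj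

theorem v27pLe_ord (b : V27pB T) : V27pLe b (v27pOrd b) := (v27pOrd_le_iff b _).mp le_rfl

@[simp] theorem v27pOrd_zero : v27pOrd (0 : V27pB T) = 0 :=
  Nat.le_zero.mp ((v27pOrd_le_iff _ _).mpr (V27pLe.zero 0))

open scoped Classical in
/-- the pole order of a non-zero element is attained at a (unique) coordinate -/
theorem v27p_exists_top {b : V27pB T} (hb : b ≠ 0) :
    ∃ j, b j ≠ 0 ∧ δ.N * (b j).natDegree + δ.d j = v27pOrd b := by
  have hne : (Finset.univ.filter (fun j => b j ≠ 0)).Nonempty := by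
    by_contra h
    rw [Finset.not_nonempty_iff_eq_empty] at h
    apply hb
    refine V27pB.ext fun k => ?_
    by_contra hk
    rw [V27pB.zero_apply] at hk
    have : k ∈ Finset.univ.filter (fun j => b j ≠ 0) := by simp [hk]
    rw [h] at this
    simp at this
  obtain ⟨j, hj, hsup⟩ :=
    Finset.exists_mem_eq_sup _ hne (fun j => δ.N * (b j).natDegree + δ.d j)
  simp only [Finset.mem_filter, Finset.mem_univ, true_and] at hj
  exact ⟨j, hj, hsup.symm⟩

/-- helper24's (a): pole order exactly `m` from the coordinate box and the top coefficient -/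
theorem v27pOrd_eq_of {b : V27pB T} {m : ℕ} (h : V27pLe b m) (j : ZMod δ.N) (r : ℕ)
    (hjr : δ.N * r + δ.d j = m) (hne : (b j).coeff r ≠ 0) : v27pOrd b = m := by
  apply le_antisymm ((v27pOrd_le_iff b m).mpr h)
  by_contra hlt
  push Not at hlt
  exact hne (v27pLe_ord b j r (by omega))

theorem v27p_ne_zero_of_coeff {b : V27pB T} (j : ZMod δ.N) (r : ℕ) (hne : (b j).coeff r ≠ 0) :
    b ≠ 0 := by
  rintro rfl
  simp at hne

/-- helper24's (a), converse: if the top coefficient vanishes the pole order drops -/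
theorem v27pOrd_lt_of {b : V27pB T} {m : ℕ} (h : V27pLe b m) (j : ZMod δ.N) (r : ℕ)
    (hjr : δ.N * r + δ.d j = m) (h0 : (b j).coeff r = 0) (hb : b ≠ 0) : v27pOrd b < m := by
  obtain ⟨j', hj', htop⟩ := v27p_exists_top hb
  have hle := (v27pOrd_le_iff b m).mpr h
  rcases lt_or_eq_of_le hle with hlt | heq
  · exact hlt
  exfalso
  rw [heq, ← hjr] at htop
  obtain ⟨rfl, hr⟩ := δ.weight_inj htop
  rw [← hr, coeff_natDegree, leadingCoeff_eq_zero] at h0
  exact hj' h0

theorem v27pOrd_eq_iff {b : V27pB T} {m : ℕ} (j : ZMod δ.N) (r : ℕ)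
    (hjr : δ.N * r + δ.d j = m) (hb : b ≠ 0) :
    v27pOrd b = m ↔ V27pLe b m ∧ (b j).coeff r ≠ 0 := by
  constructor
  · intro h
    have hle : V27pLe b m := (v27pOrd_le_iff b m).mp h.le
    refine ⟨hle, fun h0 => ?_⟩
    exact absurd h (v27pOrd_lt_of hle j r hjr h0 hb).ne
  · rintro ⟨h1, h2⟩
    exact v27pOrd_eq_of h1 j r hjr h2

/-- additivity of the pole order, together with `a * b ≠ 0` -/
theorem v27pOrd_mul_aux {a b : V27pB T} (ha : a ≠ 0) (hb : b ≠ 0) :
    a * b ≠ 0 ∧ v27pOrd (a * b) = v27pOrd a + v27pOrd b := by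
  obtain ⟨i₀, hi₀, hA⟩ := v27p_exists_top ha
  obtain ⟨j₀, hj₀, hB⟩ := v27p_exists_top hb
  have htop := v27p_top_coeff (v27pLe_ord a) (v27pLe_ord b) i₀ j₀ hA hB
  have hne : ((a * b) (i₀ + j₀)).coeff
      ((a i₀).natDegree + (b j₀).natDegree + δ.leadDeg i₀ j₀) ≠ 0 := by
    rw [htop]
    exact mul_ne_zero (mul_ne_zero (leadingCoeff_ne_zero.mpr hi₀) (leadingCoeff_ne_zero.mpr hj₀))
      (T.lead i₀ j₀)
  refine ⟨v27p_ne_zero_of_coeff _ _ hne, ?_⟩
  refine v27pOrd_eq_of ((v27pLe_ord a).mul (v27pLe_ord b)) (i₀ + j₀) _ ?_ hne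
  have := δ.leadDeg_spec i₀ j₀
  rw [Nat.mul_add, Nat.mul_add]
  omega

theorem v27pOrd_mul {a b : V27pB T} (ha : a ≠ 0) (hb : b ≠ 0) :
    v27pOrd (a * b) = v27pOrd a + v27pOrd b := (v27pOrd_mul_aux ha hb).2

instance V27pB.instIsDomain : IsDomain (V27pB T) := by
  have : NoZeroDivisors (V27pB T) :=
    ⟨fun {a b} h => by
      by_contra hne
      push Not at hne
      exact (v27pOrd_mul_aux hne.1 hne.2).1 h⟩
  exact NoZeroDivisors.to_isDomain _

theorem v27pOrd_add_le (a b : V27pB T) : v27pOrd (a + b) ≤ max (v27pOrd a) (v27pOrd b) := by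
  rw [v27pOrd_le_iff]
  exact ((v27pLe_ord a).mono (le_max_left _ _)).add ((v27pLe_ord b).mono (le_max_right _ _))

theorem v27pOrd_neg (a : V27pB T) : v27pOrd (-a) = v27pOrd a := by
  apply le_antisymm
  · rw [v27pOrd_le_iff]; exact (v27pLe_ord a).neg
  · rw [v27pOrd_le_iff]
    have := (v27pLe_ord (-a)).neg
    rwa [neg_neg] at this

theorem v27pOrd_sub_le (a b : V27pB T) : v27pOrd (a - b) ≤ max (v27pOrd a) (v27pOrd b) := by
  rw [sub_eq_add_neg]
  have := v27pOrd_add_le a (-b)
  rwa [v27pOrd_neg] at this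

theorem V27pB.smul_e_apply (p : K[X]) (j k : ZMod δ.N) :
    (p • V27pB.e (T := T) j) k = if k = j then p else 0 := by
  rw [V27pB.smul_apply, V27pB.e_apply]
  split_ifs <;> simp

/-- pole order of a monomial `p • e j` -/
theorem v27pOrd_smul_e (p : K[X]) (hp : p ≠ 0) (j : ZMod δ.N) :
    v27pOrd (p • V27pB.e (T := T) j) = δ.N * p.natDegree + δ.d j := by
  refine v27pOrd_eq_of ?_ j p.natDegree rfl ?_
  · intro k r hr
    rw [V27pB.smul_e_apply]
    split_ifs with hk
    · subst hk
      apply coeff_eq_zero_of_natDegree_lt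
      by_contra hge
      push Not at hge
      have := Nat.mul_le_mul_left δ.N hge
      omega
    · simp
  · rw [V27pB.smul_e_apply, if_pos rfl, coeff_natDegree]
    exact leadingCoeff_ne_zero.mpr hp

theorem v27pOrd_e (j : ZMod δ.N) : v27pOrd (V27pB.e (T := T) j) = δ.d j := by
  have h := v27pOrd_smul_e (T := T) (1 : K[X]) one_ne_zero j
  rwa [one_smul, natDegree_one, Nat.mul_zero, Nat.zero_add] at h

theorem v27pOrd_algebraMap_poly (p : K[X]) (hp : p ≠ 0) :
    v27pOrd (algebraMap K[X] (V27pB T) p) = δ.N * p.natDegree := by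
  have h := v27pOrd_smul_e (T := T) p hp 0
  rwa [V27pB.e_zero, δ.d_zero, Nat.add_zero, ← Algebra.algebraMap_eq_smul_one] at h

theorem v27pOrd_x : v27pOrd (V27pB.x (T := T)) = δ.N := by
  unfold V27pB.x
  rw [v27pOrd_algebraMap_poly X X_ne_zero, natDegree_X, Nat.mul_one]

theorem v27pOrd_x_pow (n : ℕ) : v27pOrd (V27pB.x (T := T) ^ n) = δ.N * n := by
  unfold V27pB.x
  rw [← map_pow, v27pOrd_algebraMap_poly (X ^ n) (pow_ne_zero _ X_ne_zero), natDegree_X_pow]

theorem v27pOrd_algebraMap (c : K) : v27pOrd (algebraMap K (V27pB T) c) = 0 := by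
  rw [IsScalarTower.algebraMap_apply K K[X] (V27pB T)]
  by_cases hc : c = 0
  · subst hc; simp
  rw [v27pOrd_algebraMap_poly _ (by simpa using hc)]
  simp

theorem v27pOrd_one : v27pOrd (1 : V27pB T) = 0 := by
  have := v27pOrd_algebraMap (T := T) (1 : K)
  rwa [map_one] at this

theorem V27pB.smul_def' (c : K) (a : V27pB T) (j : ZMod δ.N) : (c • a) j = C c * a j := by
  rw [algebra_compatible_smul K[X] c a, V27pB.smul_apply]; rfl

/-- helper4's `hone`: the graded pieces of the pole-order filtration are at most one-dimensional -/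
theorem v27pOrd_hone {a b : V27pB T} (ha : a ≠ 0) (hb : b ≠ 0) (h : v27pOrd a = v27pOrd b) :
    ∃ c : K, a - c • b = 0 ∨ v27pOrd (a - c • b) < v27pOrd a := by
  obtain ⟨i₀, hi₀, hA⟩ := v27p_exists_top ha
  obtain ⟨j₀, hj₀, hB⟩ := v27p_exists_top hb
  have hw : δ.N * (a i₀).natDegree + δ.d i₀ = δ.N * (b j₀).natDegree + δ.d j₀ := by
    rw [hA, hB, h]
  obtain ⟨rfl, hr⟩ := δ.weight_inj hw
  refine ⟨(a i₀).leadingCoeff / (b i₀).leadingCoeff, ?_⟩
  by_cases h0 : a - ((a i₀).leadingCoeff / (b i₀).leadingCoeff) • b = 0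
  · exact Or.inl h0
  right
  have hle : V27pLe (a - ((a i₀).leadingCoeff / (b i₀).leadingCoeff) • b) (v27pOrd a) :=
    (v27pLe_ord a).sub (((v27pLe_ord b).mono h.ge).smul_const _)
  refine v27pOrd_lt_of hle i₀ (a i₀).natDegree hA ?_ h0
  rw [V27pB.sub_apply, coeff_sub, V27pB.smul_def', coeff_C_mul, coeff_natDegree]
  rw [hr, coeff_natDegree, div_mul_cancel₀ _ (leadingCoeff_ne_zero.mpr hj₀), sub_self]

/-- helper4's `hgcd`: the pole orders generate `ℤ` -/
theorem v27pOrd_hgcd :
    ∃ a b : V27pB T, a ≠ 0 ∧ b ≠ 0 ∧ v27pOrd a = v27pOrd b + 1 := by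
  have hx : (V27pB.x (T := T)) ≠ 0 := by
    intro h
    have := v27pOrd_x (T := T)
    rw [h, v27pOrd_zero] at this
    exact δ.hN.ne this
  by_cases hd : δ.d 1 = 0
  · -- then `N = 1`
    have h1 : ((δ.d 1 : ℕ) : ZMod δ.N) = 1 := δ.d_cong 1
    rw [hd, Nat.cast_zero] at h1
    have hN1 : δ.N = 1 := by
      have h2 : ((1 : ℕ) : ZMod δ.N) = 0 := by rw [Nat.cast_one]; exact h1.symm
      rw [ZMod.natCast_eq_zero_iff] at h2
      exact Nat.dvd_one.mp h2
    refine ⟨V27pB.x, 1, hx, one_ne_zero, ?_⟩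
    rw [v27pOrd_x, v27pOrd_one, hN1]
  · have hdvd : δ.N ∣ δ.d 1 - 1 := by
      have h1 : (((δ.d 1 - 1 : ℕ)) : ZMod δ.N) = 0 := by
        rw [Nat.cast_sub (Nat.one_le_iff_ne_zero.mpr hd), δ.d_cong, Nat.cast_one, sub_self]
      exact (ZMod.natCast_eq_zero_iff _ _).mp h1
    obtain ⟨q, hq⟩ := hdvd
    have he : (V27pB.e (T := T) 1) ≠ 0 := by
      intro h
      have := v27pOrd_e (T := T) 1
      rw [h, v27pOrd_zero] at this
      exact hd this.symm
    refine ⟨V27pB.e 1, V27pB.x ^ q, he, pow_ne_zero _ hx, ?_⟩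
    rw [v27pOrd_e, v27pOrd_x_pow]
    omega

end Fermat.Agent.V
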