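import Fermat.Agent.V.Pres.Defs

/-!
# Program V (S27), leaf (C3a): the ring `B = ⊕_j K[X] e_j` of a multiplication table
-/

noncomputable section

namespace Fermat.Agent.V

open Polynomial

section sums

variable {ι R : Type*} [Fintype ι] [AddCommMonoid R]

theorem v27p_sum4 (f : ι → ι → ι → ι → R) :
    ∑ l, ∑ k, ∑ i, ∑ j, f i j k l = ∑ i, ∑ j, ∑ k, ∑ l, f i j k l := by
  calc ∑ l, ∑ k, ∑ i, ∑ j, f i j k l
      = ∑ l, ∑ i, ∑ k, ∑ j, f i j k l :=
        Finset.sum_congr rfl fun _ _ => Finset.sum_comm
    _ = ∑ i, ∑ l, ∑ k, ∑ j, f i j k l := Finset.sum_comm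
    _ = ∑ i, ∑ l, ∑ j, ∑ k, f i j k l :=
        Finset.sum_congr rfl fun _ _ => Finset.sum_congr rfl fun _ _ => Finset.sum_comm
    _ = ∑ i, ∑ j, ∑ l, ∑ k, f i j k l :=
        Finset.sum_congr rfl fun _ _ => Finset.sum_comm
    _ = ∑ i, ∑ j, ∑ k, ∑ l, f i j k l :=
        Finset.sum_congr rfl fun _ _ => Finset.sum_congr rfl fun _ _ => Finset.sum_comm

theorem v27p_sum3 (f : ι → ι → ι → R) :
    ∑ l, ∑ j, ∑ k, f j k l = ∑ j, ∑ k, ∑ l, f j k l := by
  calc ∑ l, ∑ j, ∑ k, f j k l
      = ∑ j, ∑ l, ∑ k, f j k l := Finset.sum_comm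
    _ = ∑ j, ∑ k, ∑ l, f j k l :=
        Finset.sum_congr rfl fun _ _ => Finset.sum_comm

end sums

variable {K : Type*} [Field K] {δ : V27pShape}

/-- The underlying type of the ring of a table: coordinate vectors over `K[X]`. -/
def V27pB (_T : V27pTable K δ) : Type _ := ZMod δ.N → K[X]

namespace V27pB

variable (T : V27pTable K δ)

instance instAddCommGroup : AddCommGroup (V27pB T) :=
  inferInstanceAs (AddCommGroup (ZMod δ.N → K[X]))

instance instModulePoly : Module K[X] (V27pB T) :=
  inferInstanceAs (Module K[X] (ZMod δ.N → K[X]))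

variable {T}

@[ext] theorem ext {a b : V27pB T} (h : ∀ k, a k = b k) : a = b := funext h

@[simp] theorem add_apply (a b : V27pB T) (k : ZMod δ.N) : (a + b) k = a k + b k := rfl
@[simp] theorem zero_apply (k : ZMod δ.N) : (0 : V27pB T) k = 0 := rfl
@[simp] theorem neg_apply (a : V27pB T) (k : ZMod δ.N) : (-a) k = -a k := rfl
@[simp] theorem sub_apply (a b : V27pB T) (k : ZMod δ.N) : (a - b) k = a k - b k := rfl
@[simp] theorem smul_apply (r : K[X]) (a : V27pB T) (k : ZMod δ.N) : (r • a) k = r * a k := rfl

variable (T)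

/-- multiplication by the table -/
instance instMul : Mul (V27pB T) :=
  ⟨fun a b k => ∑ i, ∑ j, a i * b j * T.c i j k⟩

instance instOne : One (V27pB T) := ⟨fun j => if j = 0 then 1 else 0⟩

variable {T}

theorem mul_apply (a b : V27pB T) (k : ZMod δ.N) :
    (a * b) k = ∑ i, ∑ j, a i * b j * T.c i j k := rfl

theorem one_apply (j : ZMod δ.N) : (1 : V27pB T) j = if j = 0 then 1 else 0 := rfl

protected theorem mul_comm' (a b : V27pB T) : a * b = b * a := by
  refine V27pB.ext fun k => ?_
  rw [mul_apply, mul_apply]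
  rw [Finset.sum_comm (f := fun i j => a i * b j * T.c i j k)]
  apply Finset.sum_congr rfl; intro j _
  apply Finset.sum_congr rfl; intro i _
  rw [T.comm i j k]; ring

protected theorem one_mul' (b : V27pB T) : 1 * b = b := by
  refine V27pB.ext fun k => ?_
  rw [mul_apply]
  rw [Finset.sum_eq_single (0 : ZMod δ.N)]
  · simp only [one_apply, if_true, one_mul, T.one]
    rw [Finset.sum_eq_single k]
    · simp
    · intro j _ hj; simp [hj]
    · intro h; exact absurd (Finset.mem_univ _) h
  · intro i _ hi
    simp [one_apply, hi]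
  · intro h; exact absurd (Finset.mem_univ _) h

protected theorem mul_assoc' (a b c : V27pB T) : a * b * c = a * (b * c) := by
  refine V27pB.ext fun m => ?_
  have hL : (a * b * c) m = ∑ i, ∑ j, ∑ k, a i * b j * c k * ∑ l, T.c i j l * T.c l k m := by
    rw [mul_apply]
    simp only [mul_apply, Finset.sum_mul, Finset.mul_sum]
    rw [v27p_sum4 (f := fun i j k l => a i * b j * T.c i j l * c k * T.c l k m)]
    apply Finset.sum_congr rfl; intro i _
    apply Finset.sum_congr rfl; intro j _
    apply Finset.sum_congr rfl; intro k _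
    apply Finset.sum_congr rfl; intro l _
    ring
  have hR : (a * (b * c)) m = ∑ i, ∑ j, ∑ k, a i * b j * c k * ∑ l, T.c j k l * T.c i l m := by
    rw [mul_apply]
    simp only [mul_apply, Finset.sum_mul, Finset.mul_sum]
    apply Finset.sum_congr rfl; intro i _
    rw [v27p_sum3 (f := fun j k l => a i * (b j * c k * T.c j k l) * T.c i l m)]
    apply Finset.sum_congr rfl; intro j _
    apply Finset.sum_congr rfl; intro k _
    apply Finset.sum_congr rfl; intro l _
    ring
  rw [hL, hR]
  apply Finset.sum_congr rfl; intro i _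
  apply Finset.sum_congr rfl; intro j _
  apply Finset.sum_congr rfl; intro k _
  rw [T.assoc i j k m]

protected theorem left_distrib' (a b c : V27pB T) : a * (b + c) = a * b + a * c := by
  refine V27pB.ext fun k => ?_
  simp only [mul_apply, add_apply, mul_add, add_mul, Finset.sum_add_distrib]

protected theorem smul_mul' (r : K[X]) (a b : V27pB T) : (r • a) * b = r • (a * b) := by
  refine V27pB.ext fun k => ?_
  simp only [mul_apply, smul_apply, Finset.mul_sum]
  apply Finset.sum_congr rfl; intro i _
  apply Finset.sum_congr rfl; intro j _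
  ring

instance instCommRing : CommRing (V27pB T) :=
  { V27pB.instAddCommGroup T, V27pB.instMul T, V27pB.instOne T with
    mul_assoc := V27pB.mul_assoc'
    one_mul := V27pB.one_mul'
    mul_one := fun a => by rw [V27pB.mul_comm', V27pB.one_mul']
    mul_comm := V27pB.mul_comm'
    left_distrib := V27pB.left_distrib'
    right_distrib := fun a b c => by
      rw [V27pB.mul_comm', V27pB.left_distrib', V27pB.mul_comm' a c, V27pB.mul_comm' b c]
    zero_mul := fun a => by refine V27pB.ext fun k => ?_; simp [mul_apply]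
    mul_zero := fun a => by refine V27pB.ext fun k => ?_; simp [mul_apply] }

instance instAlgebraPoly : Algebra K[X] (V27pB T) :=
  Algebra.ofModule (fun r a b => V27pB.smul_mul' r a b)
    (fun r a b => by
      rw [mul_comm a (r • b), V27pB.smul_mul' r b a, mul_comm b a])

instance instAlgebra : Algebra K (V27pB T) :=
  Algebra.compHom (V27pB T) (algebraMap K K[X])

instance instIsScalarTower : IsScalarTower K K[X] (V27pB T) :=
  IsScalarTower.of_algebraMap_eq fun _ => rfl

/-- the basis vectors `e j` -/
def e (j : ZMod δ.N) : V27pB T := fun k => if k = j then 1 else 0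

theorem e_apply (j k : ZMod δ.N) : (e (T := T) j) k = if k = j then 1 else 0 := rfl

theorem e_zero : e (T := T) 0 = 1 := rfl

theorem e_mul_e_apply (i j k : ZMod δ.N) : ((e i * e j : V27pB T)) k = T.c i j k := by
  rw [mul_apply]
  rw [Finset.sum_eq_single i]
  · rw [Finset.sum_eq_single j]
    · simp [e_apply]
    · intro j' _ hj'; simp [e_apply, hj']
    · intro h; exact absurd (Finset.mem_univ _) h
  · intro i' _ hi'
    apply Finset.sum_eq_zero; intro j' _
    simp [e_apply, hi']
  · intro h; exact absurd (Finset.mem_univ _) h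

theorem eq_sum_smul_e (a : V27pB T) : a = ∑ j, a j • e (T := T) j := by
  refine V27pB.ext fun k => ?_
  have : (∑ j, a j • e (T := T) j) k = ∑ j, (a j • e (T := T) j) k := by
    have h := map_sum (Pi.evalAddMonoidHom (fun _ : ZMod δ.N => K[X]) k)
      (fun j => (a j • e (T := T) j : ZMod δ.N → K[X])) Finset.univ
    exact h
  rw [this]
  rw [Finset.sum_eq_single k]
  · simp [e_apply]
  · intro j _ hj; simp [e_apply, Ne.symm hj]
  · intro h; exact absurd (Finset.mem_univ _) h

theorem algebraMap_poly_apply (r : K[X]) (k : ZMod δ.N) :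
    (algebraMap K[X] (V27pB T) r) k = if k = 0 then r else 0 := by
  rw [Algebra.algebraMap_eq_smul_one, smul_apply, one_apply]
  split_ifs <;> simp

theorem algebraMap_apply (a : K) (k : ZMod δ.N) :
    (algebraMap K (V27pB T) a) k = if k = 0 then C a else 0 := by
  rw [IsScalarTower.algebraMap_apply K K[X] (V27pB T), algebraMap_poly_apply]
  rfl

instance instFree : Module.Free K[X] (V27pB T) :=
  inferInstanceAs (Module.Free K[X] (ZMod δ.N → K[X]))

instance instFinite : Module.Finite K[X] (V27pB T) :=
  inferInstanceAs (Module.Finite K[X] (ZMod δ.N → K[X]))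

instance instNontrivial : Nontrivial (V27pB T) :=
  ⟨⟨0, 1, fun h => by
    have := congrFun h (0 : ZMod δ.N)
    simp [one_apply] at this⟩⟩

/-- the coordinate `x` -/
def x : V27pB T := algebraMap K[X] (V27pB T) X

end V27pB

end Fermat.Agent.V
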