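import Mathlib

/-!
# Program V (S27-B'), glue for the instance `M = Frac B` of a one-point presentation

`B` a domain, finite free over `K[X]`; `M` its fraction field.  With `x` the image of `X`:
`x` is transcendental over `K`, `[M : K⟮x⟯] = rank_{K[X]} B`, the extension is separable as soon
as the degree is prime to the characteristic exponent, and `M / K` is essentially of finite type.
These are the binders of `v27c_isCurveOver` (helper7) and of the frozen statement S27.
-/

set_option autoImplicit false
set_option linter.unusedSectionVars false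

noncomputable section

namespace Fermat.Agent.V

open Polynomial IntermediateField

/-- a finite field extension whose degree is prime to the characteristic exponent is separable -/
theorem v27fg_isSeparable_of_not_dvd {F E : Type*} [Field F] [Field E] [Algebra F E]
    [FiniteDimensional F E] (p : ℕ) [ExpChar F p] (h : p = 1 ∨ ¬ p ∣ Module.finrank F E) :
    Algebra.IsSeparable F E := by
  rcases h with h1 | h
  · subst h1
    have : CharZero F := charZero_of_expChar_one' F
    infer_instance
  · rw [isSeparable_iff_finInsepDegree_eq_one]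
    obtain ⟨n, hn⟩ := finInsepDegree_eq_pow F E p
    have hmul := Field.finSepDegree_mul_finInsepDegree F E
    rcases n with _ | n
    · simpa using hn
    · exfalso
      apply h
      rw [← hmul, hn, pow_succ]
      exact Dvd.dvd.mul_left (Dvd.intro_left _ rfl) _

section glue

variable (K B M : Type*) [Field K] [CommRing B] [IsDomain B] [Algebra K[X] B]
  [Module.Free K[X] B] [Module.Finite K[X] B] [Field M] [Algebra B M] [IsFractionRing B M]
  [Algebra K M] [Algebra K B] [IsScalarTower K K[X] B] [IsScalarTower K B M]

/-- the coordinate function `x ∈ M` -/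
def v27fgX : M := algebraMap B M (algebraMap K[X] B X)

theorem v27fg_algebraMap_injective : Function.Injective (algebraMap K[X] B) :=
  FaithfulSMul.algebraMap_injective K[X] B

theorem v27fg_aeval (q : K[X]) :
    aeval (v27fgX K B M) q = algebraMap B M (algebraMap K[X] B q) := by
  unfold v27fgX
  rw [aeval_algebraMap_apply, aeval_algebraMap_apply, aeval_X_left_apply]

/-- (FG1) `x` is transcendental over `K`. -/
theorem v27fg_transcendental : Transcendental K (v27fgX K B M) := by
  rw [transcendental_iff]
  intro q hq
  rw [v27fg_aeval] at hq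
  have h1 := (IsFractionRing.injective B M) (hq.trans (map_zero _).symm)
  exact (v27fg_algebraMap_injective K B) (h1.trans (map_zero _).symm)

/-- the `K[X]`-algebra structure on `K⟮x⟯` by evaluation at `x` -/
def v27fgAlgAdjoin : Algebra K[X] K⟮v27fgX K B M⟯ :=
  (aeval (AdjoinSimple.gen K (v27fgX K B M))).toRingHom.toAlgebra

/-- the `K[X]`-algebra structure on `M` through `B` -/
def v27fgAlgM : Algebra K[X] M :=
  ((algebraMap B M).comp (algebraMap K[X] B)).toAlgebra

theorem v27fg_isFractionRing_adjoin :
    @IsFractionRing K[X] _ K⟮v27fgX K B M⟯ _ (v27fgAlgAdjoin K B M) := by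
  letI := v27fgAlgAdjoin K B M
  have hinj : Function.Injective (algebraMap K[X] K⟮v27fgX K B M⟯) := by
    intro a b hab
    have h1 : aeval (AdjoinSimple.gen K (v27fgX K B M)) a =
        aeval (AdjoinSimple.gen K (v27fgX K B M)) b := hab
    have h2 := congrArg (algebraMap K⟮v27fgX K B M⟯ M) h1
    rw [← aeval_algebraMap_apply, ← aeval_algebraMap_apply, AdjoinSimple.algebraMap_gen] at h2
    have h3 : aeval (v27fgX K B M) (a - b) = 0 := by rw [map_sub, h2, sub_self]
    have := (transcendental_iff.mp (v27fg_transcendental K B M)) _ h3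
    exact sub_eq_zero.mp this
  have : FaithfulSMul K[X] K⟮v27fgX K B M⟯ := (faithfulSMul_iff_algebraMap_injective _ _).mpr hinj
  refine IsFractionRing.of_field _ _ ?_
  rintro ⟨z, hz⟩
  obtain ⟨r, s, hrs⟩ := (mem_adjoin_simple_iff K z).mp hz
  refine ⟨r, s, Subtype.ext ?_⟩
  change z = ((aeval (AdjoinSimple.gen K (v27fgX K B M)) r /
    aeval (AdjoinSimple.gen K (v27fgX K B M)) s : K⟮v27fgX K B M⟯) : M)
  rw [IntermediateField.coe_div, ← IntermediateField.algebraMap_apply,
    ← IntermediateField.algebraMap_apply, ← aeval_algebraMap_apply, ← aeval_algebraMap_apply,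
    AdjoinSimple.algebraMap_gen]
  exact hrs

/-- (FG3) `[M : K⟮x⟯] = rank_{K[X]} B`. -/
theorem v27fg_finrank :
    Module.finrank K⟮v27fgX K B M⟯ M = Module.finrank K[X] B := by
  letI := v27fgAlgAdjoin K B M
  letI := v27fgAlgM K B M
  have := v27fg_isFractionRing_adjoin K B M
  have t1 : IsScalarTower K[X] B M := IsScalarTower.of_algebraMap_eq fun _ => rfl
  have t2 : IsScalarTower K[X] K⟮v27fgX K B M⟯ M := by
    refine IsScalarTower.of_algebraMap_eq fun q => ?_
    change algebraMap B M (algebraMap K[X] B q) =
      algebraMap K⟮v27fgX K B M⟯ M (aeval (AdjoinSimple.gen K (v27fgX K B M)) q)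
    rw [← aeval_algebraMap_apply, AdjoinSimple.algebraMap_gen, v27fg_aeval]
  exact IsFractionRing.finrank_eq K[X] K⟮v27fgX K B M⟯ B M

theorem v27fg_finrank_pos : 0 < Module.finrank K[X] B := Module.finrank_pos

/-- (FG2) `M` is finite over `K⟮x⟯`. -/
theorem v27fg_finiteDimensional : FiniteDimensional K⟮v27fgX K B M⟯ M := by
  apply FiniteDimensional.of_finrank_pos
  rw [v27fg_finrank]
  exact v27fg_finrank_pos K B

/-- (FG4) if the degree is prime to the characteristic exponent, `M / K⟮x⟯` is separable. -/
theorem v27fg_isSeparable (p : ℕ) [ExpChar K p] (h : p = 1 ∨ ¬ p ∣ Module.finrank K[X] B) :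
    Algebra.IsSeparable K⟮v27fgX K B M⟯ M := by
  have := v27fg_finiteDimensional K B M
  have : ExpChar K⟮v27fgX K B M⟯ p := expChar_of_injective_algebraMap
    (algebraMap K K⟮v27fgX K B M⟯).injective p
  refine v27fg_isSeparable_of_not_dvd p ?_
  rwa [v27fg_finrank]

/-- (FG5) `M / K` is essentially of finite type. -/
theorem v27fg_essFiniteType (K B M : Type*) [Field K] [CommRing B] [IsDomain B] [Algebra K[X] B]
    [Module.Finite K[X] B] [Field M] [Algebra B M] [IsFractionRing B M]
    [Algebra K M] [Algebra K B] [IsScalarTower K K[X] B] [IsScalarTower K B M] :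
    Algebra.EssFiniteType K M := by
  have h1 : Algebra.FiniteType K B :=
    Algebra.FiniteType.trans (S := K[X]) inferInstance inferInstance
  have h2 : Algebra.EssFiniteType B M := Algebra.EssFiniteType.of_isLocalization M (nonZeroDivisors B)
  exact Algebra.EssFiniteType.comp K B M

end glue

end Fermat.Agent.V
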