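import Fermat.Agent.V.Pres.Ring
import Fermat.Agent.V.Pres.FieldGlue

/-!
# Program V (S27-B'): the field-theoretic glue for `M_T = FractionRing (V27pB T)`

Instance of `Pres/FieldGlue.lean` for the table ring of helper26 (`Pres/Ring.lean`).  The domain
instance (from `Pres/Ord.lean`) is taken as an instance argument.
-/

set_option autoImplicit false

noncomputable section

namespace Fermat.Agent.V

open Polynomial IntermediateField

variable {K : Type*} [Field K] {δ : V27pShape} (T : V27pTable K δ) [IsDomain (V27pB T)]

theorem v27fg_finrank_table : Module.finrank K[X] (V27pB T) = δ.N := by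
  have : Module.finrank K[X] (ZMod δ.N → K[X]) = δ.N := by
    rw [Module.finrank_fintype_fun_eq_card, ZMod.card]
  exact this

/-- the coordinate function of `M_T` -/
abbrev v27fgXT : FractionRing (V27pB T) := v27fgX K (V27pB T) (FractionRing (V27pB T))

theorem v27fgXT_eq : v27fgXT T = algebraMap (V27pB T) (FractionRing (V27pB T)) V27pB.x := rfl

theorem v27fg_transcendental_table : Transcendental K (v27fgXT T) :=
  v27fg_transcendental K (V27pB T) (FractionRing (V27pB T))

instance v27fg_finiteDimensional_table :
    FiniteDimensional K⟮v27fgXT T⟯ (FractionRing (V27pB T)) :=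
  v27fg_finiteDimensional K (V27pB T) (FractionRing (V27pB T))

theorem v27fg_finrank_adjoin_table :
    Module.finrank K⟮v27fgXT T⟯ (FractionRing (V27pB T)) = δ.N := by
  rw [v27fg_finrank, v27fg_finrank_table]

theorem v27fg_isSeparable_table (p : ℕ) [ExpChar K p] (h : p = 1 ∨ ¬ p ∣ δ.N) :
    Algebra.IsSeparable K⟮v27fgXT T⟯ (FractionRing (V27pB T)) := by
  refine v27fg_isSeparable K (V27pB T) (FractionRing (V27pB T)) p ?_
  rwa [v27fg_finrank_table]

instance v27fg_essFiniteType_table : Algebra.EssFiniteType K (FractionRing (V27pB T)) :=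
  v27fg_essFiniteType K (V27pB T) (FractionRing (V27pB T))

end Fermat.Agent.V
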