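import Mathlib
import Fermat.Prelude.Def_AlgebraicCurve_IsCurveOver
import Fermat.Agent.S24.PlacesResidue
import Fermat.Agent.S24.KaehlerRank
import Fermat.Agent.S20.FFDifferent

/-!
# Program V (S27), leaf (C3c), abstract form: Dedekind one-point models are Prelude curves

`K` algebraically closed, `B` a Dedekind domain with fraction field `M`, a `K`-algebra all of
whose residue fields are finite over `K`; `Pinf : Place K M` a place of degree one such that every
other place of `M / K` contains `B`, and such that `dim_K B / bB` is the pole order of `b` at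
`Pinf`.  Then `M / K` has principal divisors (`HasPrincipalDivisors K M`), all residue fields are
finite, and, if `M / K(x)` is finite separable for some transcendental `x`, `IsCurveOver K M`.
-/

set_option autoImplicit false
set_option linter.unusedSectionVars false
set_option linter.style.haveILetI false

noncomputable section

open AlgebraicCurve IsDedekindDomain WithZero Fermat.Agent.S24 Fermat.Agent.S20

section Dedekind

variable {K M B : Type*} [Field K] [IsAlgClosed K] [Field M] [Algebra K M] [CommRing B]
  [IsDedekindDomain B] [Algebra K B] [Algebra B M] [IsScalarTower K B M] [IsFractionRing B M]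

/-- residue fields of `B` are `K`. -/
theorem v27c_residue_bijective
    (hfin : ∀ P : Ideal B, P.IsMaximal → Module.Finite K (B ⧸ P)) (P : Ideal B)
    (hP : P.IsMaximal) : Function.Bijective (algebraMap K (B ⧸ P)) := by
  letI := Ideal.Quotient.field P
  haveI := hfin P hP
  have : Algebra.IsIntegral K (B ⧸ P) := Algebra.IsIntegral.of_finite K (B ⧸ P)
  exact IsAlgClosed.algebraMap_bijective_of_isIntegral

/-- the order of `b` at the place of `P` is the multiplicity of `P` in `(b)`. -/
theorem v27c_ord_eq_multiplicity (P : HeightOneSpectrum B) {b : B} (hb : b ≠ 0) :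
    (Place.ofHeightOneSpectrum (K := K) (F := M) P).ord (algebraMap B M b)
      = (multiplicity P.asIdeal (Ideal.span {b}) : ℤ) := by
  rw [ord_ofHeightOneSpectrum, HeightOneSpectrum.valuation_of_algebraMap,
    P.intValuation_eq_exp_neg_multiplicity hb, log_exp, neg_neg]

theorem v27c_emultiplicity (P : HeightOneSpectrum B) {b : B} (hb : b ≠ 0) :
    emultiplicity P.asIdeal (Ideal.span {b}) = (multiplicity P.asIdeal (Ideal.span {b}) : ℕ) := by
  have hsr : Ideal.span {b} ≠ 0 := Submodule.span_singleton_eq_bot.mp.mt hb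
  have hfm : FiniteMultiplicity P.asIdeal (Ideal.span {b}) :=
    FiniteMultiplicity.of_prime_left P.prime hsr
  exact hfm.emultiplicity_eq_multiplicity

/-- **dimension formula**: `dim_K B / bB = Σ_P ord_P b`, a finite sum. -/
theorem v27c_finrank_quotient_span
    (hfin : ∀ P : Ideal B, P.IsMaximal → Module.Finite K (B ⧸ P)) {b : B} (hb : b ≠ 0) :
    (Function.support fun P : HeightOneSpectrum B =>
        multiplicity P.asIdeal (Ideal.span {b})).Finite ∧
      Module.Finite K (B ⧸ Ideal.span {b}) ∧
      Module.finrank K (B ⧸ Ideal.span {b})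
        = ∑ᶠ P : HeightOneSpectrum B, multiplicity P.asIdeal (Ideal.span {b}) := by
  have hsr : Ideal.span {b} ≠ 0 := Submodule.span_singleton_eq_bot.mp.mt hb
  have hres : ∀ P : Ideal B, P.IsMaximal → Function.Surjective (algebraMap K (B ⧸ P)) :=
    fun P hP => (v27c_residue_bijective hfin P hP).2
  obtain ⟨h1, h2⟩ := ffdim_quotient_eq_card_normalizedFactors K hres (Ideal.span {b}) hsr
  obtain ⟨h3, h4⟩ := ffdim_card_normalizedFactors_eq_finsum (Ideal.span {b}) hsr
    (fun P => multiplicity P.asIdeal (Ideal.span {b})) (fun P => v27c_emultiplicity P hb)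
  exact ⟨h3, h1, h2.trans h4⟩

end Dedekind

section OnePoint

variable {K M B : Type*} [Field K] [IsAlgClosed K] [Field M] [Algebra K M] [CommRing B]
  [IsDedekindDomain B] [Algebra K B] [Algebra B M] [IsScalarTower K B M] [IsFractionRing B M]

/-- every place is `Pinf` or the place of a prime of `B`. -/
theorem v27c_place_cases (Pinf : Place K M)
    (hcover : ∀ v : Place K M, v ≠ Pinf → ∀ b : B, algebraMap B M b ∈ v.toValuationSubring)
    (v : Place K M) :
    v = Pinf ∨ ∃ P : HeightOneSpectrum B, v = Place.ofHeightOneSpectrum (K := K) P := by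
  by_cases h : v = Pinf
  · exact Or.inl h
  · exact Or.inr (exists_eq_ofHeightOneSpectrum v (hcover v h))

/-- `Pinf` is not the place of a prime of `B`. -/
theorem v27c_Pinf_ne (Pinf : Place K M)
    (hpole : ∀ b : B, b ≠ 0 →
      (Module.finrank K (B ⧸ Ideal.span {b}) : ℤ) = - Pinf.ord (algebraMap B M b))
    (P : HeightOneSpectrum B) : Place.ofHeightOneSpectrum (K := K) P ≠ Pinf := by
  intro h
  obtain ⟨b, hbP, hb0⟩ := Submodule.exists_mem_ne_zero_of_ne_bot P.ne_bot
  have h1 := hpole b hb0
  rw [← h, v27c_ord_eq_multiplicity P hb0] at h1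
  have hdvd : P.asIdeal ∣ Ideal.span {b} := by
    rw [Ideal.dvd_iff_le, Ideal.span_singleton_le_iff_mem]
    exact hbP
  have hsr : Ideal.span {b} ≠ 0 := Submodule.span_singleton_eq_bot.mp.mt hb0
  have hfm : FiniteMultiplicity P.asIdeal (Ideal.span {b}) :=
    FiniteMultiplicity.of_prime_left P.prime hsr
  have hpos : 0 < multiplicity P.asIdeal (Ideal.span {b}) := by
    rw [Nat.pos_iff_ne_zero]
    intro h0
    exact (multiplicity_eq_zero.1 h0) hdvd
  have : (0 : ℤ) ≤ (Module.finrank K (B ⧸ Ideal.span {b}) : ℤ) := Int.natCast_nonneg _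
  omega

/-- the degree of the place of a prime of `B` is one. -/
theorem v27c_deg_ofHeightOneSpectrum
    (hfin : ∀ P : Ideal B, P.IsMaximal → Module.Finite K (B ⧸ P)) (P : HeightOneSpectrum B) :
    (Place.ofHeightOneSpectrum (K := K) (F := M) P).deg = 1 := by
  rw [deg_ofHeightOneSpectrum]
  have hbij := v27c_residue_bijective hfin P.asIdeal P.isMaximal
  rw [← Module.finrank_self K]
  exact ((AlgEquiv.ofBijective (Algebra.ofId K (B ⧸ P.asIdeal)) hbij).toLinearEquiv.finrank_eq).symm

/-- the divisor of a non-zero element of `B`. -/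
theorem v27c_exists_divisor_of_mem
    (hfin : ∀ P : Ideal B, P.IsMaximal → Module.Finite K (B ⧸ P))
    (Pinf : Place K M) (hdeg : Pinf.deg = 1)
    (hcover : ∀ v : Place K M, v ≠ Pinf → ∀ b : B, algebraMap B M b ∈ v.toValuationSubring)
    (hpole : ∀ b : B, b ≠ 0 →
      (Module.finrank K (B ⧸ Ideal.span {b}) : ℤ) = - Pinf.ord (algebraMap B M b))
    {b : B} (hb : b ≠ 0) :
    ∃ D : Divisor K M, (∀ v : Place K M, D v = v.ord (algebraMap B M b)) ∧
      Divisor.degree D = 0 := by
  classical
  obtain ⟨hsupp, -, hrank⟩ := v27c_finrank_quotient_span (K := K) hfin hb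
  set n : HeightOneSpectrum B → ℕ := fun P => multiplicity P.asIdeal (Ideal.span {b}) with hn
  have hsuppZ : (Function.support fun P : HeightOneSpectrum B => (n P : ℤ)).Finite := by
    refine hsupp.subset fun P hP => ?_
    rw [Function.mem_support] at hP ⊢
    exact fun h0 => hP (by rw [h0]; rfl)
  set E : HeightOneSpectrum B →₀ ℤ := Finsupp.ofSupportFinite (fun P => (n P : ℤ)) hsuppZ with hE
  have hEapp : ∀ P, E P = n P := fun P => rfl
  set ι : HeightOneSpectrum B → Place K M := Place.ofHeightOneSpectrum (K := K) (F := M) with hι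
  have hιinj : Function.Injective ι := ofHeightOneSpectrum_injective
  refine ⟨Finsupp.single Pinf (Pinf.ord (algebraMap B M b)) + Finsupp.mapDomain ι E, ?_, ?_⟩
  · intro v
    rcases v27c_place_cases Pinf hcover v with rfl | ⟨P, rfl⟩
    · rw [Finsupp.add_apply, Finsupp.single_eq_same, add_eq_left]
      apply Finsupp.mapDomain_of_notMem_range
      rintro ⟨P, hP⟩
      exact v27c_Pinf_ne v hpole P hP
    · have hne : ι P ≠ Pinf := v27c_Pinf_ne Pinf hpole P
      rw [Finsupp.add_apply, Finsupp.single_eq_of_ne hne, zero_add]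
      show (Finsupp.mapDomain ι E) (ι P) = _
      rw [Finsupp.mapDomain_apply hιinj, hEapp, v27c_ord_eq_multiplicity P hb]
  · rw [map_add, Divisor.degree_single, hdeg, Nat.cast_one, mul_one]
    have hdegmap : Divisor.degree (Finsupp.mapDomain ι E) = ∑ᶠ P, (n P : ℤ) := by
      rw [Finsupp.mapDomain, Finsupp.sum, map_sum]
      have : ∀ P ∈ E.support, Divisor.degree (Finsupp.single (ι P) (E P)) = (n P : ℤ) := by
        intro P _
        rw [Divisor.degree_single, v27c_deg_ofHeightOneSpectrum hfin P, Nat.cast_one, mul_one,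
          hEapp]
      rw [Finset.sum_congr rfl this]
      rw [finsum_eq_sum_of_support_subset (s := E.support)]
      intro P hP
      rw [Finset.mem_coe, Finsupp.mem_support_iff, hEapp]
      exact hP
    rw [hdegmap]
    have h1 := hpole b hb
    rw [hrank] at h1
    have h2 : ((∑ᶠ P : HeightOneSpectrum B, n P : ℕ) : ℤ) = ∑ᶠ P, (n P : ℤ) := by
      rw [finsum_eq_sum_of_support_subset (s := hsupp.toFinset) n (by simp),
        finsum_eq_sum_of_support_subset (s := hsupp.toFinset) (fun P => (n P : ℤ))]
      · push_cast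
        rfl
      · intro P hP
        rw [Function.mem_support] at hP
        simp only [Set.Finite.coe_toFinset, Function.mem_support]
        exact fun h0 => hP (by rw [h0]; rfl)
    rw [h2] at h1
    omega

/-- **(C3c)** a Dedekind one-point model has principal divisors. -/
theorem v27c_hasPrincipalDivisors
    (hfin : ∀ P : Ideal B, P.IsMaximal → Module.Finite K (B ⧸ P))
    (Pinf : Place K M) (hdeg : Pinf.deg = 1)
    (hcover : ∀ v : Place K M, v ≠ Pinf → ∀ b : B, algebraMap B M b ∈ v.toValuationSubring)
    (hpole : ∀ b : B, b ≠ 0 →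
      (Module.finrank K (B ⧸ Ideal.span {b}) : ℤ) = - Pinf.ord (algebraMap B M b)) :
    HasPrincipalDivisors K M := by
  refine ⟨fun f hf => ?_⟩
  obtain ⟨a, b, hb, rfl⟩ := IsFractionRing.div_surjective (A := B) f
  have hb0 : b ≠ 0 := nonZeroDivisors.ne_zero hb
  have ha0 : a ≠ 0 := by
    rintro rfl
    simp at hf
  have haM : algebraMap B M a ≠ 0 := by
    rwa [ne_eq, (IsFractionRing.injective B M).eq_iff' (map_zero _)]
  have hbM : algebraMap B M b ≠ 0 := by
    rwa [ne_eq, (IsFractionRing.injective B M).eq_iff' (map_zero _)]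
  obtain ⟨Da, hDa, hdega⟩ := v27c_exists_divisor_of_mem hfin Pinf hdeg hcover hpole ha0
  obtain ⟨Db, hDb, hdegb⟩ := v27c_exists_divisor_of_mem hfin Pinf hdeg hcover hpole hb0
  refine ⟨Da - Db, fun v => ?_, by rw [map_sub, hdega, hdegb, sub_zero]⟩
  rw [Finsupp.sub_apply, hDa, hDb, div_eq_mul_inv, v.ord_mul haM (inv_ne_zero hbM), v.ord_inv]
  ring

/-- **(C3c)** all residue fields of a Dedekind one-point model are finite over `K`. -/
theorem v27c_finiteResidue
    (hfin : ∀ P : Ideal B, P.IsMaximal → Module.Finite K (B ⧸ P))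
    (Pinf : Place K M) (hdeg : Pinf.deg = 1)
    (hcover : ∀ v : Place K M, v ≠ Pinf → ∀ b : B, algebraMap B M b ∈ v.toValuationSubring)
    (v : Place K M) : Module.Finite K v.ResidueField := by
  rcases v27c_place_cases Pinf hcover v with rfl | ⟨P, rfl⟩
  · exact Module.finite_of_finrank_pos (by
      have : Module.finrank K v.ResidueField = 1 := hdeg
      omega)
  · haveI := hfin P.asIdeal P.isMaximal
    exact Module.Finite.equiv (placeResidueEquiv (K := K) (F := M) P).toLinearEquiv

/-- **(C3c)** a Dedekind one-point model with a separating variable is a Prelude curve. -/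
theorem v27c_isCurveOver
    (hfin : ∀ P : Ideal B, P.IsMaximal → Module.Finite K (B ⧸ P))
    (Pinf : Place K M) (hdeg : Pinf.deg = 1)
    (hcover : ∀ v : Place K M, v ≠ Pinf → ∀ b : B, algebraMap B M b ∈ v.toValuationSubring)
    (hpole : ∀ b : B, b ≠ 0 →
      (Module.finrank K (B ⧸ Ideal.span {b}) : ℤ) = - Pinf.ord (algebraMap B M b))
    (x : M) (hx : Transcendental K x) [FiniteDimensional (IntermediateField.adjoin K {x}) M]
    [Algebra.IsSeparable (IntermediateField.adjoin K {x}) M] :
    IsCurveOver K M :=
  { toHasPrincipalDivisors := v27c_hasPrincipalDivisors hfin Pinf hdeg hcover hpole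
    finiteResidue := v27c_finiteResidue hfin Pinf hdeg hcover
    kaehler_free_rank_one := ⟨Module.Free.of_divisionRing M _, kaehlerRank_finrank_eq_one hx⟩ }

end OnePoint

end
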