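import Mathlib
import Fermat.Prelude.Def_AlgebraicCurve_IsCurveOver
import Fermat.Prelude.Def_AlgebraicCurve_Repartitions
import Fermat.Agent.V.Pres.OnePoint
import Fermat.Agent.V.RR.Closed

/-!
# Program V (S27), leaf (C3d), abstract form: the genus of a Dedekind one-point model

Same context as `V/Pres/OnePoint.lean`: `K` algebraically closed, `B` a Dedekind `K`-algebra with
fraction field `M`, all residue fields finite over `K`, `Pinf : Place K M` of degree one, every other
place contains `B`, and `dim_K B / bB` is the pole order of `b` at `Pinf`.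

* `v27c_mem_rrSpace_single_iff` : `L(m · Pinf)` is the image of `{b ∈ B | b = 0 ∨ -ord_∞ b ≤ m}`.
* `v27c_genus` : if `dim_K {b ∈ B | b = 0 ∨ -ord_∞ b ≤ m} = m + 1 - g₀` for all `m ≥ m₀`, then
  `genusFF K M = g₀` (by the closed Riemann–Roch theorem `v27x_rr`).
-/

set_option autoImplicit false
set_option linter.unusedSectionVars false
set_option linter.style.haveILetI false

noncomputable section

open AlgebraicCurve IsDedekindDomain WithZero Fermat.Agent.S24 Fermat.Agent.S20
  Fermat.Agent.V.RR

section Genus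

variable {K M B : Type*} [Field K] [IsAlgClosed K] [Field M] [Algebra K M] [CommRing B]
  [IsDedekindDomain B] [Algebra K B] [Algebra B M] [IsScalarTower K B M] [IsFractionRing B M]

/-- an element of `M` which is integral at all the places of primes of `B` lies in `B`. -/
theorem v27c_mem_range_of_forall_mem (f : M)
    (h : ∀ P : HeightOneSpectrum B,
      f ∈ (Place.ofHeightOneSpectrum (K := K) (F := M) P).toValuationSubring) :
    f ∈ (algebraMap B M).range :=
  HeightOneSpectrum.mem_integers_of_valuation_le_one M f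
    fun P => (mem_ofHeightOneSpectrum_iff (K := K) P f).1 (h P)

/-- `L(m · Pinf)` is the set of elements of `B` of pole order `≤ m` at `Pinf`. -/
theorem v27c_mem_rrSpace_single_iff (Pinf : Place K M)
    (hcover : ∀ v : Place K M, v ≠ Pinf → ∀ b : B, algebraMap B M b ∈ v.toValuationSubring)
    (hpole : ∀ b : B, b ≠ 0 →
      (Module.finrank K (B ⧸ Ideal.span {b}) : ℤ) = - Pinf.ord (algebraMap B M b))
    (m : ℤ) (f : M) :
    f ∈ riemannRochSpace (Finsupp.single Pinf m : Divisor K M) ↔
      ∃ b : B, (b = 0 ∨ -Pinf.ord (algebraMap B M b) ≤ m) ∧ algebraMap B M b = f := by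
  rw [mem_riemannRochSpace_iff]
  constructor
  · intro h
    have hmem : f ∈ (algebraMap B M).range := by
      apply v27c_mem_range_of_forall_mem (K := K)
      intro P
      have hne : Place.ofHeightOneSpectrum (K := K) (F := M) P ≠ Pinf := v27c_Pinf_ne Pinf hpole P
      rcases h (Place.ofHeightOneSpectrum (K := K) P) with h0 | h1
      · rw [h0]
        exact zero_mem _
      · rw [Finsupp.single_eq_of_ne hne, neg_zero] at h1
        exact PlaceOrd.mem_of_ord_nonneg _ h1
    obtain ⟨b, rfl⟩ := hmem
    refine ⟨b, ?_, rfl⟩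
    rcases h Pinf with h0 | h1
    · left
      exact (IsFractionRing.injective B M) (h0.trans (map_zero _).symm)
    · right
      rw [Finsupp.single_eq_same] at h1
      omega
  · rintro ⟨b, hb, rfl⟩ v
    by_cases hv : v = Pinf
    · subst hv
      rcases hb with rfl | hb
      · left
        exact map_zero _
      · right
        rw [Finsupp.single_eq_same]
        omega
    · right
      rw [Finsupp.single_eq_of_ne hv, neg_zero]
      exact PlaceOrd.ord_nonneg_of_mem v (hcover v hv b)

/-- a Dedekind one-point model with a separating variable is essentially of finite type. -/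
theorem v27c_essFiniteType (x : M) [FiniteDimensional (IntermediateField.adjoin K {x}) M] :
    Algebra.EssFiniteType K M :=
  kaehlerRank_essFiniteType x

/-- **(C3d)** general form: `L m` any family of `K`-subspaces of `B` cut out by the pole order. -/
theorem v27c_genus_of_family
    (hfin : ∀ P : Ideal B, P.IsMaximal → Module.Finite K (B ⧸ P))
    (Pinf : Place K M) (hdeg : Pinf.deg = 1)
    (hcover : ∀ v : Place K M, v ≠ Pinf → ∀ b : B, algebraMap B M b ∈ v.toValuationSubring)
    (hpole : ∀ b : B, b ≠ 0 →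
      (Module.finrank K (B ⧸ Ideal.span {b}) : ℤ) = - Pinf.ord (algebraMap B M b))
    (x : M) (hx : Transcendental K x) [FiniteDimensional (IntermediateField.adjoin K {x}) M]
    [Algebra.IsSeparable (IntermediateField.adjoin K {x}) M]
    (L : ℕ → Submodule K B)
    (hL : ∀ (m : ℕ) (b : B), b ∈ L m ↔ b = 0 ∨ -Pinf.ord (algebraMap B M b) ≤ m)
    (g₀ m₀ : ℕ)
    (hdim : ∀ m : ℕ, m₀ ≤ m → (Module.finrank K (L m) : ℤ) = m + 1 - g₀) :
    genusFF K M = g₀ := by
  haveI : IsCurveOver K M := v27c_isCurveOver hfin Pinf hdeg hcover hpole x hx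
  haveI : Algebra.EssFiniteType K M := v27c_essFiniteType x
  have R : V27RR K M (genusFF K M) := v27x_rr
  set g := genusFF K M with hg
  set m : ℕ := m₀ + 2 * g with hm
  set D : Divisor K M := Finsupp.single Pinf (m : ℤ) with hD
  have hdegD : Divisor.degree D = m := by
    rw [hD, Divisor.degree_single, hdeg, Nat.cast_one, mul_one]
  obtain ⟨h1, -⟩ := R.finrank_of_lt (D := D) (by rw [hdegD, hm]; push_cast; omega)
  have h2 := hdim m (by omega)
  -- the linear equivalence `L m ≃ L(m · Pinf)`
  let φ : B →ₗ[K] M := (IsScalarTower.toAlgHom K B M).toLinearMap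
  have hφ : ∀ b, φ b = algebraMap B M b := fun b => rfl
  have hφinj : Function.Injective φ := IsFractionRing.injective B M
  have hmap : (L m).map φ = riemannRochSpace D := by
    ext f
    rw [Submodule.mem_map, hD, v27c_mem_rrSpace_single_iff Pinf hcover hpole]
    constructor
    · rintro ⟨b, hb, rfl⟩
      exact ⟨b, (hL m b).1 hb, rfl⟩
    · rintro ⟨b, hb, rfl⟩
      exact ⟨b, (hL m b).2 hb, rfl⟩
  have hfr : Module.finrank K (L m) = Module.finrank K (riemannRochSpace D) := by
    rw [← hmap]
    exact ((L m).equivMapOfInjective φ hφinj).finrank_eq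
  rw [hfr, h1, hdegD] at h2
  omega

/-- the subspace of `B` of elements of pole order `≤ m` at `Pinf`. -/
def v27cPoleLE (Pinf : Place K M) (m : ℤ) : Submodule K B :=
  (riemannRochSpace (Finsupp.single Pinf m : Divisor K M)).comap
    (IsScalarTower.toAlgHom K B M).toLinearMap

theorem v27c_mem_poleLE_iff (Pinf : Place K M)
    (hcover : ∀ v : Place K M, v ≠ Pinf → ∀ b : B, algebraMap B M b ∈ v.toValuationSubring)
    (hpole : ∀ b : B, b ≠ 0 →
      (Module.finrank K (B ⧸ Ideal.span {b}) : ℤ) = - Pinf.ord (algebraMap B M b))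
    (m : ℤ) (b : B) :
    b ∈ v27cPoleLE (B := B) Pinf m ↔ b = 0 ∨ -Pinf.ord (algebraMap B M b) ≤ m := by
  show algebraMap B M b ∈ riemannRochSpace (Finsupp.single Pinf m : Divisor K M) ↔ _
  rw [v27c_mem_rrSpace_single_iff Pinf hcover hpole]
  constructor
  · rintro ⟨b', hb', h⟩
    rwa [← (IsFractionRing.injective B M) h]
  · intro h
    exact ⟨b, h, rfl⟩

/-- **(C3d)** the genus of a Dedekind one-point model from the pole-order count. -/
theorem v27c_genus
    (hfin : ∀ P : Ideal B, P.IsMaximal → Module.Finite K (B ⧸ P))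
    (Pinf : Place K M) (hdeg : Pinf.deg = 1)
    (hcover : ∀ v : Place K M, v ≠ Pinf → ∀ b : B, algebraMap B M b ∈ v.toValuationSubring)
    (hpole : ∀ b : B, b ≠ 0 →
      (Module.finrank K (B ⧸ Ideal.span {b}) : ℤ) = - Pinf.ord (algebraMap B M b))
    (x : M) (hx : Transcendental K x) [FiniteDimensional (IntermediateField.adjoin K {x}) M]
    [Algebra.IsSeparable (IntermediateField.adjoin K {x}) M]
    (g₀ m₀ : ℕ)
    (hdim : ∀ m : ℕ, m₀ ≤ m →
      (Module.finrank K (v27cPoleLE (B := B) Pinf (m : ℤ)) : ℤ) = m + 1 - g₀) :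
    genusFF K M = g₀ :=
  v27c_genus_of_family hfin Pinf hdeg hcover hpole x hx
    (fun m => v27cPoleLE (B := B) Pinf (m : ℤ))
    (fun m b => v27c_mem_poleLE_iff Pinf hcover hpole (m : ℤ) b) g₀ m₀ hdim

/-- **(C3d)** the whole package at once: a Dedekind one-point model with a separating variable and
the pole-order count is a Prelude curve, essentially of finite type, of genus `g₀`, and satisfies
Riemann–Roch with that genus. -/
theorem v27c_curve_package
    (hfin : ∀ P : Ideal B, P.IsMaximal → Module.Finite K (B ⧸ P))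
    (Pinf : Place K M) (hdeg : Pinf.deg = 1)
    (hcover : ∀ v : Place K M, v ≠ Pinf → ∀ b : B, algebraMap B M b ∈ v.toValuationSubring)
    (hpole : ∀ b : B, b ≠ 0 →
      (Module.finrank K (B ⧸ Ideal.span {b}) : ℤ) = - Pinf.ord (algebraMap B M b))
    (x : M) (hx : Transcendental K x) [FiniteDimensional (IntermediateField.adjoin K {x}) M]
    [Algebra.IsSeparable (IntermediateField.adjoin K {x}) M]
    (L : ℕ → Submodule K B)
    (hL : ∀ (m : ℕ) (b : B), b ∈ L m ↔ b = 0 ∨ -Pinf.ord (algebraMap B M b) ≤ m)
    (g₀ m₀ : ℕ)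
    (hdim : ∀ m : ℕ, m₀ ≤ m → (Module.finrank K (L m) : ℤ) = m + 1 - g₀) :
    IsCurveOver K M ∧ Algebra.EssFiniteType K M ∧ genusFF K M = g₀ ∧ V27RR K M g₀ := by
  haveI : IsCurveOver K M := v27c_isCurveOver hfin Pinf hdeg hcover hpole x hx
  haveI : Algebra.EssFiniteType K M := v27c_essFiniteType x
  have hg := v27c_genus_of_family hfin Pinf hdeg hcover hpole x hx L hL g₀ m₀ hdim
  refine ⟨inferInstance, inferInstance, hg, ?_⟩
  rw [← hg]
  exact v27x_rr

end Genus

end
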