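import Fermat.Agent.V.Pres.Ord

/-!
# Program V (S27), leaf (C3a): the spaces `L_m` of the table ring and their dimension

`v27pL T m = {b | pole order ≤ m}` as a `K`-subspace of `V27pB T`; it is finite-dimensional, of
dimension `#{(j, r) | N r + d j ≤ m} = Σ_j (m + N - d j) / N`, which is `m + 1 - genus` for
`m ≥ δ.bound`.
-/

noncomputable section

namespace Fermat.Agent.V

open Polynomial

section arith

/-- Hermite-type identity -/
theorem v27p_sum_range_div (N : ℕ) (hN : 0 < N) (m : ℕ) :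
    ∑ ρ ∈ Finset.range N, (m + N - ρ) / N = m + 1 := by
  have hmod := Nat.mod_lt m hN
  have hdm := Nat.div_add_mod m N
  have key : ∀ ρ ∈ Finset.range N,
      (m + N - ρ) / N = m / N + if ρ ≤ m % N then 1 else 0 := by
    intro ρ hρ
    rw [Finset.mem_range] at hρ
    split_ifs with h
    · have h1 : m + N - ρ = (m % N - ρ) + N * (m / N + 1) := by rw [Nat.mul_add]; omega
      rw [h1, Nat.add_mul_div_left _ _ hN, Nat.div_eq_of_lt (by omega)]; omega
    · have h1 : m + N - ρ = (m % N + N - ρ) + N * (m / N) := by omega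
      rw [h1, Nat.add_mul_div_left _ _ hN, Nat.div_eq_of_lt (by omega)]; omega
  rw [Finset.sum_congr rfl key, Finset.sum_add_distrib, Finset.sum_const, Finset.card_range,
    smul_eq_mul, Finset.sum_boole]
  have hf : (Finset.range N).filter (fun ρ => ρ ≤ m % N) = Finset.range (m % N + 1) := by
    ext ρ
    simp only [Finset.mem_filter, Finset.mem_range]
    omega
  rw [hf, Finset.card_range]
  push_cast
  omega

theorem v27p_sum_zmod_div (N : ℕ) [NeZero N] (m : ℕ) :
    ∑ j : ZMod N, (m + N - j.val) / N = m + 1 := by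
  cases N with
  | zero => exact absurd rfl (NeZero.ne 0)
  | succ n =>
    change ∑ j : Fin (n + 1), (m + (n + 1) - (j : ℕ)) / (n + 1) = m + 1
    rw [Fin.sum_univ_eq_sum_range (fun i => (m + (n + 1) - i) / (n + 1)) (n + 1)]
    exact v27p_sum_range_div (n + 1) (Nat.succ_pos n) m

end arith

namespace V27pShape

/-- from here on the dimension of `L_m` is `m + 1 - genus` -/
def bound (δ : V27pShape) : ℕ := ∑ j : ZMod δ.N, δ.d j

theorem d_le_bound (δ : V27pShape) (j : ZMod δ.N) : δ.d j ≤ δ.bound :=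
  Finset.single_le_sum (f := fun j => δ.d j) (fun _ _ => Nat.zero_le _) (Finset.mem_univ j)

theorem d_mod (δ : V27pShape) (j : ZMod δ.N) : δ.d j % δ.N = j.val := by
  have h := congrArg ZMod.val (δ.d_cong j)
  rwa [ZMod.val_natCast] at h

/-- number of monomials `x^r e_j` of pole order `≤ m`, for `j` fixed -/
def cnt (δ : V27pShape) (m : ℕ) (j : ZMod δ.N) : ℕ := (m + δ.N - δ.d j) / δ.N

theorem lt_cnt_iff (δ : V27pShape) (m : ℕ) (j : ZMod δ.N) (r : ℕ) :
    r < δ.cnt m j ↔ δ.N * r + δ.d j ≤ m := by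
  unfold cnt
  rw [Nat.lt_iff_add_one_le, Nat.le_div_iff_mul_le δ.hN, Nat.add_mul, Nat.one_mul,
    Nat.mul_comm r δ.N]
  have := δ.hN
  omega

theorem cnt_add_div (δ : V27pShape) (m : ℕ) (hm : δ.bound ≤ m) (j : ZMod δ.N) :
    δ.cnt m j + δ.d j / δ.N = (m + δ.N - j.val) / δ.N := by
  unfold cnt
  have h1 := δ.d_le_bound j
  have h2 := Nat.div_add_mod (δ.d j) δ.N
  rw [δ.d_mod j] at h2
  have h3 : m + δ.N - δ.d j = (m + δ.N - j.val) - δ.N * (δ.d j / δ.N) := by omega
  rw [h3, Nat.sub_mul_div]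
  have h4 : δ.d j / δ.N ≤ (m + δ.N - j.val) / δ.N := by
    rw [Nat.le_div_iff_mul_le δ.hN, Nat.mul_comm]
    omega
  omega

theorem sum_cnt (δ : V27pShape) (m : ℕ) (hm : δ.bound ≤ m) :
    ∑ j, δ.cnt m j + δ.genus = m + 1 := by
  unfold genus
  rw [← Finset.sum_add_distrib, Finset.sum_congr rfl fun j _ => δ.cnt_add_div m hm j]
  exact v27p_sum_zmod_div δ.N m

end V27pShape

variable {K : Type*} [Field K] {δ : V27pShape}

/-- the space `L_m` of elements of pole order `≤ m` -/
def v27pL (T : V27pTable K δ) (m : ℕ) : Submodule K (V27pB T) where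
  carrier := {b | V27pLe b m}
  add_mem' := fun ha hb => V27pLe.add ha hb
  zero_mem' := V27pLe.zero m
  smul_mem' := fun c _ ha => V27pLe.smul_const ha c

variable {T : V27pTable K δ}

theorem mem_v27pL {m : ℕ} {b : V27pB T} : b ∈ v27pL T m ↔ V27pLe b m := Iff.rfl

theorem mem_v27pL_iff_ord {m : ℕ} {b : V27pB T} : b ∈ v27pL T m ↔ v27pOrd b ≤ m :=
  (v27pOrd_le_iff b m).symm

/-- helper16's `hL` -/
theorem mem_v27pL_iff_ord' (m : ℕ) (b : V27pB T) : b ∈ v27pL T m ↔ b = 0 ∨ v27pOrd b ≤ m := by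
  rw [mem_v27pL_iff_ord]
  constructor
  · exact Or.inr
  · rintro (rfl | h)
    · simp
    · exact h

theorem v27pL_mono {m m' : ℕ} (h : m ≤ m') : v27pL T m ≤ v27pL T m' :=
  fun _ hb => V27pLe.mono hb h

theorem v27pLe_iff_degreeLT (b : V27pB T) (m : ℕ) :
    V27pLe b m ↔ ∀ j, b j ∈ degreeLT K (δ.cnt m j) := by
  constructor
  · intro h j
    rw [mem_degreeLT, degree_lt_iff_coeff_zero]
    intro r hr
    apply h j r
    by_contra hle
    push Not at hle
    exact absurd ((δ.lt_cnt_iff m j r).mpr hle) (not_lt.mpr hr)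
  · intro h j r hr
    have hj := h j
    rw [mem_degreeLT, degree_lt_iff_coeff_zero] at hj
    apply hj r
    by_contra hlt
    push Not at hlt
    have := (δ.lt_cnt_iff m j r).mp hlt
    omega

/-- coordinates: `L_m ≃ Π_j K[X]_{< cnt m j}` -/
def v27pLEquiv (T : V27pTable K δ) (m : ℕ) :
    v27pL T m ≃ₗ[K] ((j : ZMod δ.N) → degreeLT K (δ.cnt m j)) where
  toFun b := fun j => ⟨b.1 j, (v27pLe_iff_degreeLT b.1 m).mp b.2 j⟩
  map_add' a b := by
    funext j
    apply Subtype.ext
    rfl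
  map_smul' c b := by
    funext j
    apply Subtype.ext
    change (c • b.1) j = c • (b.1 j)
    rw [V27pB.smul_def', smul_eq_C_mul]
  invFun f := ⟨fun j => (f j).1,
    (v27pLe_iff_degreeLT (T := T) (fun j => (f j).1) m).mpr fun j => (f j).2⟩
  left_inv b := by
    apply Subtype.ext
    rfl
  right_inv f := by
    funext j
    apply Subtype.ext
    rfl

instance v27pL_finite (T : V27pTable K δ) (m : ℕ) : Module.Finite K (v27pL T m) := by
  have : ∀ j : ZMod δ.N, Module.Finite K (degreeLT K (δ.cnt m j)) := fun j =>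
    Module.Finite.equiv (degreeLTEquiv K (δ.cnt m j)).symm
  exact Module.Finite.equiv (v27pLEquiv T m).symm

theorem v27p_finrank_L_eq (T : V27pTable K δ) (m : ℕ) :
    Module.finrank K (v27pL T m) = ∑ j, δ.cnt m j := by
  have : ∀ j : ZMod δ.N, Module.Finite K (degreeLT K (δ.cnt m j)) := fun j =>
    Module.Finite.equiv (degreeLTEquiv K (δ.cnt m j)).symm
  rw [(v27pLEquiv T m).finrank_eq, Module.finrank_pi_fintype]
  apply Finset.sum_congr rfl
  intro j _
  rw [(degreeLTEquiv K (δ.cnt m j)).finrank_eq, Module.finrank_fin_fun]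

/-- helper16's / helper7's `hdim` -/
theorem v27p_finrank_L (T : V27pTable K δ) (m : ℕ) (hm : δ.bound ≤ m) :
    Module.finrank K (v27pL T m) + δ.genus = m + 1 := by
  rw [v27p_finrank_L_eq, δ.sum_cnt m hm]

end Fermat.Agent.V
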