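import Mathlib
import Fermat.Prelude.Def_AlgebraicCurve_DivisorClassGroup
import Fermat.Agent.S24.PlaceOrd

/-!
# Program V (S27), route M, leaf (C3a-INF): degree function ⟹ place at infinity
(prefix `v27dp_`, structure `V27dpDeg`)

`B` a `K`-algebra domain with fraction field `M`, `ρ : B → ℕ` a "pole order" (`V27dpDeg K ρ`):
additive on nonzero elements, ultrametric, `0` on constants, one-dimensional graded pieces, value
group `ℤ`.  Then

* `v27dpVal` : the valuation `v(a/b) = exp (ρ a - ρ b)` on `M`;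
* `v27dpPlace` : the Prelude place at infinity, with `ord (b) = - ρ b` (`v27dp_ord_algebraMap`),
  residue field `K` (`v27dp_residue`, `v27dp_deg`);
* adapters to the shapes of `V/Pres/OnePoint.lean` (helper7) and `V/Pres/PoleQuot.lean` (helper16):
  `v27dp_hpole`, `v27dp_rho_eq_toNat`, `v27dp_box_iff`.
-/

set_option autoImplicit false

noncomputable section

namespace Fermat.Agent.V

open AlgebraicCurve WithZero

/-- axioms of a pole-order function -/
structure V27dpDeg (K : Type*) {B : Type*} [Field K] [CommRing B] [Algebra K B] (ρ : B → ℕ) :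
    Prop where
  mul : ∀ a b : B, a ≠ 0 → b ≠ 0 → ρ (a * b) = ρ a + ρ b
  add : ∀ a b : B, a ≠ 0 → b ≠ 0 → a + b ≠ 0 → ρ (a + b) ≤ max (ρ a) (ρ b)
  const : ∀ c : K, c ≠ 0 → ρ (algebraMap K B c) = 0
  one_dim : ∀ a b : B, a ≠ 0 → b ≠ 0 → ρ a = ρ b →
    ∃ c : K, a - c • b = 0 ∨ ρ (a - c • b) < ρ a
  gcd : ∃ a b : B, a ≠ 0 ∧ b ≠ 0 ∧ ρ a = ρ b + 1

section

variable {K B : Type*} [Field K] [CommRing B] [IsDomain B] [Algebra K B] {ρ : B → ℕ}

theorem V27dpDeg.one (h : V27dpDeg K ρ) : ρ 1 = 0 := by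
  have := h.const 1 one_ne_zero
  rwa [map_one] at this

theorem V27dpDeg.smul (h : V27dpDeg K ρ) {c : K} (hc : c ≠ 0) {a : B} (ha : a ≠ 0) :
    ρ (c • a) = ρ a := by
  have hc' : algebraMap K B c ≠ 0 := by
    intro h0
    exact hc ((map_eq_zero_iff _ (FaithfulSMul.algebraMap_injective K B)).mp h0)
  rw [Algebra.smul_def, h.mul _ _ hc' ha, h.const c hc, zero_add]

theorem V27dpDeg.neg (h : V27dpDeg K ρ) {a : B} (ha : a ≠ 0) : ρ (-a) = ρ a := by
  have : -a = (-1 : K) • a := by simp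
  rw [this, h.smul (neg_ne_zero.mpr one_ne_zero) ha]

open scoped Classical in
/-- the valuation on `B` -/
def v27dpValB (h : V27dpDeg K ρ) : Valuation B ℤᵐ⁰ where
  toFun b := if b = 0 then 0 else exp (ρ b : ℤ)
  map_zero' := if_pos rfl
  map_one' := by rw [if_neg one_ne_zero, h.one]; rfl
  map_mul' a b := by
    by_cases ha : a = 0
    · simp [ha]
    by_cases hb : b = 0
    · simp [hb]
    rw [if_neg ha, if_neg hb, if_neg (mul_ne_zero ha hb), h.mul a b ha hb, Nat.cast_add, exp_add]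
  map_add_le_max' a b := by
    by_cases ha : a = 0
    · simp [ha]
    by_cases hb : b = 0
    · simp [hb]
    by_cases hab : a + b = 0
    · simp [hab]
    rw [if_neg ha, if_neg hb, if_neg hab]
    have := h.add a b ha hb hab
    rcases le_max_iff.mp this with h1 | h1
    · exact le_max_of_le_left (exp_le_exp.mpr (by exact_mod_cast h1))
    · exact le_max_of_le_right (exp_le_exp.mpr (by exact_mod_cast h1))

open scoped Classical in
theorem v27dpValB_apply (h : V27dpDeg K ρ) {b : B} (hb : b ≠ 0) :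
    v27dpValB h b = exp (ρ b : ℤ) := if_neg hb

theorem v27dpValB_eq_zero (h : V27dpDeg K ρ) {b : B} : v27dpValB h b = 0 ↔ b = 0 := by
  constructor
  · intro hb
    by_contra hne
    rw [v27dpValB_apply h hne] at hb
    exact exp_ne_zero hb
  · rintro rfl
    exact map_zero _

end

section Frac

variable {K B : Type*} (M : Type*) [Field K] [CommRing B] [IsDomain B] [Algebra K B] [Field M]
  [Algebra B M] [IsFractionRing B M] [Algebra K M] [IsScalarTower K B M] {ρ : B → ℕ}

theorem v27dp_le_primeCompl (h : V27dpDeg K ρ) :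
    nonZeroDivisors B ≤ (v27dpValB h).supp.primeCompl := by
  intro s hs
  show s ∉ (v27dpValB h).supp
  rw [Valuation.mem_supp_iff, v27dpValB_eq_zero]
  exact nonZeroDivisors.ne_zero hs

/-- the valuation at infinity on the fraction field -/
def v27dpVal (h : V27dpDeg K ρ) : Valuation M ℤᵐ⁰ :=
  (v27dpValB h).extendToLocalization (v27dp_le_primeCompl h) M

theorem v27dpVal_algebraMap (h : V27dpDeg K ρ) {b : B} (hb : b ≠ 0) :
    v27dpVal M h (algebraMap B M b) = exp (ρ b : ℤ) := by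
  rw [v27dpVal, Valuation.extendToLocalization_apply_map_apply, v27dpValB_apply h hb]

theorem v27dpVal_div (h : V27dpDeg K ρ) {a b : B} (ha : a ≠ 0) (hb : b ≠ 0) :
    v27dpVal M h (algebraMap B M a / algebraMap B M b) = exp ((ρ a : ℤ) - ρ b) := by
  rw [map_div₀, v27dpVal_algebraMap M h ha, v27dpVal_algebraMap M h hb, exp_sub]

theorem v27dp_exists_div (f : M) (hf : f ≠ 0) :
    ∃ a b : B, a ≠ 0 ∧ b ≠ 0 ∧ f = algebraMap B M a / algebraMap B M b := by
  obtain ⟨a, b, hb, rfl⟩ := IsFractionRing.div_surjective (A := B) (K := M) f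
  have hb0 : b ≠ 0 := nonZeroDivisors.ne_zero hb
  refine ⟨a, b, ?_, hb0, rfl⟩
  rintro rfl
  simp at hf

theorem v27dpVal_const (h : V27dpDeg K ρ) {c : K} (hc : c ≠ 0) :
    v27dpVal M h (algebraMap K M c) = 1 := by
  have hc' : algebraMap K B c ≠ 0 := by
    intro h0
    exact hc ((map_eq_zero_iff _ (FaithfulSMul.algebraMap_injective K B)).mp h0)
  rw [IsScalarTower.algebraMap_apply K B M, v27dpVal_algebraMap M h hc', h.const c hc]
  rfl

/-- every nonzero value is `exp k` -/
theorem v27dpVal_exists_exp (h : V27dpDeg K ρ) {f : M} (hf : f ≠ 0) :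
    ∃ k : ℤ, v27dpVal M h f = exp k := by
  obtain ⟨a, b, ha, hb, rfl⟩ := v27dp_exists_div (B := B) M f hf
  exact ⟨_, v27dpVal_div M h ha hb⟩

/-- a uniformiser: `v = exp (-1)` -/
theorem v27dp_exists_unif (h : V27dpDeg K ρ) : ∃ π : M, v27dpVal M h π = exp (-1 : ℤ) := by
  obtain ⟨a, b, ha, hb, hab⟩ := h.gcd
  refine ⟨algebraMap B M b / algebraMap B M a, ?_⟩
  rw [v27dpVal_div M h hb ha, hab]
  congr 1
  push_cast
  ring

/-- the valuation subring at infinity -/
def v27dpSub (h : V27dpDeg K ρ) : ValuationSubring M := (v27dpVal M h).valuationSubring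

theorem v27dp_mem_sub (h : V27dpDeg K ρ) {f : M} :
    f ∈ v27dpSub M h ↔ v27dpVal M h f ≤ 1 := Valuation.mem_valuationSubring_iff _ _

theorem v27dp_isUnit_iff (h : V27dpDeg K ρ) (x : v27dpSub M h) :
    IsUnit x ↔ v27dpVal M h (x : M) = 1 := by
  constructor
  · rintro ⟨u, rfl⟩
    have h1 : v27dpVal M h ((u : v27dpSub M h) : M) ≤ 1 := (v27dp_mem_sub M h).mp (u : v27dpSub M h).2
    have h2 : v27dpVal M h (((u⁻¹ : (v27dpSub M h)ˣ) : v27dpSub M h) : M) ≤ 1 :=
      (v27dp_mem_sub M h).mp ((u⁻¹ : (v27dpSub M h)ˣ) : v27dpSub M h).2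
    have h3 : ((u : v27dpSub M h) : M) * (((u⁻¹ : (v27dpSub M h)ˣ) : v27dpSub M h) : M) = 1 := by
      have h5 : (u : v27dpSub M h) * ((u⁻¹ : (v27dpSub M h)ˣ) : v27dpSub M h) = 1 := u.mul_inv
      have h6 := congrArg (fun z : v27dpSub M h => (z : M)) h5
      exact h6
    have h4 := congrArg (v27dpVal M h) h3
    rw [map_mul, map_one] at h4
    apply le_antisymm h1
    by_contra hlt
    push Not at hlt
    have : v27dpVal M h ((u : v27dpSub M h) : M) *
        v27dpVal M h (((u⁻¹ : (v27dpSub M h)ˣ) : v27dpSub M h) : M) < 1 := by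
      calc _ ≤ v27dpVal M h ((u : v27dpSub M h) : M) * 1 := by gcongr
        _ < 1 := by rwa [mul_one]
    exact absurd h4 (ne_of_lt this)
  · intro hx
    have hx0 : (x : M) ≠ 0 := by
      intro h0
      rw [h0, map_zero] at hx
      exact zero_ne_one hx
    have hinv : (x : M)⁻¹ ∈ v27dpSub M h := by
      rw [v27dp_mem_sub, map_inv₀, hx, inv_one]
    refine ⟨⟨x, ⟨(x : M)⁻¹, hinv⟩, ?_, ?_⟩, rfl⟩
    · apply Subtype.ext
      simp [mul_inv_cancel₀ hx0]
    · apply Subtype.ext
      simp [inv_mul_cancel₀ hx0]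

theorem v27dp_sub_ne_top (h : V27dpDeg K ρ) : v27dpSub M h ≠ ⊤ := by
  obtain ⟨π, hπ⟩ := v27dp_exists_unif M h
  intro htop
  have hmem : π⁻¹ ∈ v27dpSub M h := by rw [htop]; exact ValuationSubring.mem_top _
  rw [v27dp_mem_sub, map_inv₀, hπ, ← exp_neg, neg_neg] at hmem
  have : exp (1 : ℤ) ≤ exp (0 : ℤ) := hmem
  rw [exp_le_exp] at this
  omega

theorem v27dp_algebraMap_mem (h : V27dpDeg K ρ) (c : K) : algebraMap K M c ∈ v27dpSub M h := by
  rw [v27dp_mem_sub]
  by_cases hc : c = 0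
  · simp [hc]
  · rw [v27dpVal_const M h hc]

/-- for nonzero `x` in the valuation ring, `v x = exp (-k)` with `k : ℕ` -/
theorem v27dp_exists_nat (h : V27dpDeg K ρ) {f : M} (hf : f ≠ 0) (hmem : f ∈ v27dpSub M h) :
    ∃ k : ℕ, v27dpVal M h f = exp (-(k : ℤ)) := by
  obtain ⟨k, hk⟩ := v27dpVal_exists_exp M h hf
  rw [v27dp_mem_sub, hk] at hmem
  have : exp k ≤ exp (0 : ℤ) := hmem
  rw [exp_le_exp] at this
  refine ⟨k.natAbs, ?_⟩
  rw [hk]
  congr 1
  omega

theorem v27dp_isPrincipalIdealRing (h : V27dpDeg K ρ) : IsPrincipalIdealRing (v27dpSub M h) := by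
  classical
  refine ⟨fun I => ?_⟩
  by_cases hI : I = ⊥
  · rw [hI]; exact ⟨⟨0, by simp⟩⟩
  -- a nonzero element
  have hex : ∃ x : v27dpSub M h, x ∈ I ∧ x ≠ 0 := by
    by_contra hcon
    push Not at hcon
    apply hI
    rw [eq_bot_iff]
    intro x hx
    rw [Ideal.mem_bot]
    exact hcon x hx
  have hS : ∃ k : ℕ, ∃ x : v27dpSub M h, x ∈ I ∧ x ≠ 0 ∧ v27dpVal M h (x : M) = exp (-(k : ℤ)) := by
    obtain ⟨x, hxI, hx0⟩ := hex
    have hx0' : (x : M) ≠ 0 := fun h0 => hx0 (Subtype.ext h0)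
    obtain ⟨k, hk⟩ := v27dp_exists_nat M h hx0' x.2
    exact ⟨k, x, hxI, hx0, hk⟩
  obtain ⟨x₀, hx₀I, hx₀0, hx₀v⟩ := Nat.find_spec hS
  have hmin := fun k hk => Nat.find_min' hS (m := k) hk
  have hx₀0' : (x₀ : M) ≠ 0 := fun h0 => hx₀0 (Subtype.ext h0)
  refine ⟨⟨x₀, ?_⟩⟩
  apply le_antisymm
  · intro y hyI
    rw [Ideal.submodule_span_eq, Ideal.mem_span_singleton']
    by_cases hy0 : y = 0
    · exact ⟨0, by rw [hy0, zero_mul]⟩
    have hy0' : (y : M) ≠ 0 := fun h0 => hy0 (Subtype.ext h0)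
    obtain ⟨k, hk⟩ := v27dp_exists_nat M h hy0' y.2
    have hle : Nat.find hS ≤ k := hmin k ⟨y, hyI, hy0, hk⟩
    have hq : (y : M) / (x₀ : M) ∈ v27dpSub M h := by
      rw [v27dp_mem_sub, map_div₀, hk, hx₀v, ← exp_sub]
      have : exp (-(k : ℤ) - -((Nat.find hS : ℕ) : ℤ)) ≤ exp (0 : ℤ) := by
        rw [exp_le_exp]; omega
      exact this
    refine ⟨⟨_, hq⟩, ?_⟩
    apply Subtype.ext
    simp [div_mul_cancel₀ _ hx₀0']
  · rw [Ideal.submodule_span_eq, Ideal.span_le]
    intro y hy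
    rw [Set.mem_singleton_iff] at hy
    rw [hy]; exact hx₀I

/-- **the place at infinity** -/
def v27dpPlace (h : V27dpDeg K ρ) : Place K M where
  toValuationSubring := v27dpSub M h
  algebraMap_mem' := v27dp_algebraMap_mem M h
  ne_top' := v27dp_sub_ne_top M h
  isPrincipalIdealRing' := v27dp_isPrincipalIdealRing M h

@[simp] theorem v27dpPlace_toValuationSubring (h : V27dpDeg K ρ) :
    (v27dpPlace M h).toValuationSubring = v27dpSub M h := rfl

/-- `ord f = -k` when `v f = exp k` -/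
theorem v27dp_ord_of_val (h : V27dpDeg K ρ) {f : M} {k : ℤ} (hk : v27dpVal M h f = exp k) :
    (v27dpPlace M h).ord f = -k := by
  obtain ⟨π₀, hπ₀⟩ := v27dp_exists_unif M h
  have hπ₀0 : π₀ ≠ 0 := by
    intro h0; rw [h0, map_zero] at hπ₀; exact exp_ne_zero hπ₀.symm
  have hπmem : π₀ ∈ v27dpSub M h := by
    rw [v27dp_mem_sub, hπ₀]
    have : exp (-1 : ℤ) ≤ exp (0 : ℤ) := by rw [exp_le_exp]; omega
    exact this
  set π : (v27dpPlace M h).toValuationSubring := ⟨π₀, hπmem⟩ with hπdef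
  have hπirr : Irreducible π := by
    refine ⟨?_, ?_⟩
    · intro hu
      have := (v27dp_isUnit_iff M h π).mp hu
      rw [show ((π : v27dpSub M h) : M) = π₀ from rfl, hπ₀] at this
      have h2 : exp (-1 : ℤ) = exp (0 : ℤ) := this
      rw [exp_inj] at h2
      omega
    · intro a b hab
      by_contra hcon
      push Not at hcon
      obtain ⟨hna, hnb⟩ := hcon
      have ha0 : (a : M) ≠ 0 := by
        intro h0
        have : (π : M) = (a : M) * (b : M) := by rw [hab]; rfl
        rw [h0, zero_mul] at this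
        exact hπ₀0 this
      have hb0 : (b : M) ≠ 0 := by
        intro h0
        have : (π : M) = (a : M) * (b : M) := by rw [hab]; rfl
        rw [h0, mul_zero] at this
        exact hπ₀0 this
      obtain ⟨ka, hka⟩ := v27dp_exists_nat M h ha0 a.2
      obtain ⟨kb, hkb⟩ := v27dp_exists_nat M h hb0 b.2
      have hka1 : 1 ≤ ka := by
        by_contra hlt
        have : ka = 0 := by omega
        apply hna
        refine (v27dp_isUnit_iff M h a).mpr ?_
        rw [hka, this]
        rfl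
      have hkb1 : 1 ≤ kb := by
        by_contra hlt
        have : kb = 0 := by omega
        apply hnb
        refine (v27dp_isUnit_iff M h b).mpr ?_
        rw [hkb, this]
        rfl
      have hprod : v27dpVal M h π₀ = v27dpVal M h (a : M) * v27dpVal M h (b : M) := by
        rw [← map_mul]
        congr 1
        have : (π : M) = (a : M) * (b : M) := by rw [hab]; rfl
        exact this
      rw [hπ₀, hka, hkb, ← exp_add, exp_inj] at hprod
      omega
  -- the unit
  have hf0 : f ≠ 0 := by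
    intro h0; rw [h0, map_zero] at hk; exact exp_ne_zero hk.symm
  have huval : v27dpVal M h (f * π₀ ^ k) = 1 := by
    rw [map_mul, map_zpow₀, hk, hπ₀, ← exp_zsmul, ← exp_add]
    have : k + k • (-1 : ℤ) = 0 := by simp
    rw [this]; rfl
  have humem : f * π₀ ^ k ∈ v27dpSub M h := by rw [v27dp_mem_sub, huval]
  have huunit : IsUnit (⟨f * π₀ ^ k, humem⟩ : (v27dpPlace M h).toValuationSubring) :=
    (v27dp_isUnit_iff M h ⟨f * π₀ ^ k, humem⟩).mpr huval
  obtain ⟨u, hu⟩ := huunit
  refine Fermat.Agent.S24.PlaceOrd.ord_eq_of_eq_unit_mul_zpow (v27dpPlace M h) hπirr u (-k) ?_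
  have hu' : ((u : (v27dpPlace M h).toValuationSubring) : M) = f * π₀ ^ k := by
    have := congrArg Subtype.val hu
    exact this
  rw [hu']
  show f = f * π₀ ^ k * π₀ ^ (-k)
  rw [mul_assoc, ← zpow_add₀ hπ₀0, add_neg_cancel, zpow_zero, mul_one]

/-- `ord_∞ (b) = - ρ b` -/
theorem v27dp_ord_algebraMap (h : V27dpDeg K ρ) {b : B} (hb : b ≠ 0) :
    (v27dpPlace M h).ord (algebraMap B M b) = -(ρ b : ℤ) :=
  v27dp_ord_of_val M h (v27dpVal_algebraMap M h hb)

theorem v27dp_ord_div (h : V27dpDeg K ρ) {a b : B} (ha : a ≠ 0) (hb : b ≠ 0) :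
    (v27dpPlace M h).ord (algebraMap B M a / algebraMap B M b) = (ρ b : ℤ) - ρ a := by
  rw [v27dp_ord_of_val M h (v27dpVal_div M h ha hb)]
  ring

/-- the residue field at infinity is `K` -/
theorem v27dp_residue (h : V27dpDeg K ρ) (f : M) (hf : f ∈ v27dpSub M h) :
    ∃ c : K, v27dpVal M h (f - algebraMap K M c) < 1 := by
  by_cases hf0 : f = 0
  · exact ⟨0, by simp [hf0]⟩
  obtain ⟨a, b, ha, hb, rfl⟩ := v27dp_exists_div (B := B) M f hf0
  rw [v27dp_mem_sub, v27dpVal_div M h ha hb] at hf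
  have hle : ((ρ a : ℤ) - ρ b) ≤ 0 := by
    have : exp ((ρ a : ℤ) - ρ b) ≤ exp (0 : ℤ) := hf
    rwa [exp_le_exp] at this
  rcases lt_or_eq_of_le hle with hlt | heq
  · refine ⟨0, ?_⟩
    rw [map_zero, sub_zero, v27dpVal_div M h ha hb]
    have : exp ((ρ a : ℤ) - ρ b) < exp (0 : ℤ) := by rwa [exp_lt_exp]
    exact this
  · have hρ : ρ a = ρ b := by omega
    obtain ⟨c, hc⟩ := h.one_dim a b ha hb hρ
    refine ⟨c, ?_⟩
    have hbM : algebraMap B M b ≠ 0 := by
      intro h0
      exact hb ((IsFractionRing.to_map_eq_zero_iff (K := M)).mp h0)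
    have hrew : algebraMap B M a / algebraMap B M b - algebraMap K M c =
        algebraMap B M (a - c • b) / algebraMap B M b := by
      rw [map_sub, Algebra.smul_def, map_mul, ← IsScalarTower.algebraMap_apply K B M]
      field_simp
    rw [hrew]
    by_cases h0 : a - c • b = 0
    · rw [h0, map_zero, zero_div, map_zero]
      exact zero_lt_one
    · have hc' : ρ (a - c • b) < ρ a := hc.resolve_left h0
      rw [v27dpVal_div M h h0 hb]
      have : exp ((ρ (a - c • b) : ℤ) - ρ b) < exp (0 : ℤ) := by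
        rw [exp_lt_exp]; omega
      exact this

/-- membership in the maximal ideal of the place at infinity -/
theorem v27dp_mem_maximalIdeal_iff (h : V27dpDeg K ρ) (x : (v27dpPlace M h).toValuationSubring) :
    x ∈ IsLocalRing.maximalIdeal (v27dpPlace M h).toValuationSubring ↔
      v27dpVal M h (x : M) < 1 := by
  rw [IsLocalRing.mem_maximalIdeal, mem_nonunits_iff]
  have hle : v27dpVal M h (x : M) ≤ 1 := (v27dp_mem_sub M h).mp x.2
  constructor
  · intro hnu
    refine lt_of_le_of_ne hle fun h1 => hnu ?_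
    exact (v27dp_isUnit_iff M h x).mpr h1
  · intro hlt hu
    have := (v27dp_isUnit_iff M h x).mp hu
    rw [this] at hlt
    exact lt_irrefl _ hlt

/-- residue field form: every element of `𝒪_∞` is congruent to a constant mod `𝔪_∞` -/
theorem v27dp_residue' (h : V27dpDeg K ρ) (x : (v27dpPlace M h).toValuationSubring) :
    ∃ c : K, x - algebraMap K (v27dpPlace M h).toValuationSubring c ∈
      IsLocalRing.maximalIdeal (v27dpPlace M h).toValuationSubring := by
  obtain ⟨c, hc⟩ := v27dp_residue M h (x : M) x.2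
  refine ⟨c, ?_⟩
  rw [v27dp_mem_maximalIdeal_iff]
  exact hc

/-- the place at infinity has degree one -/
theorem v27dp_deg (h : V27dpDeg K ρ) : (v27dpPlace M h).deg = 1 := by
  set v := v27dpPlace M h with hv
  have hsurj : Function.Surjective (algebraMap K v.ResidueField) := by
    intro y
    obtain ⟨x, rfl⟩ := IsLocalRing.residue_surjective y
    obtain ⟨c, hc⟩ := v27dp_residue' M h x
    refine ⟨c, ?_⟩
    rw [IsScalarTower.algebraMap_apply K v.toValuationSubring v.ResidueField]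
    symm
    rw [← sub_eq_zero]
    show IsLocalRing.residue _ x - IsLocalRing.residue _ (algebraMap K v.toValuationSubring c) = 0
    rw [← map_sub, IsLocalRing.residue_eq_zero_iff]
    exact hc
  have hbij : Function.Bijective (algebraMap K v.ResidueField) :=
    ⟨(algebraMap K v.ResidueField).injective, hsurj⟩
  show Module.finrank K v.ResidueField = 1
  rw [← Module.finrank_self K]
  exact ((AlgEquiv.ofBijective (Algebra.ofId K v.ResidueField) hbij).toLinearEquiv.finrank_eq).symm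

/-- adapter: the pole formula in the `OnePoint` shape, from the abstract count
`finrank K (B ⧸ (b)) = ρ b` (`V/Pres/PoleQuot.lean`) -/
theorem v27dp_hpole (h : V27dpDeg K ρ)
    (hq : ∀ b : B, b ≠ 0 → Module.finrank K (B ⧸ Ideal.span {b}) = ρ b) (b : B) (hb : b ≠ 0) :
    (Module.finrank K (B ⧸ Ideal.span {b}) : ℤ) =
      -(v27dpPlace M h).ord (algebraMap B M b) := by
  rw [hq b hb, v27dp_ord_algebraMap M h hb, neg_neg]

/-- adapter: `ρ b = (- ord_∞ b).toNat` -/
theorem v27dp_rho_eq_toNat (h : V27dpDeg K ρ) {b : B} (hb : b ≠ 0) :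
    ρ b = (-(v27dpPlace M h).ord (algebraMap B M b)).toNat := by
  rw [v27dp_ord_algebraMap M h hb, neg_neg, Int.toNat_natCast]

/-- adapter: the box `{b = 0 ∨ ρ b ≤ m}` in terms of `ord_∞` -/
theorem v27dp_box_iff (h : V27dpDeg K ρ) (m : ℕ) (b : B) :
    (b = 0 ∨ ρ b ≤ m) ↔ (b = 0 ∨ -(v27dpPlace M h).ord (algebraMap B M b) ≤ (m : ℤ)) := by
  by_cases hb : b = 0
  · simp [hb]
  · rw [v27dp_ord_algebraMap M h hb, neg_neg]
    simp [hb]

/-- the elements of `B` are integral at every other place iff ...: the valuation ring at infinity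
does not contain an element of positive pole order -/
theorem v27dp_not_mem_of_pos (h : V27dpDeg K ρ) {b : B} (hb : b ≠ 0) (hpos : 0 < ρ b) :
    algebraMap B M b ∉ (v27dpPlace M h).toValuationSubring := by
  rw [v27dpPlace_toValuationSubring, v27dp_mem_sub, v27dpVal_algebraMap M h hb]
  intro hle
  have : exp (ρ b : ℤ) ≤ exp (0 : ℤ) := hle
  rw [exp_le_exp] at this
  omega

end Frac

end Fermat.Agent.V
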