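import Mathlib
import Fermat.Agent.V.Pres.Count
import Fermat.Agent.V.Pres.DegPlace

/-!
# Program V (S27), route M, leaf (C3a-INF, instance): the place at infinity of `V27pB T`
(prefix `v27if_`; every name also under the alias prefix `v27inf_`)

`T : V27pTable K δ`, `B := V27pB T` (helper26's `V/Pres/{Defs,Ring,Ord,Count}.lean`), `M` any fraction
field of `B` with the compatible `K`-algebra structure (e.g. `FractionRing (V27pB T)`).

* `v27if_deg T : V27dpDeg K (v27pOrd : V27pB T → ℕ)` – the pole-order axioms of `V/Pres/DegPlace.lean`;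
* `v27ifPlace M T : Place K M` – the place at infinity, `v27if_ord_algebraMap : ord b = -(v27pOrd b)`,
  `v27if_ord_x`, `v27if_ord_e`, `v27if_x_not_mem`, `v27if_deg_eq_one`;
* the hypotheses of `V/Pres/OnePoint.lean`, `V/Pres/Genus.lean` (helper7) in their literal shapes:
  `v27if_hpole` (from the quotient count), `v27if_hL` (with `L := v27pL T`), `v27if_hdim`
  (`g₀ := δ.genus`, `m₀ := δ.bound`); `v27if_hgen` (the `hgen` of `V/Pres/InfAbs.lean`).
-/

set_option autoImplicit false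

noncomputable section

namespace Fermat.Agent.V

open AlgebraicCurve Polynomial

variable {K : Type*} [Field K] {δ : V27pShape}

/-- the pole order of `V27pB T` satisfies the axioms of a degree function -/
theorem v27if_deg (T : V27pTable K δ) : V27dpDeg K (v27pOrd : V27pB T → ℕ) where
  mul := fun _ _ ha hb => v27pOrd_mul ha hb
  add := fun a b _ _ _ => v27pOrd_add_le a b
  const := fun c _ => v27pOrd_algebraMap c
  one_dim := fun _ _ ha hb h => v27pOrd_hone ha hb h
  gcd := v27pOrd_hgcd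

section Frac

variable (M : Type*) [Field M] (T : V27pTable K δ) [Algebra (V27pB T) M]
  [IsFractionRing (V27pB T) M] [Algebra K M] [IsScalarTower K (V27pB T) M]

/-- **the place at infinity** of the function field of `V27pB T` -/
def v27ifPlace : Place K M := v27dpPlace M (v27if_deg T)

theorem v27ifPlace_def : v27ifPlace M T = v27dpPlace M (v27if_deg T) := rfl

/-- `ord_∞ b = - v27pOrd b` -/
theorem v27if_ord_algebraMap {b : V27pB T} (hb : b ≠ 0) :
    (v27ifPlace M T).ord (algebraMap (V27pB T) M b) = -(v27pOrd b : ℤ) :=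
  v27dp_ord_algebraMap M (v27if_deg T) hb

/-- the same in the binder shape of `v27ci_huniq` (`V/Pres/InfAbs.lean`) -/
theorem v27if_hord : ∀ b : V27pB T, b ≠ 0 →
    (v27ifPlace M T).ord (algebraMap (V27pB T) M b) = -(v27pOrd b : ℤ) :=
  fun _ hb => v27if_ord_algebraMap M T hb

theorem v27if_ord_div {a b : V27pB T} (ha : a ≠ 0) (hb : b ≠ 0) :
    (v27ifPlace M T).ord (algebraMap (V27pB T) M a / algebraMap (V27pB T) M b) =
      (v27pOrd b : ℤ) - v27pOrd a :=
  v27dp_ord_div M (v27if_deg T) ha hb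

theorem v27if_x_ne_zero : (V27pB.x : V27pB T) ≠ 0 := by
  intro h
  have h1 : v27pOrd (V27pB.x : V27pB T) = δ.N := v27pOrd_x
  rw [h, v27pOrd_zero] at h1
  exact δ.hN.ne h1

theorem v27if_e_ne_zero (j : ZMod δ.N) : (V27pB.e j : V27pB T) ≠ 0 := by
  intro h
  have h1 := congrFun h j
  rw [V27pB.e_apply, if_pos rfl, V27pB.zero_apply] at h1
  exact one_ne_zero h1

theorem v27if_ord_x :
    (v27ifPlace M T).ord (algebraMap (V27pB T) M V27pB.x) = -(δ.N : ℤ) := by
  rw [v27if_ord_algebraMap M T (v27if_x_ne_zero T), v27pOrd_x]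

theorem v27if_ord_e (j : ZMod δ.N) :
    (v27ifPlace M T).ord (algebraMap (V27pB T) M (V27pB.e j)) = -(δ.d j : ℤ) := by
  rw [v27if_ord_algebraMap M T (v27if_e_ne_zero T j), v27pOrd_e]

/-- `x` is not integral at infinity -/
theorem v27if_x_not_mem :
    algebraMap (V27pB T) M V27pB.x ∉ (v27ifPlace M T).toValuationSubring := by
  apply v27dp_not_mem_of_pos M (v27if_deg T) (v27if_x_ne_zero T)
  rw [v27pOrd_x]
  exact δ.hN

/-- more generally: a nonzero element of positive pole order is not integral at infinity -/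
theorem v27if_not_mem_of_pos {b : V27pB T} (hb : b ≠ 0) (hpos : 0 < v27pOrd b) :
    algebraMap (V27pB T) M b ∉ (v27ifPlace M T).toValuationSubring :=
  v27dp_not_mem_of_pos M (v27if_deg T) hb hpos

/-- `hdeg` of `V/Pres/OnePoint.lean`: the place at infinity has degree one -/
theorem v27if_deg_eq_one : (v27ifPlace M T).deg = 1 :=
  v27dp_deg M (v27if_deg T)

/-- `hpole` of `V/Pres/OnePoint.lean`, from the quotient count `dim_K B/(b) = v27pOrd b` -/
theorem v27if_hpole
    (hq : ∀ b : V27pB T, b ≠ 0 →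
      Module.finrank K (V27pB T ⧸ Ideal.span {b}) = v27pOrd b) :
    ∀ b : V27pB T, b ≠ 0 →
      (Module.finrank K (V27pB T ⧸ Ideal.span {b}) : ℤ) =
        -(v27ifPlace M T).ord (algebraMap (V27pB T) M b) :=
  fun b hb => v27dp_hpole M (v27if_deg T) hq b hb

/-- `hL` of `V/Pres/Genus.lean` with `L := v27pL T` -/
theorem v27if_hL : ∀ (m : ℕ) (b : V27pB T),
    b ∈ v27pL T m ↔ b = 0 ∨ -(v27ifPlace M T).ord (algebraMap (V27pB T) M b) ≤ (m : ℤ) := by
  intro m b
  rw [mem_v27pL_iff_ord' m b]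
  exact v27dp_box_iff M (v27if_deg T) m b

/-- `v27pOrd b = (- ord_∞ b).toNat` -/
theorem v27if_ord_eq_toNat {b : V27pB T} (hb : b ≠ 0) :
    v27pOrd b = (-(v27ifPlace M T).ord (algebraMap (V27pB T) M b)).toNat :=
  v27dp_rho_eq_toNat M (v27if_deg T) hb

/-- `hord` of `V27Presented` (`V/Pres/Presented.lean`; `V27prLe` there is literally `V27pLe`) -/
theorem v27if_hord_le : ∀ a : V27pB T, a ≠ 0 → ∀ m : ℕ,
    -((v27ifPlace M T).ord (algebraMap (V27pB T) M a)) ≤ (m : ℤ) ↔ V27pLe a m := by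
  intro a ha m
  rw [v27if_ord_algebraMap M T ha, neg_neg, Nat.cast_le, v27pOrd_le_iff]

omit [Algebra K M] [IsScalarTower K (V27pB T) M] in
/-- `hfrac` of `V27Presented`: every element of `M` is a fraction -/
theorem v27if_hfrac : ∀ f : M, ∃ a b : V27pB T, b ≠ 0 ∧
    f * algebraMap (V27pB T) M b = algebraMap (V27pB T) M a := by
  intro f
  obtain ⟨a, b, hb, rfl⟩ := IsFractionRing.div_surjective (A := V27pB T) f
  have hb0 : b ≠ 0 := nonZeroDivisors.ne_zero hb
  have hb' : algebraMap (V27pB T) M b ≠ 0 :=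
    (map_ne_zero_iff _ (IsFractionRing.injective (V27pB T) M)).mpr hb0
  exact ⟨a, b, hb0, div_mul_cancel₀ _ hb'⟩

end Frac

/-- `hdim` of `V/Pres/Genus.lean` with `L := v27pL T`, `g₀ := δ.genus`, `m₀ := δ.bound` -/
theorem v27if_hdim (T : V27pTable K δ) : ∀ m : ℕ, δ.bound ≤ m →
    (Module.finrank K (v27pL T m) : ℤ) = m + 1 - δ.genus := by
  intro m hm
  have := v27p_finrank_L T m hm
  omega

/-- `hgen` of `V/Pres/InfAbs.lean`: every element is `∑ⱼ pⱼ(x) eⱼ` with
`N · deg pⱼ + ρ(eⱼ) ≤ ρ(a)` -/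
theorem v27if_hgen (T : V27pTable K δ) : ∀ a : V27pB T, a ≠ 0 →
    ∃ p : ZMod δ.N → K[X],
      a = ∑ j, Polynomial.aeval (V27pB.x : V27pB T) (p j) * V27pB.e j ∧
      ∀ j, p j ≠ 0 → δ.N * (p j).natDegree + v27pOrd (V27pB.e j : V27pB T) ≤ v27pOrd a := by
  intro a _
  refine ⟨fun j => a j, ?_, ?_⟩
  · conv_lhs => rw [V27pB.eq_sum_smul_e a]
    refine Finset.sum_congr rfl fun j _ => ?_
    rw [Algebra.smul_def]
    congr 1
    show algebraMap K[X] (V27pB T) (a j) = Polynomial.aeval (algebraMap K[X] (V27pB T) X) (a j)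
    rw [Polynomial.aeval_algebraMap_apply, Polynomial.aeval_X_left_apply]
  · intro j hj
    rw [v27pOrd_e]
    have hle := v27pLe_ord a
    by_contra hlt
    have h0 := hle j (a j).natDegree (Nat.lt_of_not_le hlt)
    exact hj (Polynomial.leadingCoeff_eq_zero.mp h0)

/-! ### the same API under the alias prefix `v27inf_` (both families are supported) -/

section Alias

variable (M : Type*) [Field M] (T : V27pTable K δ) [Algebra (V27pB T) M]
  [IsFractionRing (V27pB T) M] [Algebra K M] [IsScalarTower K (V27pB T) M]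

theorem v27inf_deg (T : V27pTable K δ) : V27dpDeg K (v27pOrd : V27pB T → ℕ) := v27if_deg T

/-- alias of `v27ifPlace` -/
abbrev v27infPlace : Place K M := v27ifPlace M T

theorem v27infPlace_def : v27infPlace M T = v27dpPlace M (v27if_deg T) := rfl

theorem v27inf_ord_algebraMap {b : V27pB T} (hb : b ≠ 0) :
    (v27infPlace M T).ord (algebraMap (V27pB T) M b) = -(v27pOrd b : ℤ) :=
  v27if_ord_algebraMap M T hb

theorem v27inf_hord : ∀ b : V27pB T, b ≠ 0 →
    (v27infPlace M T).ord (algebraMap (V27pB T) M b) = -(v27pOrd b : ℤ) :=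
  v27if_hord M T

theorem v27inf_ord_div {a b : V27pB T} (ha : a ≠ 0) (hb : b ≠ 0) :
    (v27infPlace M T).ord (algebraMap (V27pB T) M a / algebraMap (V27pB T) M b) =
      (v27pOrd b : ℤ) - v27pOrd a :=
  v27if_ord_div M T ha hb

theorem v27inf_x_ne_zero : (V27pB.x : V27pB T) ≠ 0 := v27if_x_ne_zero T

theorem v27inf_e_ne_zero (j : ZMod δ.N) : (V27pB.e j : V27pB T) ≠ 0 := v27if_e_ne_zero T j

theorem v27inf_ord_x :
    (v27infPlace M T).ord (algebraMap (V27pB T) M V27pB.x) = -(δ.N : ℤ) := v27if_ord_x M T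

theorem v27inf_ord_e (j : ZMod δ.N) :
    (v27infPlace M T).ord (algebraMap (V27pB T) M (V27pB.e j)) = -(δ.d j : ℤ) := v27if_ord_e M T j

theorem v27inf_x_not_mem :
    algebraMap (V27pB T) M V27pB.x ∉ (v27infPlace M T).toValuationSubring := v27if_x_not_mem M T

theorem v27inf_not_mem_of_pos {b : V27pB T} (hb : b ≠ 0) (hpos : 0 < v27pOrd b) :
    algebraMap (V27pB T) M b ∉ (v27infPlace M T).toValuationSubring :=
  v27if_not_mem_of_pos M T hb hpos

theorem v27inf_deg_eq_one : (v27infPlace M T).deg = 1 := v27if_deg_eq_one M T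

theorem v27inf_hpole
    (hq : ∀ b : V27pB T, b ≠ 0 →
      Module.finrank K (V27pB T ⧸ Ideal.span {b}) = v27pOrd b) :
    ∀ b : V27pB T, b ≠ 0 →
      (Module.finrank K (V27pB T ⧸ Ideal.span {b}) : ℤ) =
        -(v27infPlace M T).ord (algebraMap (V27pB T) M b) :=
  v27if_hpole M T hq

theorem v27inf_hL : ∀ (m : ℕ) (b : V27pB T),
    b ∈ v27pL T m ↔ b = 0 ∨ -(v27infPlace M T).ord (algebraMap (V27pB T) M b) ≤ (m : ℤ) :=
  v27if_hL M T

theorem v27inf_ord_eq_toNat {b : V27pB T} (hb : b ≠ 0) :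
    v27pOrd b = (-(v27infPlace M T).ord (algebraMap (V27pB T) M b)).toNat :=
  v27if_ord_eq_toNat M T hb

theorem v27inf_hord_le : ∀ a : V27pB T, a ≠ 0 → ∀ m : ℕ,
    -((v27infPlace M T).ord (algebraMap (V27pB T) M a)) ≤ (m : ℤ) ↔ V27pLe a m :=
  v27if_hord_le M T

omit [Algebra K M] [IsScalarTower K (V27pB T) M] in
theorem v27inf_hfrac : ∀ f : M, ∃ a b : V27pB T, b ≠ 0 ∧
    f * algebraMap (V27pB T) M b = algebraMap (V27pB T) M a :=
  v27if_hfrac M T

theorem v27inf_hdim (T : V27pTable K δ) : ∀ m : ℕ, δ.bound ≤ m →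
    (Module.finrank K (v27pL T m) : ℤ) = m + 1 - δ.genus :=
  v27if_hdim T

theorem v27inf_hgen (T : V27pTable K δ) : ∀ a : V27pB T, a ≠ 0 →
    ∃ p : ZMod δ.N → K[X],
      a = ∑ j, Polynomial.aeval (V27pB.x : V27pB T) (p j) * V27pB.e j ∧
      ∀ j, p j ≠ 0 → δ.N * (p j).natDegree + v27pOrd (V27pB.e j : V27pB T) ≤ v27pOrd a :=
  v27if_hgen T

end Alias

end Fermat.Agent.V
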