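import Mathlib

/-!
# Program V (S27-B'), leaf (C3a), piece `hpole` in abstract form (prefix `v27pq`)

`B` a `K`-algebra and a domain with an ADDITIVE "pole order" `ord : B → ℕ`, whose filtration
`L m = {b | b = 0 ∨ ord b ≤ m}` consists of finite-dimensional subspaces with
`dim L m = m + 1 - g` for all large `m`.  Then `dim_K B / bB = ord b` for every `b ≠ 0`
(`v27pq_finrank_quotient`): this is "the divisor of `b` has degree `0`" on the one-point model.
-/

set_option autoImplicit false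
set_option linter.unusedSectionVars false
set_option linter.style.haveILetI false

namespace Fermat.Agent.V

open Module

section

variable {K B : Type*} [Field K] [CommRing B] [IsDomain B] [Algebra K B]
  (ord : B → ℕ) (L : ℕ → Submodule K B)

/-- multiplication by `b` from `L (m - ord b)` to `L m` -/
noncomputable def v27pqMul (hmul : ∀ a b : B, a ≠ 0 → b ≠ 0 → ord (a * b) = ord a + ord b)
    (hL : ∀ (m : ℕ) (b : B), b ∈ L m ↔ b = 0 ∨ ord b ≤ m) (b : B) (hb : b ≠ 0) (m : ℕ)
    (hm : ord b ≤ m) : L (m - ord b) →ₗ[K] L m :=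
  LinearMap.codRestrict (L m) ((LinearMap.mulLeft K b).comp (L (m - ord b)).subtype) (by
    intro c
    rw [hL]
    rcases ((hL _ _).mp c.2) with h | h
    · left
      show b * (c : B) = 0
      rw [h, mul_zero]
    · by_cases hc : (c : B) = 0
      · left
        show b * (c : B) = 0
        rw [hc, mul_zero]
      · right
        show ord (b * (c : B)) ≤ m
        rw [hmul b c hb hc]
        omega)

theorem v27pqMul_coe (hmul : ∀ a b : B, a ≠ 0 → b ≠ 0 → ord (a * b) = ord a + ord b)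
    (hL : ∀ (m : ℕ) (b : B), b ∈ L m ↔ b = 0 ∨ ord b ≤ m) (b : B) (hb : b ≠ 0) (m : ℕ)
    (hm : ord b ≤ m) (c : L (m - ord b)) :
    ((v27pqMul ord L hmul hL b hb m hm c : L m) : B) = b * (c : B) := rfl

theorem v27pqMul_injective (hmul : ∀ a b : B, a ≠ 0 → b ≠ 0 → ord (a * b) = ord a + ord b)
    (hL : ∀ (m : ℕ) (b : B), b ∈ L m ↔ b = 0 ∨ ord b ≤ m) (b : B) (hb : b ≠ 0) (m : ℕ)
    (hm : ord b ≤ m) : Function.Injective (v27pqMul ord L hmul hL b hb m hm) := by
  intro c c' h
  have h1 := congrArg (fun x : L m => (x : B)) h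
  simp only [v27pqMul_coe] at h1
  exact Subtype.ext (mul_left_cancel₀ hb h1)

/-- the image of `L m` in `B / bB` -/
noncomputable def v27pqW (b : B) (m : ℕ) : Submodule K (B ⧸ Ideal.span {b}) :=
  (L m).map (Ideal.Quotient.mkₐ K (Ideal.span {b})).toLinearMap

/-- the restriction of the quotient map to `L m` -/
noncomputable def v27pqF (b : B) (m : ℕ) : L m →ₗ[K] (B ⧸ Ideal.span {b}) :=
  (Ideal.Quotient.mkₐ K (Ideal.span {b})).toLinearMap.comp (L m).subtype

theorem v27pq_range_F (b : B) (m : ℕ) : LinearMap.range (v27pqF L b m) = v27pqW L b m := by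
  unfold v27pqF v27pqW
  rw [LinearMap.range_comp, Submodule.range_subtype]

theorem v27pq_ker_F (hmul : ∀ a b : B, a ≠ 0 → b ≠ 0 → ord (a * b) = ord a + ord b)
    (hL : ∀ (m : ℕ) (b : B), b ∈ L m ↔ b = 0 ∨ ord b ≤ m) (b : B) (hb : b ≠ 0) (m : ℕ)
    (hm : ord b ≤ m) :
    LinearMap.ker (v27pqF L b m) = LinearMap.range (v27pqMul ord L hmul hL b hb m hm) := by
  ext x
  rw [LinearMap.mem_ker, LinearMap.mem_range]
  have hx : v27pqF L b m x = Ideal.Quotient.mk (Ideal.span {b}) (x : B) := rfl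
  rw [hx, Ideal.Quotient.eq_zero_iff_mem, Ideal.mem_span_singleton']
  constructor
  · rintro ⟨c, hc⟩
    have hcm : c ∈ L (m - ord b) := by
      rw [hL]
      by_cases hc0 : c = 0
      · exact Or.inl hc0
      · right
        have hx0 : (x : B) ≠ 0 := by
          rw [← hc]
          exact mul_ne_zero hc0 hb
        have h1 := (hL m x).mp x.2
        rcases h1 with h1 | h1
        · exact absurd h1 hx0
        · rw [← hc, hmul c b hc0 hb] at h1
          omega
    refine ⟨⟨c, hcm⟩, ?_⟩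
    apply Subtype.ext
    rw [v27pqMul_coe, ← hc, mul_comm]
  · rintro ⟨c, hc⟩
    refine ⟨(c : B), ?_⟩
    rw [← hc, v27pqMul_coe, mul_comm]

theorem v27pq_finrank_W (hmul : ∀ a b : B, a ≠ 0 → b ≠ 0 → ord (a * b) = ord a + ord b)
    (hL : ∀ (m : ℕ) (b : B), b ∈ L m ↔ b = 0 ∨ ord b ≤ m) (hfin : ∀ m, Module.Finite K (L m))
    (g m₀ : ℕ) (hdim : ∀ m, m₀ ≤ m → finrank K (L m) + g = m + 1) (b : B) (hb : b ≠ 0) (m : ℕ)
    (hm : m₀ + ord b ≤ m) : finrank K (v27pqW L b m) = ord b := by
  have hm' : ord b ≤ m := by omega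
  haveI := hfin m
  have h1 := LinearMap.finrank_range_add_finrank_ker (v27pqF L b m)
  rw [v27pq_range_F, v27pq_ker_F ord L hmul hL b hb m hm',
    LinearMap.finrank_range_of_inj (v27pqMul_injective ord L hmul hL b hb m hm')] at h1
  have h2 := hdim m (by omega)
  have h3 := hdim (m - ord b) (by omega)
  omega

theorem v27pq_W_mono (hL : ∀ (m : ℕ) (b : B), b ∈ L m ↔ b = 0 ∨ ord b ≤ m) (b : B) {m m' : ℕ}
    (h : m ≤ m') : v27pqW L b m ≤ v27pqW L b m' := by
  unfold v27pqW
  apply Submodule.map_mono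
  intro x hx
  rw [hL] at hx ⊢
  rcases hx with hx | hx
  · exact Or.inl hx
  · exact Or.inr (by omega)

/-- **`dim_K B / bB = ord b`** -/
theorem v27pq_finrank_quotient
    (hmul : ∀ a b : B, a ≠ 0 → b ≠ 0 → ord (a * b) = ord a + ord b)
    (hL : ∀ (m : ℕ) (b : B), b ∈ L m ↔ b = 0 ∨ ord b ≤ m) (hfin : ∀ m, Module.Finite K (L m))
    (g m₀ : ℕ) (hdim : ∀ m, m₀ ≤ m → finrank K (L m) + g = m + 1) (b : B) (hb : b ≠ 0) :
    Module.Finite K (B ⧸ Ideal.span {b}) ∧ finrank K (B ⧸ Ideal.span {b}) = ord b := by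
  set M := m₀ + ord b with hM
  have hWfin : ∀ m, Module.Finite K (v27pqW L b m) := by
    intro m
    haveI := hfin m
    unfold v27pqW
    infer_instance
  -- all the `W m`, `m ≥ M`, coincide
  have hconst : ∀ m, M ≤ m → v27pqW L b m = v27pqW L b M := by
    intro m hm
    symm
    haveI := hWfin m
    apply Submodule.eq_of_le_of_finrank_eq (v27pq_W_mono ord L hL b hm)
    rw [v27pq_finrank_W ord L hmul hL hfin g m₀ hdim b hb M (le_refl _),
      v27pq_finrank_W ord L hmul hL hfin g m₀ hdim b hb m hm]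
  -- exhaustion
  have htop : v27pqW L b M = ⊤ := by
    rw [eq_top_iff]
    intro y _
    obtain ⟨x, rfl⟩ := Ideal.Quotient.mk_surjective y
    have hx : x ∈ L (max (ord x) M) := by
      rw [hL]
      exact Or.inr (le_max_left _ _)
    rw [← hconst (max (ord x) M) (le_max_right _ _)]
    exact ⟨x, hx, rfl⟩
  have h1 := v27pq_finrank_W ord L hmul hL hfin g m₀ hdim b hb M (le_refl _)
  rw [htop] at h1
  constructor
  · have h2 := hWfin M
    rw [htop] at h2
    exact Module.Finite.of_surjective (Submodule.subtype (⊤ : Submodule K (B ⧸ Ideal.span {b})))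
      (fun y => ⟨⟨y, trivial⟩, rfl⟩)
  · rw [← h1, finrank_top]

end

end Fermat.Agent.V
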