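import Mathlib
import Fermat.Prelude.Def_AlgebraicCurve_IsCurveOver
import Fermat.Prelude.Def_AlgebraicCurve_Repartitions
import Fermat.Agent.S24.PlaceOrd
import Fermat.Agent.V.Pres.Ring

/-!
# Program V (S27), half B, route M (Lefschetz): the interface `V27Presented`

Owner: helper5.  Prefix `v27pr_` / `V27Presented`.

A *one-point presentation* of a function field `F / K` by a multiplication table `T` of shape `δ`
(helper26's `V27pTable K δ`, ring `V27pB T = ⊕_j K[X] e_j`):

* `ψ : V27pB T →ₐ[K] F` injective, with `F = Frac (ψ B)`;
* a place `P0` of degree one ("infinity") such that `ψ B` is exactly the ring of functions regular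
  off `P0`;
* the pole order at `P0` of `ψ a` is the weight `max_j (N · deg (a j) + d j)` of `a`.

Both ends of the Lefschetz argument produce this structure: in characteristic `0` for the given
`F / K` (helper9's Weierstrass data, leaf (C2b)); over any algebraically closed field for
`F := FractionRing (V27pB T)` when `T` satisfies `(P3)` (leaves (C3a)-(C3d)).  The semantic layer
(`V/Sem/*.lean`) and the final step only ever see `V27Presented`.

This file: the structure, the coordinate description of `L(m·P0)`, the `Algebra`/`IsFractionRing`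
instances attached to `ψ`.
-/

set_option autoImplicit false
set_option linter.unusedSectionVars false
set_option linter.unusedVariables false
set_option linter.style.haveILetI false

noncomputable section

namespace Fermat.Agent.V

open AlgebraicCurve Polynomial Fermat.Agent.S24

variable {K : Type*} [Field K] {δ : V27pShape}

/-- weight bound in coordinates: all monomials `X^r e_j` occurring in `a` have weight
`N r + d j ≤ m`. -/
def V27prLe (T : V27pTable K δ) (m : ℕ) (a : V27pB T) : Prop :=
  ∀ (j : ZMod δ.N) (r : ℕ), m < δ.N * r + δ.d j → (a j).coeff r = 0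

theorem v27pr_le_iff_natDegree (T : V27pTable K δ) (m : ℕ) (a : V27pB T) :
    V27prLe T m a ↔ ∀ j, a j ≠ 0 → δ.N * (a j).natDegree + δ.d j ≤ m := by
  constructor
  · intro h j hj
    by_contra hlt
    push Not at hlt
    exact (Polynomial.leadingCoeff_ne_zero.mpr hj) (h j _ hlt)
  · intro h j r hr
    by_cases hj : a j = 0
    · rw [hj, Polynomial.coeff_zero]
    · apply Polynomial.coeff_eq_zero_of_natDegree_lt
      have := h j hj
      have hN : 0 < δ.N := δ.hN
      by_contra hle
      push Not at hle
      have : δ.N * r ≤ δ.N * (a j).natDegree := Nat.mul_le_mul_left _ hle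
      omega

theorem v27pr_le_mono (T : V27pTable K δ) {m m' : ℕ} (h : m ≤ m') {a : V27pB T}
    (ha : V27prLe T m a) : V27prLe T m' a := fun j r hr => ha j r (lt_of_le_of_lt h hr)

theorem v27pr_le_zero (T : V27pTable K δ) (m : ℕ) : V27prLe T m (0 : V27pB T) :=
  fun j r _ => by simp

theorem v27pr_le_add (T : V27pTable K δ) {m : ℕ} {a b : V27pB T} (ha : V27prLe T m a)
    (hb : V27prLe T m b) : V27prLe T m (a + b) := fun j r hr => by
  rw [V27pB.add_apply, Polynomial.coeff_add, ha j r hr, hb j r hr, add_zero]

variable {F : Type*} [Field F] [Algebra K F]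

/-- A one-point presentation of `F / K` by the table `T`. -/
structure V27Presented (K F : Type*) [Field K] [Field F] [Algebra K F] {δ : V27pShape}
    (T : V27pTable K δ) where
  /-- the coordinate ring inside `F` -/
  ψ : V27pB T →ₐ[K] F
  inj : Function.Injective ψ
  /-- the place at infinity -/
  P0 : Place K F
  hdeg : P0.deg = 1
  /-- `ψ B` is regular off `P0` … -/
  hcover : ∀ v : Place K F, v ≠ P0 → ∀ b : V27pB T, ψ b ∈ v.toValuationSubring
  /-- … and contains every function regular off `P0` -/
  hrange : ∀ f : F, (∀ v : Place K F, v ≠ P0 → f ∈ v.toValuationSubring) → ∃ b : V27pB T, ψ b = f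
  /-- `F = Frac (ψ B)` -/
  hfrac : ∀ f : F, ∃ a b : V27pB T, b ≠ 0 ∧ f * ψ b = ψ a
  /-- the pole order at `P0` is the weight -/
  hord : ∀ a : V27pB T, a ≠ 0 → ∀ m : ℕ, -(P0.ord (ψ a)) ≤ (m : ℤ) ↔ V27prLe T m a

namespace V27Presented

variable {T : V27pTable K δ} (P : V27Presented K F T)

theorem ψ_ne_zero {a : V27pB T} (ha : a ≠ 0) : P.ψ a ≠ 0 := fun h =>
  ha (P.inj (by rw [h, map_zero]))

theorem ord_nonneg_of_ne {v : Place K F} (hv : v ≠ P.P0) (b : V27pB T) : 0 ≤ v.ord (P.ψ b) :=
  PlaceOrd.ord_nonneg_of_mem _ (P.hcover v hv b)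

/-- **`L(m·P0)` in coordinates, membership.** -/
theorem mem_L_iff (m : ℕ) (a : V27pB T) :
    P.ψ a ∈ riemannRochSpace (Finsupp.single P.P0 (m : ℤ)) ↔ V27prLe T m a := by
  classical
  rcases eq_or_ne a 0 with rfl | ha
  · simp only [map_zero, Submodule.zero_mem, true_iff]
    exact v27pr_le_zero T m
  rw [mem_riemannRochSpace_iff, ← P.hord a ha m]
  constructor
  · intro h
    have := (h P.P0).resolve_left (P.ψ_ne_zero ha)
    rw [Finsupp.single_eq_same] at this
    omega
  · intro h v
    right
    by_cases hv : v = P.P0
    · subst hv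
      rw [Finsupp.single_eq_same]
      omega
    · rw [Finsupp.single_eq_of_ne hv, neg_zero]
      exact P.ord_nonneg_of_ne hv a

/-- **`L(m·P0)` in coordinates, surjectivity.** -/
theorem exists_of_mem_L {m : ℕ} {f : F}
    (hf : f ∈ riemannRochSpace (Finsupp.single P.P0 (m : ℤ))) :
    ∃ a : V27pB T, V27prLe T m a ∧ P.ψ a = f := by
  classical
  have hreg : ∀ v : Place K F, v ≠ P.P0 → f ∈ v.toValuationSubring := by
    intro v hv
    rcases eq_or_ne f 0 with rfl | hf0
    · exact v.toValuationSubring.zero_mem
    · have := ((mem_riemannRochSpace_iff.mp hf) v).resolve_left hf0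
      rw [Finsupp.single_eq_of_ne hv, neg_zero] at this
      exact PlaceOrd.mem_of_ord_nonneg _ this
  obtain ⟨a, rfl⟩ := P.hrange f hreg
  exact ⟨a, (P.mem_L_iff m a).mp hf, rfl⟩

/-- exact pole order `m` in coordinates. -/
theorem ord_eq_iff {a : V27pB T} (ha : a ≠ 0) (m : ℕ) :
    P.P0.ord (P.ψ a) = -(m : ℤ) ↔
      V27prLe T m a ∧ ∃ (j : ZMod δ.N) (r : ℕ), δ.N * r + δ.d j = m ∧ (a j).coeff r ≠ 0 := by
  constructor
  · intro h
    have h1 : V27prLe T m a := (P.hord a ha m).mp (by omega)
    refine ⟨h1, ?_⟩
    by_contra hno
    push Not at hno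
    -- then the weight is `≤ m - 1`
    rcases Nat.eq_zero_or_pos m with rfl | hm
    · -- m = 0 : a ≠ 0 has some nonzero coefficient, of weight 0
      obtain ⟨j, hj⟩ : ∃ j, a j ≠ 0 := by
        by_contra hcon
        push Not at hcon
        exact ha (V27pB.ext hcon)
      have hw := (v27pr_le_iff_natDegree T 0 a).mp h1 j hj
      have hN : 0 < δ.N := δ.hN
      have hr : (a j).natDegree = 0 := by
        rcases Nat.eq_zero_or_pos (a j).natDegree with h0 | hpos
        · exact h0
        · have : δ.N ≤ δ.N * (a j).natDegree := Nat.le_mul_of_pos_right _ hpos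
          omega
      have hd : δ.d j = 0 := by omega
      have hc0 := hno j 0 (by rw [hd]; simp)
      have := Polynomial.leadingCoeff_ne_zero.mpr hj
      rw [Polynomial.leadingCoeff, hr] at this
      exact this hc0
    · have h2 : V27prLe T (m - 1) a := by
        intro j r hr
        by_cases hmr : m < δ.N * r + δ.d j
        · exact h1 j r hmr
        · have : δ.N * r + δ.d j = m := by omega
          exact hno j r this
      have := (P.hord a ha (m - 1)).mpr h2
      have hm1 : ((m - 1 : ℕ) : ℤ) = (m : ℤ) - 1 := by
        rw [Nat.cast_sub hm]; simp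
      rw [hm1] at this
      omega
  · rintro ⟨h1, j, r, hjr, hc⟩
    have hle : -(P.P0.ord (P.ψ a)) ≤ (m : ℤ) := (P.hord a ha m).mpr h1
    by_contra hne
    have hlt : -(P.P0.ord (P.ψ a)) < (m : ℤ) := lt_of_le_of_ne hle (fun h => hne (by omega))
    rcases Nat.eq_zero_or_pos m with rfl | hm
    · -- pole order of a nonzero element of `ψ B` is `≥ 0`
      have h0 : V27prLe T 0 a := h1
      -- weight `< 0` impossible: use `hord` with the natural number `0`
      have hnn : (0 : ℤ) ≤ -(P.P0.ord (P.ψ a)) := by
        by_contra hneg
        push Not at hneg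
        -- then `ψ a` vanishes at `P0` and is regular elsewhere: it lies in `L(-P0)`, hence…
        -- we avoid Riemann–Roch: weight `≤ 0` forces `a = c·e_0` with `c ≠ 0`, a unit of `K`
        have ha0 : ∀ j, a j ≠ 0 → j = 0 ∧ (a j).natDegree = 0 := by
          intro j hj
          have hw := (v27pr_le_iff_natDegree T 0 a).mp h0 j hj
          have hN : 0 < δ.N := δ.hN
          have hr : (a j).natDegree = 0 := by
            rcases Nat.eq_zero_or_pos (a j).natDegree with h0' | hpos
            · exact h0'
            · have : δ.N ≤ δ.N * (a j).natDegree := Nat.le_mul_of_pos_right _ hpos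
              omega
          have hd : δ.d j = 0 := by omega
          have hj0 : j = 0 := by
            have := δ.d_cong j
            rw [hd, Nat.cast_zero] at this
            exact this.symm
          exact ⟨hj0, hr⟩
        -- so `a = algebraMap K _ c`
        obtain ⟨c, hc0, hac⟩ : ∃ c : K, c ≠ 0 ∧ a = algebraMap K (V27pB T) c := by
          refine ⟨(a 0).coeff 0, ?_, ?_⟩
          · intro hzero
            apply ha
            refine V27pB.ext fun k => ?_
            by_contra hk
            obtain ⟨hk0, hkd⟩ := ha0 k hk
            subst hk0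
            have := Polynomial.eq_C_of_natDegree_eq_zero hkd
            rw [this, hzero, map_zero] at hk
            exact hk rfl
          · refine V27pB.ext fun k => ?_
            rw [V27pB.algebraMap_apply]
            split_ifs with hk
            · subst hk
              by_cases h00 : a 0 = 0
              · rw [h00]; simp
              · exact Polynomial.eq_C_of_natDegree_eq_zero (ha0 0 h00).2
            · by_contra hk'
              exact hk (ha0 k hk').1
        have hψ : P.ψ a = algebraMap K F c := by rw [hac, AlgHom.commutes]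
        rw [hψ, PlaceOrd.ord_algebraMap] at hneg
        omega
      omega
    · have h2 := (P.hord a ha (m - 1)).mp (by
        have hm1 : ((m - 1 : ℕ) : ℤ) = (m : ℤ) - 1 := by
          rw [Nat.cast_sub hm]; simp
        rw [hm1]; omega)
      exact hc (h2 j r (by omega))

end V27Presented

end Fermat.Agent.V
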