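import Mathlib

/-!
# Program V (S27-B'): a separating variable without bad primes

`k` perfect, `M / k` essentially of finite type, algebraic over `k(x)` for a transcendental `x`.
Then there is a transcendental `y` with `M / k(y)` finite and separable.
(Mathlib: `exists_isTranscendenceBasis_and_isSeparable_of_perfectField`; the separating
transcendence basis is a singleton because `{x}` is a transcendence basis as well.)
-/

set_option autoImplicit false

noncomputable section

namespace Fermat.Agent.V

open IntermediateField

open scoped IntermediateField.algebraAdjoinAdjoin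

theorem v27sv_exists (k M : Type*) [Field k] [PerfectField k] [Field M] [Algebra k M]
    [Algebra.EssFiniteType k M] (x : M) (hx : Transcendental k x)
    [Algebra.IsAlgebraic k⟮x⟯ M] :
    ∃ y : M, Transcendental k y ∧ FiniteDimensional k⟮y⟯ M ∧ Algebra.IsSeparable k⟮y⟯ M := by
  classical
  obtain ⟨s, hs, hsep⟩ := exists_isTranscendenceBasis_and_isSeparable_of_perfectField k M
  -- `{x}` is a transcendence basis
  have hxind : AlgebraicIndependent k (fun _ : Unit => x) :=
    algebraicIndependent_unique_type_iff.mpr hx
  have hxalg : Algebra.IsAlgebraic (Algebra.adjoin k (Set.range fun _ : Unit => x)) M := by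
    have hr : (Set.range fun _ : Unit => x) = {x} := by
      ext z; simp [eq_comm]
    rw [hr]
    -- algebraic over `k⟮x⟯`, which is algebraic over `k[x]`
    have h1 : Algebra.IsAlgebraic (Algebra.adjoin k {x}) k⟮x⟯ := inferInstance
    exact Algebra.IsAlgebraic.trans (Algebra.adjoin k {x}) k⟮x⟯ M
  have hxb : IsTranscendenceBasis k (fun _ : Unit => x) :=
    hxind.isTranscendenceBasis_iff_isAlgebraic.mpr hxalg
  have hcard1 : s.card = 1 := by
    have h2 : Cardinal.mk s = 1 := by
      have := IsTranscendenceBasis.lift_cardinalMk_eq hs hxb
      simpa using this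
    have h3 : (Cardinal.mk s) = (s.card : Cardinal) := by simp
    rw [h3] at h2
    exact_mod_cast h2
  obtain ⟨y, rfl⟩ := Finset.card_eq_one.mp hcard1
  refine ⟨y, ?_, ?_, ?_⟩
  · have hind := hs.1
    have : AlgebraicIndependent k (fun i : (({y} : Finset M) : Set M) => (i : M)) := hind
    have hy : y ∈ (({y} : Finset M) : Set M) := by simp
    have hsub : Subsingleton (({y} : Finset M) : Set M) := by
      constructor
      rintro ⟨a, ha⟩ ⟨b, hb⟩
      simp only [Finset.coe_singleton, Set.mem_singleton_iff] at ha hb
      subst ha; subst hb; rfl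
    exact (algebraicIndependent_singleton_iff (⟨y, hy⟩ : (({y} : Finset M) : Set M))).mp this
  all_goals
    have hset : ((({y} : Finset M) : Set M)) = {y} := Finset.coe_singleton y
    rw [hset] at hsep
  · have : Algebra.IsAlgebraic k⟮y⟯ M := Algebra.IsSeparable.isAlgebraic _ _
    have : Algebra.EssFiniteType k⟮y⟯ M := Algebra.EssFiniteType.of_comp k k⟮y⟯ M
    exact Algebra.finite_of_essFiniteType_of_isAlgebraic
  · exact hsep

end Fermat.Agent.V
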