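import Fermat.Agent.V.Pres.Ord
import Fermat.Agent.V.Pres.FieldGlueInst
import Fermat.Agent.V.Pres.SepVar

/-!
# Program V (S27-B'): the separating variable of `M_T = FractionRing (V27pB T)`, `k` perfect

No bad primes: the binders `(x) (hx) [FiniteDimensional k⟮x⟯ M] [Algebra.IsSeparable k⟮x⟯ M]` of
`v27c_isCurveOver` / `v27c_curve_package` for every table over a perfect field.
-/

set_option autoImplicit false

noncomputable section

namespace Fermat.Agent.V

open Polynomial IntermediateField

theorem v27sv_exists_table {k : Type*} [Field k] [PerfectField k] {δ : V27pShape}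
    (T : V27pTable k δ) :
    ∃ y : FractionRing (V27pB T), Transcendental k y ∧
      FiniteDimensional k⟮y⟯ (FractionRing (V27pB T)) ∧
      Algebra.IsSeparable k⟮y⟯ (FractionRing (V27pB T)) := by
  have : Algebra.IsAlgebraic k⟮v27fgXT T⟯ (FractionRing (V27pB T)) :=
    Algebra.IsAlgebraic.of_finite _ _
  exact v27sv_exists k (FractionRing (V27pB T)) (v27fgXT T) (v27fg_transcendental_table T)

end Fermat.Agent.V
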