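import Mathlib
import Fermat.Prelude.Def_AlgebraicCurve_IsCurveOver
import Fermat.Prelude.Def_AlgebraicCurve_Repartitions
import Fermat.Agent.V.Pres.Presented
import Fermat.Agent.V.Pres.Genus
import Fermat.Agent.V.Pres.Inf
import Fermat.Agent.V.Pres.PoleQuot
import Fermat.Agent.V.Pres.FieldGlueInst
import Fermat.Agent.V.Pres.SepVarInst
import Fermat.Agent.V.Pts.Inst.Main
import Fermat.Agent.V.Coord.Point

/-!
# Program V (S27), half B, route M (Lefschetz), row (10a) INST-p:
the function field of a table with `(P3)` is a Prelude curve of genus `δ.genus`, presented by the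
table

Owner: helper17.  Prefix `v27ifr_`.

`k` algebraically closed, `T : V27pTable k δ` a multiplication table (helper26), `D : ℕ` and
`hP3 : V27coP3 D T.c` the coordinate form of "every point is regular" (helper24's literal).
`M` is ANY fraction field of `B := V27pB T` with the compatible `k`-algebra structure; the closed
forms at the end take `M := FractionRing (V27pB T)`.

* `v27ifr_isDedekindDomain` : `B` is a Dedekind domain (helper19's `v27cb_P3_iff`,
  `v27cb_piP3_of_P3` + helper15's `v27pi_isDedekindDomain`);
* `v27ifr_hq` : `dim_k B / bB = v27pOrd b` (helper16's `v27pq_finrank_quotient` on helper26's count);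
* `v27ifr_package` : `IsCurveOver k M ∧ EssFiniteType k M ∧ genusFF k M = δ.genus ∧ V27RR k M δ.genus`
  from a separating variable (helper7's `v27c_curve_package`);
* `v27ifrPres` : the one-point presentation `V27Presented k M T` (helper5's interface), with
  `ψ = algebraMap`, `P0 =` helper4's place at infinity `v27ifPlace M T`;
* `v27ifr_closed` : everything at once on `FractionRing (V27pB T)`, the separating variable being
  supplied by helper1's `v27sv_exists_table` (`k` algebraically closed, hence perfect): no bad primes.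
-/

set_option autoImplicit false
set_option linter.unusedSectionVars false
set_option linter.unusedVariables false
set_option linter.style.haveILetI false

noncomputable section

namespace Fermat.Agent.V

open AlgebraicCurve Polynomial IntermediateField Fermat.Agent.S24 Fermat.Agent.V.RR

variable {k : Type*} [Field k] {δ : V27pShape} (T : V27pTable k δ)

/-! ### the quotient count (no hypothesis on `k`) -/

/-- `dim_k B / bB = v27pOrd b` : the hypothesis `hq` of helper4's `v27if_hpole`. -/
theorem v27ifr_hq : ∀ b : V27pB T, b ≠ 0 →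
    Module.finrank k (V27pB T ⧸ Ideal.span {b}) = v27pOrd b := fun b hb =>
  (v27pq_finrank_quotient (v27pOrd (T := T)) (v27pL T) (fun _ _ ha hb => v27pOrd_mul ha hb)
    mem_v27pL_iff_ord' (fun m => v27pL_finite T m) δ.genus δ.bound
    (fun m hm => v27p_finrank_L T m hm) b hb).2

theorem v27ifr_finite_quotient : ∀ b : V27pB T, b ≠ 0 →
    Module.Finite k (V27pB T ⧸ Ideal.span {b}) := fun b hb =>
  (v27pq_finrank_quotient (v27pOrd (T := T)) (v27pL T) (fun _ _ ha hb => v27pOrd_mul ha hb)
    mem_v27pL_iff_ord' (fun m => v27pL_finite T m) δ.genus δ.bound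
    (fun m hm => v27p_finrank_L T m hm) b hb).1

/-! ### Dedekind -/

/-- **(i)** a table with `(P3)` over an algebraically closed field is a Dedekind domain. -/
theorem v27ifr_isDedekindDomain [IsAlgClosed k] (D : ℕ) (hP3 : V27coP3 D T.c) :
    IsDedekindDomain (V27pB T) :=
  v27pi_isDedekindDomain (v27cb_piP3_of_P3 T ((v27cb_P3_iff T D).mp hP3))

section Frac

variable (M : Type*) [Field M] [Algebra (V27pB T) M] [IsFractionRing (V27pB T) M] [Algebra k M]
  [IsScalarTower k (V27pB T) M]

/-- `hpole` of helper7's one-point model, closed. -/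
theorem v27ifr_hpole : ∀ b : V27pB T, b ≠ 0 →
    (Module.finrank k (V27pB T ⧸ Ideal.span {b}) : ℤ) =
      -(v27ifPlace M T).ord (algebraMap (V27pB T) M b) :=
  v27if_hpole M T (v27ifr_hq T)

/-- `hcover` of helper7's one-point model, closed (helper15). -/
theorem v27ifr_hcover : ∀ v : Place k M, v ≠ v27ifPlace M T →
    ∀ b : V27pB T, algebraMap (V27pB T) M b ∈ v.toValuationSubring :=
  v27pi_hcover M (v27if_deg T)

/-- **(ii) + (iii)** the function field of a Dedekind table is a Prelude curve, essentially of
finite type, of genus `δ.genus`, satisfying Riemann–Roch — from a separating variable `y`. -/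
theorem v27ifr_package_of_sep [IsAlgClosed k] [IsDedekindDomain (V27pB T)]
    (y : M) (hy : Transcendental k y) [FiniteDimensional k⟮y⟯ M] [Algebra.IsSeparable k⟮y⟯ M] :
    IsCurveOver k M ∧ Algebra.EssFiniteType k M ∧ genusFF k M = δ.genus ∧
      V27RR k M δ.genus :=
  v27c_curve_package (B := V27pB T) (v27pi_hfin T) (v27ifPlace M T) (v27if_deg_eq_one M T)
    (v27ifr_hcover T M) (v27ifr_hpole T M) y hy (v27pL T) (v27if_hL M T) δ.genus δ.bound
    (v27if_hdim T)

/-- the same with the separating variable in existential form (the conclusion of helper1's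
`v27sv_exists`). -/
theorem v27ifr_package [IsAlgClosed k] [IsDedekindDomain (V27pB T)]
    (hsep : ∃ y : M, Transcendental k y ∧ FiniteDimensional k⟮y⟯ M ∧
      Algebra.IsSeparable k⟮y⟯ M) :
    IsCurveOver k M ∧ Algebra.EssFiniteType k M ∧ genusFF k M = δ.genus ∧
      V27RR k M δ.genus := by
  obtain ⟨y, hy, hfd, hs⟩ := hsep
  haveI := hfd
  haveI := hs
  exact v27ifr_package_of_sep T M y hy

/-! ### the presentation -/

theorem v27ifr_hrange [IsAlgClosed k] [IsDedekindDomain (V27pB T)] (f : M)
    (hf : ∀ v : Place k M, v ≠ v27ifPlace M T → f ∈ v.toValuationSubring) :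
    ∃ b : V27pB T, algebraMap (V27pB T) M b = f := by
  have h := v27c_mem_range_of_forall_mem (K := k) (B := V27pB T) f fun P =>
    hf _ (v27c_Pinf_ne (v27ifPlace M T) (v27ifr_hpole T M) P)
  exact h

theorem v27ifr_hfrac (f : M) :
    ∃ a b : V27pB T, b ≠ 0 ∧ f * algebraMap (V27pB T) M b = algebraMap (V27pB T) M a := by
  obtain ⟨a, b, hb, rfl⟩ := IsFractionRing.div_surjective (A := V27pB T) f
  have hb0 : b ≠ 0 := nonZeroDivisors.ne_zero hb
  have hbM : algebraMap (V27pB T) M b ≠ 0 := by
    rwa [ne_eq, (IsFractionRing.injective (V27pB T) M).eq_iff' (map_zero _)]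
  exact ⟨a, b, hb0, div_mul_cancel₀ _ hbM⟩

theorem v27ifr_hord (a : V27pB T) (ha : a ≠ 0) (m : ℕ) :
    -((v27ifPlace M T).ord (algebraMap (V27pB T) M a)) ≤ (m : ℤ) ↔ V27prLe T m a := by
  rw [v27if_ord_algebraMap M T ha, neg_neg, Nat.cast_le, v27pOrd_le_iff]
  exact Iff.rfl

/-- **(iv)** the one-point presentation of `M = Frac (V27pB T)` by the table `T`. -/
def v27ifrPres [IsAlgClosed k] [IsDedekindDomain (V27pB T)] : V27Presented k M T where
  ψ := IsScalarTower.toAlgHom k (V27pB T) M
  inj := IsFractionRing.injective (V27pB T) M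
  P0 := v27ifPlace M T
  hdeg := v27if_deg_eq_one M T
  hcover := v27ifr_hcover T M
  hrange := v27ifr_hrange T M
  hfrac := v27ifr_hfrac T M
  hord := v27ifr_hord T M

@[simp] theorem v27ifrPres_ψ [IsAlgClosed k] [IsDedekindDomain (V27pB T)] (b : V27pB T) :
    (v27ifrPres T M).ψ b = algebraMap (V27pB T) M b := rfl

@[simp] theorem v27ifrPres_P0 [IsAlgClosed k] [IsDedekindDomain (V27pB T)] :
    (v27ifrPres T M).P0 = v27ifPlace M T := rfl

end Frac

/-! ### closed forms on `FractionRing (V27pB T)` -/

/-- **INST-p, all at once**: for a table with `(P3)` over an algebraically closed field `k` and a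
separating variable of `M_T := FractionRing (V27pB T)`, the field `M_T` is a Prelude curve over `k`,
essentially of finite type, of genus `δ.genus`, with Riemann–Roch, and presented by `T`. -/
theorem v27ifr_main [IsAlgClosed k] (D : ℕ) (hP3 : V27coP3 D T.c)
    (hsep : ∃ y : FractionRing (V27pB T), Transcendental k y ∧
      FiniteDimensional k⟮y⟯ (FractionRing (V27pB T)) ∧
      Algebra.IsSeparable k⟮y⟯ (FractionRing (V27pB T))) :
    IsCurveOver k (FractionRing (V27pB T)) ∧ Algebra.EssFiniteType k (FractionRing (V27pB T)) ∧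
      genusFF k (FractionRing (V27pB T)) = δ.genus ∧
      V27RR k (FractionRing (V27pB T)) δ.genus ∧
      Nonempty (V27Presented k (FractionRing (V27pB T)) T) := by
  haveI := v27ifr_isDedekindDomain T D hP3
  obtain ⟨h1, h2, h3, h4⟩ := v27ifr_package T (FractionRing (V27pB T)) hsep
  exact ⟨h1, h2, h3, h4, ⟨v27ifrPres T (FractionRing (V27pB T))⟩⟩

/-- **INST-p, closed**: no separability hypothesis (helper1's `v27sv_exists_table`; an
algebraically closed field is perfect). -/
theorem v27ifr_closed [IsAlgClosed k] (D : ℕ) (hP3 : V27coP3 D T.c) :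
    IsCurveOver k (FractionRing (V27pB T)) ∧ Algebra.EssFiniteType k (FractionRing (V27pB T)) ∧
      genusFF k (FractionRing (V27pB T)) = δ.genus ∧
      V27RR k (FractionRing (V27pB T)) δ.genus ∧
      Nonempty (V27Presented k (FractionRing (V27pB T)) T) :=
  v27ifr_main T D hP3 (v27sv_exists_table T)

end Fermat.Agent.V
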