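import Fermat.Agent.V.Pres.OfWeierP3
import Fermat.Agent.V.Pres.Presented
import Fermat.Agent.V.Weier.Frac
import Fermat.Agent.V.Weier.Genus
import Fermat.Agent.V.RR.Closed

/-!
# Program V (S27), half B, leaf 9 (C2b), part 3: the package on the characteristic-zero side

Owner: helper22.  Prefix `v27ow`.

* `v27owPresented R hdeg D : V27Presented K F (v27owTable R.res hdeg D)` (helper5's interface, from
  helper9's table-independent lemmas of `V/Weier/Frac.lean`);
* `v27owShape_genus : (v27owShape hres D).genus = g` (helper9's gap count);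
* **`v27ow_exists`** : for `F / K` a curve over an algebraically closed field of characteristic zero
  there are a shape `δ` with `δ.genus = genusFF K F`, a table `T`, a presentation
  `P : V27Presented K F T`, and `V27coP3 Db T.c` for every box size
  `Db ≥ 4 * δ.genus + δ.N + ∑ j, δ.d j`.
-/

set_option autoImplicit false
set_option linter.unusedSectionVars false
set_option linter.unusedVariables false
set_option linter.style.haveILetI false

noncomputable section

namespace Fermat.Agent.V

open AlgebraicCurve Module Polynomial Fermat.Agent.V.Weier Fermat.Agent.V.RR Fermat.Agent.V.Dict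

variable {K F : Type*} [Field K] [Field F] [Algebra K F] {N : ℕ} [NeZero N]
  [HasPrincipalDivisors K F]
  {P0 : Place K F} {x : F} {d : ZMod N → ℕ} {e : ZMod N → F}

/-- helper5's weight predicate on the table of pole-order-adapted data, in coordinates -/
theorem v27ow_prLe_iff (hres : ∀ v : Place K F, Module.Finite K v.ResidueField)
    (hdeg : P0.deg = 1) (D : V27wData P0 N x d e) (m : ℕ)
    (a : V27pB (v27owTable hres hdeg D)) :
    V27prLe (v27owTable hres hdeg D) m a ↔
      ∀ (j : ZMod N) (r : ℕ), m < N * r + d j → (v27owCoord hres hdeg D a j).coeff r = 0 :=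
  Iff.rfl

/-- **the presentation of `F / K` by the table of pole-order-adapted data** -/
def v27owPresented {g : ℕ} (R : V27RR K F g) (hdeg : P0.deg = 1) (D : V27wData P0 N x d e) :
    V27Presented K F (v27owTable R.res hdeg D) where
  ψ := v27owPsi R.res hdeg D
  inj := v27owPsi_injective R.res hdeg D
  P0 := P0
  hdeg := hdeg
  hcover := fun v hv b => v27w_psi_cover D (v27owCoord R.res hdeg D b) v hv
  hrange := fun f hf => v27w_psi_range R.res hdeg D f hf
  hfrac := fun f => by
    obtain ⟨a, b, hb, h⟩ := v27w_psi_frac R hdeg D f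
    exact ⟨a, b, hb, h⟩
  hord := fun a ha m => by
    rw [v27ow_prLe_iff]
    exact v27w_psi_ord_le_iff R.res D (a := v27owCoord R.res hdeg D a) ha m

theorem v27owPresented_P0 {g : ℕ} (R : V27RR K F g) (hdeg : P0.deg = 1)
    (D : V27wData P0 N x d e) : (v27owPresented R hdeg D).P0 = P0 := rfl

theorem v27owPresented_ψ {g : ℕ} (R : V27RR K F g) (hdeg : P0.deg = 1)
    (D : V27wData P0 N x d e) : (v27owPresented R hdeg D).ψ = v27owPsi R.res hdeg D := rfl

/-- the genus of the shape is the genus of the curve -/
theorem v27owShape_genus {g : ℕ} (R : V27RR K F g) (hdeg : P0.deg = 1)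
    (hres : ∀ v : Place K F, Module.Finite K v.ResidueField) (D : V27wData P0 N x d e) :
    (v27owShape hres D).genus = g :=
  v27w_gap_count R hdeg D

/-- **Row 9 (C2b): the characteristic-zero package.**  A curve `F / K` over an algebraically
closed field of characteristic zero has a one-point presentation by a table of shape `δ` with
`δ.genus = genusFF K F`, and the table satisfies `(P3)` in coordinates for every large box. -/
theorem v27ow_exists (K F : Type*) [Field K] [Field F] [Algebra K F] [IsAlgClosed K] [CharZero K]
    [IsCurveOver K F] [Algebra.EssFiniteType K F] :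
    ∃ (δ : V27pShape) (T : V27pTable K δ) (P : V27Presented K F T),
      δ.genus = genusFF K F ∧ δ.N = 2 * genusFF K F + 1 ∧
      ∀ Db : ℕ, 4 * δ.genus + δ.N + ∑ j, δ.d j ≤ Db → V27coP3 Db T.c := by
  have R : V27RR K F (genusFF K F) := v27x_rr
  have hdeg1 : ∀ v : Place K F, v.deg = 1 := IsCurveOver.forall_deg_eq_one_of_isAlgClosed
  obtain ⟨P0⟩ := R.place
  obtain ⟨x, d, e, D⟩ := v27w_exists R (hdeg1 P0)
  have hgen := v27owShape_genus R (hdeg1 P0) R.res D
  refine ⟨v27owShape R.res D, v27owTable R.res (hdeg1 P0) D, v27owPresented R (hdeg1 P0) D,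
    hgen, rfl, fun Db hDb => ?_⟩
  rw [hgen] at hDb
  have hdj : ∀ j : ZMod (2 * genusFF K F + 1), d j ≤ ∑ j, (v27owShape R.res D).d j := fun j =>
    Finset.single_le_sum (f := fun j => d j) (fun _ _ => Nat.zero_le _) (Finset.mem_univ j)
  have hN : (v27owShape R.res D).N = 2 * genusFF K F + 1 := rfl
  refine v27ow_P3 R hdeg1 R.res D Db ?_ (fun j => ?_) ?_
  · omega
  · have := hdj j
    omega
  · omega

end Fermat.Agent.V
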