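import Mathlib
import Fermat.Prelude.Def_AlgebraicCurve_IsCurveOver
import Fermat.Agent.S24.PlacesInt
import Fermat.Agent.S24.PlacesResidue
import Fermat.Agent.S24.PlacesPrincipal
import Fermat.Agent.S24.Places
import Fermat.Agent.V.RR.SepGen

/-!
# Program V (S27), half B, route M: the ring of functions regular off one place is an
integral closure

Owner: helper12.  Prefix `v27ir_`.

Let `P0` be a place of `F / K` and `x : F` a function whose only pole is `P0`.  Then

  `{f | ∀ v ≠ P0, 0 ≤ v.ord f} = integralClosure K[x] F  ( = S24.intRing K x )`,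

so every result of main's `S24/Places*` about `intRing` (Dedekind, fraction field `F`, finite over
`K[x]`, the dictionary places ↔ height one primes) is available for the ring `B` of functions
regular off `P0`.  In particular (for `K` algebraically closed) the places `≠ P0` are exactly the
`K`-algebra homomorphisms `B → K`.
-/

set_option autoImplicit false
set_option linter.style.haveILetI false
set_option linter.unusedSectionVars false

namespace Fermat.Agent.V

open AlgebraicCurve IsDedekindDomain Fermat.Agent.S24

variable {K F : Type*} [Field K] [Field F] [Algebra K F]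

/-- a function with a pole is transcendental over the constants -/
theorem v27ir_transcendental (P0 : Place K F) {x : F} (hx0 : P0.ord x < 0) :
    Transcendental K x := by
  intro halg
  have := ord_eq_zero_of_isAlgebraic halg P0
  omega

/-- in characteristic zero every function with a pole is a separating generator -/
theorem v27ir_isSepGen [CharZero K] [IsCurveOver K F] [Algebra.EssFiniteType K F]
    (P0 : Place K F) {x : F} (hx0 : P0.ord x < 0) : IsSepGen K x := by
  obtain ⟨t, ht⟩ := Fermat.Agent.V.RR.v27x_exists_sepGen (K := K) (F := F)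
  exact ht.of_transcendental (v27ir_transcendental P0 hx0)

theorem v27ir_self_mem_intRing (x : F) : x ∈ intRing K x := by
  have h : x ∈ Algebra.adjoin K {x} := Algebra.subset_adjoin (Set.mem_singleton x)
  have : IsIntegral (Algebra.adjoin K {x}) (algebraMap (Algebra.adjoin K {x}) F ⟨x, h⟩) :=
    isIntegral_algebraMap
  exact this

/-- **the ring of functions regular off `P0` is the integral closure of `K[x]`** -/
theorem v27ir_mem_intRing_iff {x : F} (hs : IsSepGen K x) (P0 : Place K F) (hx0 : P0.ord x < 0)
    (hx : ∀ v : Place K F, v ≠ P0 → 0 ≤ v.ord x) (f : F) :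
    f ∈ intRing K x ↔ ∀ v : Place K F, v ≠ P0 → 0 ≤ v.ord f := by
  constructor
  · intro hf v hv
    have hxv : x ∈ v.toValuationSubring := PlaceOrd.mem_of_ord_nonneg v (hx v hv)
    exact PlaceOrd.ord_nonneg_of_mem v (intRing_le_place v hxv ⟨f, hf⟩)
  · intro hf
    haveI : IsDedekindDomain (intRing K x) := intRing_isDedekindDomain hs
    haveI : IsFractionRing (intRing K x) F := intRing_isFractionRing hs
    have hmem : f ∈ (algebraMap (intRing K x) F).range := by
      apply HeightOneSpectrum.mem_integers_of_valuation_le_one (R := intRing K x) F f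
      intro w
      have hne : Place.ofHeightOneSpectrum (K := K) (F := F) w ≠ P0 := by
        intro h
        have h1 : x ∈ (Place.ofHeightOneSpectrum (K := K) (F := F) w).toValuationSubring :=
          algebraMap_mem_ofHeightOneSpectrum (K := K) w ⟨x, v27ir_self_mem_intRing x⟩
        have h2 := PlaceOrd.ord_nonneg_of_mem _ h1
        rw [h] at h2
        omega
      have h3 := PlaceOrd.mem_of_ord_nonneg _ (hf _ hne)
      exact (mem_ofHeightOneSpectrum_iff (K := K) w f).1 h3
    obtain ⟨y, rfl⟩ := hmem
    exact y.2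


/-! ### The ring `B` of functions regular off `P0` -/

section Ring

variable {x : F} (hs : IsSepGen K x) (P0 : Place K F) (hx0 : P0.ord x < 0)
  (hx : ∀ v : Place K F, v ≠ P0 → 0 ≤ v.ord x)
  (B : Subalgebra K F) (hB : ∀ f : F, f ∈ B ↔ ∀ v : Place K F, v ≠ P0 → 0 ≤ v.ord f)

include hs hx0 hx hB

theorem v27ir_mem_iff_mem_intRing (f : F) : f ∈ B ↔ f ∈ intRing K x := by
  rw [hB, v27ir_mem_intRing_iff hs P0 hx0 hx]

/-- `B` and the integral closure of `K[x]` are the same subring of `F` -/
noncomputable def v27irEquiv : B ≃+* intRing K x where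
  toFun b := ⟨b.1, (v27ir_mem_iff_mem_intRing hs P0 hx0 hx B hB b.1).1 b.2⟩
  invFun c := ⟨c.1, (v27ir_mem_iff_mem_intRing hs P0 hx0 hx B hB c.1).2 c.2⟩
  left_inv _ := rfl
  right_inv _ := rfl
  map_mul' _ _ := rfl
  map_add' _ _ := rfl

theorem v27irEquiv_coe (b : B) : ((v27irEquiv hs P0 hx0 hx B hB b : intRing K x) : F) = b := rfl

theorem v27ir_isDedekindDomain : IsDedekindDomain B := by
  have hD : IsDedekindDomain (intRing K x) := intRing_isDedekindDomain hs
  let e := v27irEquiv hs P0 hx0 hx B hB
  have h1 : IsNoetherianRing B := isNoetherianRing_of_ringEquiv _ e.symm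
  have h2 : Ring.DimensionLEOne B := Ring.DimensionLEOne.of_ringEquiv e
  have h3 : IsIntegrallyClosed B := IsIntegrallyClosed.of_equiv e.symm
  exact { toIsDomain := inferInstance, toIsDedekindRing := { } }

theorem v27ir_isFractionRing : IsFractionRing B F := by
  have hFr : IsFractionRing (intRing K x) F := intRing_isFractionRing hs
  apply IsFractionRing.of_field
  intro z
  obtain ⟨a, b, -, rfl⟩ := IsFractionRing.div_surjective (A := intRing K x) z
  let e := v27irEquiv hs P0 hx0 hx B hB
  exact ⟨e.symm a, e.symm b, rfl⟩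

theorem v27ir_x_mem : x ∈ B :=
  (v27ir_mem_iff_mem_intRing hs P0 hx0 hx B hB x).2 (v27ir_self_mem_intRing x)

theorem v27ir_isIntegral (b : B) : IsIntegral (Algebra.adjoin K {x}) (b : F) :=
  (v27ir_mem_iff_mem_intRing hs P0 hx0 hx B hB b.1).1 b.2

theorem v27ir_finiteType : Algebra.FiniteType K B := by
  have h0 : Algebra.FiniteType K (intRing K x) := intRing_finiteType hs
  let e := v27irEquiv hs P0 hx0 hx B hB
  let ea : intRing K x ≃ₐ[K] B :=
    { e.symm with
      commutes' := fun c => rfl }
  exact Algebra.FiniteType.equiv h0 ea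

theorem v27ir_not_isField : ¬ IsField B := by
  intro hf
  obtain ⟨v, hv⟩ := hs.exists_ord_pos
  have hne : v ≠ P0 := by
    rintro rfl
    omega
  have hxB : x ∈ B := v27ir_x_mem hs P0 hx0 hx B hB
  have hx00 : x ≠ 0 := by
    rintro rfl
    simp at hx0
  have hx0' : (⟨x, hxB⟩ : B) ≠ 0 := fun h => hx00 (congrArg Subtype.val h)
  obtain ⟨y, hy⟩ := hf.mul_inv_cancel hx0'
  have hxy : x * (y : F) = 1 := congrArg Subtype.val hy
  have hyinv : (y : F) = x⁻¹ := (inv_eq_of_mul_eq_one_right hxy).symm
  have hy' := (hB y.1).1 y.2 v hne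
  rw [hyinv, Place.ord_inv] at hy'
  omega

end Ring

/-- **Package (characteristic zero).**  For a curve `F / K` in characteristic zero, a place `P0`
and a function `x` whose only pole is `P0`, the ring `B` of functions regular off `P0` is a
Dedekind domain, finitely generated over `K`, with fraction field `F`, and not a field.  Hence
helper15's dictionary `V/Pts/Places.lean` (`v27ptPlace`, `v27pt_place_ord_pos_iff`,
`v27pt_exists_place_eq`, ...) applies to `B ⊆ F`: the places `≠ P0` are the `K`-points of `B`. -/
theorem v27ir_package [CharZero K] [IsCurveOver K F] [Algebra.EssFiniteType K F]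
    (P0 : Place K F) {x : F} (hx0 : P0.ord x < 0)
    (hx : ∀ v : Place K F, v ≠ P0 → 0 ≤ v.ord x)
    (B : Subalgebra K F) (hB : ∀ f : F, f ∈ B ↔ ∀ v : Place K F, v ≠ P0 → 0 ≤ v.ord f) :
    IsDedekindDomain B ∧ IsFractionRing B F ∧ Algebra.FiniteType K B ∧ ¬ IsField B ∧
      (∀ b : B, IsIntegral (Algebra.adjoin K {x}) (b : F)) := by
  have hs := v27ir_isSepGen P0 hx0
  exact ⟨v27ir_isDedekindDomain hs P0 hx0 hx B hB, v27ir_isFractionRing hs P0 hx0 hx B hB,
    v27ir_finiteType hs P0 hx0 hx B hB, v27ir_not_isField hs P0 hx0 hx B hB,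
    v27ir_isIntegral hs P0 hx0 hx B hB⟩

/-- Every place `≠ P0` contains `B` in its valuation ring (by definition of `B`). -/
theorem v27ir_mem_place (P0 : Place K F) (B : Subalgebra K F)
    (hB : ∀ f : F, f ∈ B ↔ ∀ v : Place K F, v ≠ P0 → 0 ≤ v.ord f) (v : Place K F) (hv : v ≠ P0)
    (b : B) : algebraMap B F b ∈ v.toValuationSubring :=
  PlaceOrd.mem_of_ord_nonneg v ((hB b.1).1 b.2 v hv)

end Fermat.Agent.V
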