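import Mathlib
import Fermat.Agent.V.Pres.IntRing
import Fermat.Agent.V.Pres.Presented

/-!
# Program V (S27), half B, route M: a presented curve in characteristic zero has a Dedekind
coordinate ring

Owner: helper12.  Prefix `v27ir_`.

For a one-point presentation `P : V27Presented K F T` of a curve `F / K` in characteristic zero
the table ring `V27pB T` is a Dedekind domain (transport of `V/Pres/IntRing.lean` along `P.ψ`:
`P.ψ.range` is the ring of functions regular off `P.P0`, which is the integral closure of
`K[ψ x]`), not a field, and finitely generated over `K`.  No `(P3)` hypothesis is used.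
-/

set_option autoImplicit false
set_option linter.style.haveILetI false
set_option linter.unusedSectionVars false

namespace Fermat.Agent.V

open AlgebraicCurve Polynomial Fermat.Agent.S24

variable {K F : Type*} [Field K] [Field F] [Algebra K F] {δ : V27pShape} {T : V27pTable K δ}

theorem v27ir_x_ne_zero : (V27pB.x : V27pB T) ≠ 0 := by
  intro h
  have := congrFun h (0 : ZMod δ.N)
  rw [V27pB.x, V27pB.algebraMap_poly_apply] at this
  simp at this

/-- the pole order of `ψ x` at `P0` is `N` -/
theorem v27ir_presented_ord_x (P : V27Presented K F T) :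
    P.P0.ord (P.ψ V27pB.x) = -(δ.N : ℤ) := by
  rw [P.ord_eq_iff v27ir_x_ne_zero δ.N]
  refine ⟨fun j r hr => ?_, 0, 1, by rw [δ.d_zero]; ring, ?_⟩
  · rw [V27pB.x, V27pB.algebraMap_poly_apply]
    split_ifs with hj
    · subst hj
      rw [δ.d_zero, add_zero] at hr
      have hN : 0 < δ.N := δ.hN
      have hr1 : 1 < r := by
        by_contra hle
        push Not at hle
        have : δ.N * r ≤ δ.N * 1 := Nat.mul_le_mul_left _ hle
        omega
      rw [Polynomial.coeff_X]
      rw [if_neg (by omega)]
    · simp
  · rw [V27pB.x, V27pB.algebraMap_poly_apply, if_pos rfl, Polynomial.coeff_X_one]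
    exact one_ne_zero

/-- the range of `ψ` is the ring of functions regular off `P0` -/
theorem v27ir_presented_mem_range_iff (P : V27Presented K F T) (f : F) :
    f ∈ P.ψ.range ↔ ∀ v : Place K F, v ≠ P.P0 → 0 ≤ v.ord f := by
  constructor
  · rintro ⟨b, rfl⟩ v hv
    exact P.ord_nonneg_of_ne hv b
  · intro h
    obtain ⟨b, hb⟩ := P.hrange f (fun v hv => PlaceOrd.mem_of_ord_nonneg v (h v hv))
    exact ⟨b, hb⟩

/-- **In characteristic zero the coordinate ring of a presented curve is Dedekind**, finitely
generated over `K`, and not a field. -/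
theorem v27ir_presented_package [CharZero K] [IsCurveOver K F] [Algebra.EssFiniteType K F]
    (P : V27Presented K F T) :
    IsDedekindDomain (V27pB T) ∧ Algebra.FiniteType K (V27pB T) ∧ ¬ IsField (V27pB T) := by
  have hN : 0 < δ.N := δ.hN
  have hx0 : P.P0.ord (P.ψ V27pB.x) < 0 := by
    rw [v27ir_presented_ord_x P]
    have : (0 : ℤ) < δ.N := by exact_mod_cast hN
    omega
  have hx : ∀ v : Place K F, v ≠ P.P0 → 0 ≤ v.ord (P.ψ V27pB.x) :=
    fun v hv => P.ord_nonneg_of_ne hv _
  obtain ⟨hD, -, hFT, hnf, -⟩ :=
    v27ir_package P.P0 hx0 hx P.ψ.range (v27ir_presented_mem_range_iff P)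
  let e : V27pB T ≃ₐ[K] P.ψ.range := AlgEquiv.ofInjective P.ψ P.inj
  have hdom : IsDomain (V27pB T) := MulEquiv.isDomain P.ψ.range e.toMulEquiv
  refine ⟨?_, Algebra.FiniteType.equiv hFT e.symm, fun hf => hnf (e.symm.toMulEquiv.isField hf)⟩
  have h1 : IsNoetherianRing (V27pB T) := isNoetherianRing_of_ringEquiv _ e.symm.toRingEquiv
  have h2 : Ring.DimensionLEOne (V27pB T) := Ring.DimensionLEOne.of_ringEquiv e.toRingEquiv
  have h3 : IsIntegrallyClosed (V27pB T) := IsIntegrallyClosed.of_equiv e.symm.toRingEquiv
  exact { toIsDomain := hdom, toIsDedekindRing := { } }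

end Fermat.Agent.V
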