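import Mathlib
import Fermat.Agent.V.Pres.IntRing
import Fermat.Agent.V.Pts.Places

/-!
# Program V (S27), half B, route M: places off `P0` = `K`-points of `B` (characteristic zero)

Owner: helper12.  Prefix `v27ir_`.  Glue of `V/Pres/IntRing.lean` (the ring `B` of functions
regular off `P0` is `integralClosure K[x] F`, hence Dedekind with fraction field `F`) with
helper15's abstract dictionary `V/Pts/Places.lean`.
-/

set_option autoImplicit false
set_option linter.style.haveILetI false
set_option linter.unusedSectionVars false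

namespace Fermat.Agent.V

open AlgebraicCurve IsDedekindDomain Fermat.Agent.S24

variable {K F : Type*} [Field K] [Field F] [Algebra K F]

/-- **(W4) in characteristic zero.**  `B` = functions regular off `P0`, `x ∈ B` with a pole at
`P0`.  Then `B` is Dedekind with fraction field `F`, not a field, and
`q ↦ v27ptPlace F hnf q` is a bijection from the `K`-points of `B` onto the places `≠ P0`;
moreover `0 < ord_{q} b ↔ q b = 0`. -/
theorem v27ir_points [IsAlgClosed K] [CharZero K] [IsCurveOver K F] [Algebra.EssFiniteType K F]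
    (P0 : Place K F) {x : F} (hx0 : P0.ord x < 0)
    (hx : ∀ v : Place K F, v ≠ P0 → 0 ≤ v.ord x)
    (B : Subalgebra K F) (hB : ∀ f : F, f ∈ B ↔ ∀ v : Place K F, v ≠ P0 → 0 ≤ v.ord f) :
    ∃ (_ : IsDedekindDomain B) (_ : IsFractionRing B F) (_ : Algebra.FiniteType K B)
      (hnf : ¬ IsField B),
      (∀ q : B →ₐ[K] K, v27ptPlace F hnf q ≠ P0) ∧
      (∀ v : Place K F, v ≠ P0 → ∃ q : B →ₐ[K] K, v = v27ptPlace F hnf q) ∧
      Function.Injective (v27ptPlace (K := K) (B := B) F hnf) ∧
      (∀ (q : B →ₐ[K] K) (b : B), b ≠ 0 → (0 < (v27ptPlace F hnf q).ord (b : F) ↔ q b = 0)) ∧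
      (∀ (q : B →ₐ[K] K) (b : B), 0 ≤ (v27ptPlace F hnf q).ord (b : F)) ∧
      (∀ q : B →ₐ[K] K, (v27ptPlace F hnf q).deg = 1) := by
  obtain ⟨i1, i2, i3, hnf, -⟩ := v27ir_package P0 hx0 hx B hB
  refine ⟨i1, i2, i3, hnf, ?_, ?_, ?_, ?_, ?_, ?_⟩
  · intro q h
    have hs := v27ir_isSepGen P0 hx0
    have hxB : x ∈ B := v27ir_x_mem hs P0 hx0 hx B hB
    have h1 := v27pt_place_ord_nonneg (M := F) hnf q (⟨x, hxB⟩ : B)
    rw [h] at h1
    have : algebraMap B F ⟨x, hxB⟩ = x := rfl
    rw [this] at h1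
    omega
  · intro v hv
    exact v27pt_exists_place_eq hnf v (v27ir_mem_place P0 B hB v hv)
  · exact v27pt_place_injective hnf
  · intro q b hb
    exact v27pt_place_ord_pos_iff (M := F) hnf q hb
  · intro q b
    exact v27pt_place_ord_nonneg (M := F) hnf q b
  · intro q
    exact v27pt_place_deg hnf q

end Fermat.Agent.V
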