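import Fermat.Agent.V.Weier.Exist
import Fermat.Agent.V.Pres.Ring

/-!
# Program V (S27), half B, leaf 9 (C2b), part 1: from pole-order-adapted data to a table

Owner: helper22.  Prefix `v27ow`.

From helper9's `V27wData P0 N x d e` (functions regular off `P0`, pole-order-adapted basis) we build
* the shape `v27owShape` and the multiplication table `v27owTable : V27pTable K (v27owShape ..)`
  (structure constants = normal forms of the products `e i * e j`);
* the `K`-algebra homomorphism `v27owPsi : V27pB T →ₐ[K] F`, injective, with range `v27wB P0`,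
  and the pole-order formula.
-/

set_option autoImplicit false
set_option linter.unusedSectionVars false
set_option linter.unusedVariables false

noncomputable section

namespace Fermat.Agent.V

open AlgebraicCurve Module Polynomial Fermat.Agent.V.Weier Fermat.Agent.V.RR

variable {K F : Type*} [Field K] [Field F] [Algebra K F] {N : ℕ} [NeZero N]

/-! ### `Ψ` is `K[X]`-semilinear and multiplicative up to the structure constants -/

theorem v27ow_psi_smul (x : F) (e : ZMod N → F) (p : K[X]) (a : ZMod N → K[X]) :
    v27wPsi x e (p • a) = aeval x p * v27wPsi x e a := by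
  rw [v27wPsi_apply, v27wPsi_apply, Finset.mul_sum]
  refine Finset.sum_congr rfl fun j _ => ?_
  rw [Pi.smul_apply, smul_eq_mul, map_mul, mul_assoc]

/-- the product of two normal forms, given normal forms `c i j` of the `e i * e j` -/
theorem v27ow_psi_mul (x : F) (e : ZMod N → F) (c : ZMod N → ZMod N → ZMod N → K[X])
    (hc : ∀ i j, v27wPsi x e (c i j) = e i * e j) (a b : ZMod N → K[X]) :
    v27wPsi x e a * v27wPsi x e b =
      v27wPsi x e (fun k => ∑ i, ∑ j, a i * b j * c i j k) := by
  have h1 : (fun k => ∑ i, ∑ j, a i * b j * c i j k) = ∑ i, ∑ j, (a i * b j) • c i j := by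
    funext k
    simp only [Finset.sum_apply, Pi.smul_apply, smul_eq_mul]
  rw [h1, map_sum]
  simp only [map_sum, v27ow_psi_smul, hc]
  rw [v27wPsi_apply, v27wPsi_apply, Finset.sum_mul_sum]
  refine Finset.sum_congr rfl fun i _ => Finset.sum_congr rfl fun j _ => ?_
  rw [map_mul]
  ring

section

variable [HasPrincipalDivisors K F]
  (hres : ∀ v : Place K F, Module.Finite K v.ResidueField)
  {P0 : Place K F} (hdeg : P0.deg = 1) {x : F} {d : ZMod N → ℕ} {e : ZMod N → F}
  (D : V27wData P0 N x d e)

/-! ### The shape -/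

include hres D in
theorem v27ow_d_zero : d 0 = 0 := by
  have := D.e_rho 0
  rw [D.e_zero, v27wRho_one] at this
  exact this.symm

include hres D in
theorem v27ow_d_sub (i j : ZMod N) : d (i + j) ≤ d i + d j := by
  have h1 : v27wRho P0 (e i * e j) = d i + d j := by
    rw [v27w_rho_mul hres (D.e_mem i) (D.e_mem j) (D.e_ne i) (D.e_ne j), D.e_rho, D.e_rho]
  have h2 := D.d_min (e i * e j) ((v27wB P0).mul_mem (D.e_mem i) (D.e_mem j))
    (mul_ne_zero (D.e_ne i) (D.e_ne j))
  rw [h1] at h2
  have h3 : (((d i + d j : ℕ)) : ZMod N) = i + j := by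
    push_cast
    rw [D.d_cong, D.d_cong]
  rwa [h3] at h2

/-- the shape of pole-order-adapted data -/
def v27owShape : V27pShape where
  N := N
  hN := Nat.pos_of_ne_zero (NeZero.ne N)
  d := d
  d_zero := v27ow_d_zero hres D
  d_cong := D.d_cong
  d_sub := v27ow_d_sub hres D

/-! ### The structure constants -/

/-- the structure constants : the normal form of `e i * e j` -/
def v27owC (i j : ZMod N) : ZMod N → K[X] :=
  (v27w_psi_surjective hres hdeg D
    ((v27wB P0).mul_mem (D.e_mem i) (D.e_mem j))).choose

theorem v27owC_spec (i j : ZMod N) :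
    v27wPsi x e (v27owC hres hdeg D i j) = e i * e j :=
  (v27w_psi_surjective hres hdeg D
    ((v27wB P0).mul_mem (D.e_mem i) (D.e_mem j))).choose_spec

theorem v27owC_ne_zero (i j : ZMod N) : v27owC hres hdeg D i j ≠ 0 := by
  intro h0
  have := v27owC_spec hres hdeg D i j
  rw [h0, map_zero] at this
  exact mul_ne_zero (D.e_ne i) (D.e_ne j) this.symm

theorem v27owC_rho (i j : ZMod N) :
    v27wRho P0 (v27wPsi x e (v27owC hres hdeg D i j)) = d i + d j := by
  rw [v27owC_spec, v27w_rho_mul hres (D.e_mem i) (D.e_mem j) (D.e_ne i) (D.e_ne j), D.e_rho,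
    D.e_rho]

/-- degree bound -/
theorem v27owC_deg_le (i j k : ZMod N) (m : ℕ) (hm : d i + d j < N * m + d k) :
    (v27owC hres hdeg D i j k).coeff m = 0 := by
  by_contra hne
  have hk : v27owC hres hdeg D i j k ≠ 0 := by
    intro h0
    rw [h0, coeff_zero] at hne
    exact hne rfl
  have h1 := (v27w_psi_rho hres D (v27owC_ne_zero hres hdeg D i j)).2.2 k hk
  rw [v27owC_rho] at h1
  have h2 : m ≤ (v27owC hres hdeg D i j k).natDegree := le_natDegree_of_ne_zero hne
  have h3 : N * m ≤ N * (v27owC hres hdeg D i j k).natDegree := Nat.mul_le_mul_left _ h2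
  omega

theorem v27owC_comm (i j : ZMod N) : v27owC hres hdeg D i j = v27owC hres hdeg D j i := by
  apply v27w_psi_injective hres D
  rw [v27owC_spec, v27owC_spec, mul_comm]

theorem v27owC_one (j k : ZMod N) :
    v27owC hres hdeg D 0 j k = if j = k then 1 else 0 := by
  classical
  have h : v27owC hres hdeg D 0 j = Pi.single j 1 := by
    apply v27w_psi_injective hres D
    rw [v27owC_spec, D.e_zero, one_mul, v27wPsi_single, map_one, one_mul]
  rw [h, Pi.single_apply]
  by_cases hjk : j = k
  · rw [if_pos hjk, if_pos hjk.symm]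
  · rw [if_neg hjk, if_neg (Ne.symm hjk)]

/-- the leading structure constant -/
theorem v27owC_lead (i j : ZMod N) :
    (v27owC hres hdeg D i j (i + j)).coeff ((d i + d j - d (i + j)) / N) ≠ 0 := by
  obtain ⟨k, hk, hrho⟩ := (v27w_psi_rho hres D (v27owC_ne_zero hres hdeg D i j)).2.1
  rw [v27owC_rho] at hrho
  have hcong : (((d i + d j : ℕ)) : ZMod N) = ((N * (v27owC hres hdeg D i j k).natDegree + d k : ℕ) : ZMod N) := by
    rw [hrho]
  push_cast at hcong
  rw [D.d_cong, D.d_cong, D.d_cong, ZMod.natCast_self, zero_mul, zero_add] at hcong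
  subst hcong
  have hN : 0 < N := Nat.pos_of_ne_zero (NeZero.ne N)
  have hdeg' : (d i + d j - d (i + j)) / N = (v27owC hres hdeg D i j (i + j)).natDegree := by
    rw [hrho, Nat.add_sub_cancel, Nat.mul_div_cancel_left _ hN]
  rw [hdeg']
  exact leadingCoeff_ne_zero.mpr hk

include hres D in
/-- associativity of structure constants -/
theorem v27ow_assoc (c : ZMod N → ZMod N → ZMod N → K[X])
    (hc : ∀ i j, v27wPsi x e (c i j) = e i * e j) (i j k m : ZMod N) :
    ∑ l, c i j l * c l k m = ∑ l, c j k l * c i l m := by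
  classical
  have h1 : e i * e j * e k = v27wPsi x e (fun m => ∑ l, c i j l * c l k m) := by
    rw [← hc i j, ← one_mul (e k), ← map_one (aeval (R := K) x), ← v27wPsi_single (K := K) x e k 1,
      v27ow_psi_mul x e c hc]
    congr 1
    funext m
    refine Finset.sum_congr rfl fun l _ => ?_
    rw [Finset.sum_eq_single k]
    · rw [Pi.single_eq_same, mul_one]
    · intro k' _ hk'
      rw [Pi.single_eq_of_ne hk', mul_zero, zero_mul]
    · intro h; exact absurd (Finset.mem_univ k) h
  have h2 : e i * (e j * e k) = v27wPsi x e (fun m => ∑ l, c j k l * c i l m) := by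
    rw [← hc j k, ← one_mul (e i), ← map_one (aeval (R := K) x), ← v27wPsi_single (K := K) x e i 1,
      v27ow_psi_mul x e c hc]
    congr 1
    funext m
    rw [Finset.sum_eq_single i]
    · refine Finset.sum_congr rfl fun l _ => ?_
      rw [Pi.single_eq_same, one_mul]
    · intro i' _ hi'
      refine Finset.sum_eq_zero fun l _ => ?_
      rw [Pi.single_eq_of_ne hi', zero_mul, zero_mul]
    · intro h; exact absurd (Finset.mem_univ i) h
  have h3 := v27w_psi_injective hres D (h1.symm.trans ((mul_assoc _ _ _).trans h2))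
  exact congrFun h3 m

/-! ### The table -/

/-- the multiplication table of pole-order-adapted data -/
def v27owTable : V27pTable K (v27owShape hres D) where
  c := v27owC hres hdeg D
  deg_le := fun i j k m hm => v27owC_deg_le hres hdeg D i j k m hm
  comm := fun i j k => congrFun (v27owC_comm hres hdeg D i j) k
  one := fun j k => v27owC_one hres hdeg D j k
  assoc := fun i j k m => v27ow_assoc hres D (v27owC hres hdeg D) (v27owC_spec hres hdeg D) i j k m
  lead := fun i j => v27owC_lead hres hdeg D i j

/-- the coordinates of an element of `B_T` -/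
def v27owCoord (a : V27pB (v27owTable hres hdeg D)) : ZMod N → K[X] := a

theorem v27owCoord_apply (a : V27pB (v27owTable hres hdeg D)) (j : ZMod N) :
    v27owCoord hres hdeg D a j = a j := rfl

theorem v27owCoord_one :
    v27owCoord hres hdeg D 1 = Pi.single (0 : ZMod N) (1 : K[X]) := by
  classical
  funext j
  have h := V27pB.one_apply (T := v27owTable hres hdeg D) j
  by_cases hj : j = 0
  · subst hj
    rw [Pi.single_eq_same]
    exact h.trans (if_pos rfl)
  · rw [Pi.single_eq_of_ne hj]
    exact h.trans (if_neg hj)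

theorem v27owCoord_algebraMap (c : K) :
    v27owCoord hres hdeg D (algebraMap K _ c) = Pi.single (0 : ZMod N) (C c) := by
  classical
  funext j
  have h := V27pB.algebraMap_apply (T := v27owTable hres hdeg D) c j
  by_cases hj : j = 0
  · subst hj
    rw [Pi.single_eq_same]
    exact h.trans (if_pos rfl)
  · rw [Pi.single_eq_of_ne hj]
    exact h.trans (if_neg hj)

theorem v27owCoord_x :
    v27owCoord hres hdeg D V27pB.x = Pi.single (0 : ZMod N) (X : K[X]) := by
  classical
  funext j
  have h := V27pB.algebraMap_poly_apply (T := v27owTable hres hdeg D) X j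
  by_cases hj : j = 0
  · subst hj
    rw [Pi.single_eq_same]
    exact h.trans (if_pos rfl)
  · rw [Pi.single_eq_of_ne hj]
    exact h.trans (if_neg hj)

theorem v27owCoord_e (j : ZMod N) :
    v27owCoord hres hdeg D (V27pB.e j) = Pi.single j (1 : K[X]) := by
  classical
  funext k
  have h := V27pB.e_apply (T := v27owTable hres hdeg D) j k
  by_cases hk : k = j
  · subst hk
    rw [Pi.single_eq_same]
    exact h.trans (if_pos rfl)
  · rw [Pi.single_eq_of_ne hk]
    exact h.trans (if_neg hk)

theorem v27owCoord_mul (a b : V27pB (v27owTable hres hdeg D)) :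
    v27owCoord hres hdeg D (a * b) = fun k => ∑ i, ∑ j, v27owCoord hres hdeg D a i *
      v27owCoord hres hdeg D b j * v27owC hres hdeg D i j k := rfl

/-! ### The homomorphism `ψ` -/

/-- `ψ : B_T → F`, `a ↦ ∑ j, (a j)(x) · e j` -/
def v27owPsi : V27pB (v27owTable hres hdeg D) →ₐ[K] F where
  toFun a := v27wPsi x e (v27owCoord hres hdeg D a)
  map_one' := by
    rw [v27owCoord_one, v27wPsi_single, map_one, one_mul, D.e_zero]
  map_mul' a b := by
    rw [v27ow_psi_mul x e (v27owC hres hdeg D) (v27owC_spec hres hdeg D), v27owCoord_mul]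
  map_zero' := map_zero _
  map_add' a b := map_add (v27wPsi (K := K) x e) _ _
  commutes' c := by
    rw [v27owCoord_algebraMap, v27wPsi_single, aeval_C, D.e_zero, mul_one]

theorem v27owPsi_apply (a : V27pB (v27owTable hres hdeg D)) :
    v27owPsi hres hdeg D a = v27wPsi x e (v27owCoord hres hdeg D a) := rfl

theorem v27owPsi_injective : Function.Injective (v27owPsi hres hdeg D) :=
  fun a b hab => v27w_psi_injective hres D hab

theorem v27owPsi_range : (v27owPsi hres hdeg D).range = v27wB P0 := by
  apply le_antisymm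
  · rintro _ ⟨a, rfl⟩
    exact v27w_psi_mem D _
  · intro f hf
    obtain ⟨a, ha⟩ := v27w_psi_surjective hres hdeg D hf
    exact ⟨a, ha⟩

theorem v27owPsi_x : v27owPsi hres hdeg D (V27pB.x) = x := by
  rw [v27owPsi_apply, v27owCoord_x, v27wPsi_single, aeval_X, D.e_zero, mul_one]

theorem v27owPsi_e (j : ZMod N) : v27owPsi hres hdeg D (V27pB.e j) = e j := by
  rw [v27owPsi_apply, v27owCoord_e, v27wPsi_single, map_one, one_mul]

/-- pole order of `ψ a` -/
theorem v27owPsi_rho {a : V27pB (v27owTable hres hdeg D)} (ha : a ≠ 0) :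
    v27owPsi hres hdeg D a ≠ 0 ∧
    (∃ j, a j ≠ 0 ∧ v27wRho P0 (v27owPsi hres hdeg D a) = N * (a j).natDegree + d j) ∧
    ∀ j, a j ≠ 0 → N * (a j).natDegree + d j ≤ v27wRho P0 (v27owPsi hres hdeg D a) :=
  v27w_psi_rho hres D (a := v27owCoord hres hdeg D a) ha

end

end Fermat.Agent.V
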