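import Fermat.Agent.V.Pres.OfWeier
import Fermat.Agent.V.Pres.IntRingPts
import Fermat.Agent.V.Pts.Inst.Points
import Fermat.Agent.V.Dict.P3
import Fermat.Agent.V.FO.Coord

/-!
# Program V (S27), half B, leaf 9 (C2b), part 2: (P3) in coordinates on the characteristic-zero side

Owner: helper22.  Prefix `v27ow`.

For the table `v27owTable` of pole-order-adapted data on a curve `F / K` (`K` algebraically closed of
characteristic zero) : helper24's coordinate predicate `V27coP3 Db T.c` holds for every box size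
`Db ≥ 4g + N`, `Db ≥ 4g + d j` (from helper6's place-level `v27dc_P3`, through helper12's
dictionary `K`-points of `B` ↔ places `≠ P0` and helper15's points of `V27pB T`).
-/

set_option autoImplicit false
set_option linter.unusedSectionVars false
set_option linter.unusedVariables false
set_option linter.style.haveILetI false

noncomputable section

namespace Fermat.Agent.V

open AlgebraicCurve Module Polynomial Fermat.Agent.V.Weier Fermat.Agent.V.RR Fermat.Agent.V.Dict

/-! ### Boxes -/

/-- every coordinate vector with components of degree `≤ D` is the element of a box of size `D` -/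
theorem v27ow_exists_box {K : Type*} [Field K] {δ : V27pShape} (D : ℕ) (b : ZMod δ.N → K[X])
    (hb : ∀ j, (b j).natDegree ≤ D) : ∃ a : V27coE δ D → K, v27coEl a = b := by
  refine ⟨fun p => (b p.1).coeff (p.2 : ℕ), ?_⟩
  funext j
  rw [v27coEl]
  have h1 := (b j).as_sum_range_C_mul_X_pow' (n := D + 1) (Nat.lt_succ_of_le (hb j))
  rw [Finset.sum_range] at h1
  exact h1.symm

variable {K F : Type*} [Field K] [Field F] [Algebra K F] {N : ℕ} [NeZero N]

section

variable [HasPrincipalDivisors K F]
  (hres : ∀ v : Place K F, Module.Finite K v.ResidueField)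
  {P0 : Place K F} (hdeg : P0.deg = 1) {x : F} {d : ZMod N → ℕ} {e : ZMod N → F}
  (D : V27wData P0 N x d e)

/-- degree bound for the coordinates of an element of `L(m P0)` -/
theorem v27ow_natDegree_le (b : V27pB (v27owTable hres hdeg D)) (m : ℕ)
    (hb : v27owPsi hres hdeg D b ∈ v27dcL P0 m) (j : ZMod N) :
    (v27owCoord hres hdeg D b j).natDegree ≤ m := by
  by_cases hj : v27owCoord hres hdeg D b j = 0
  · rw [hj, natDegree_zero]; exact Nat.zero_le _
  have hb0 : b ≠ 0 := by
    rintro rfl
    exact hj rfl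
  obtain ⟨hne, -, hle⟩ := v27owPsi_rho hres hdeg D hb0
  have h1 := hle j hj
  have hmem : v27owPsi hres hdeg D b ∈ v27wB P0 := by
    rw [← v27owPsi_range hres hdeg D]; exact ⟨b, rfl⟩
  have h2 := v27w_rho_eq hres hmem hne
  have h3 := ((v27dc_mem_L_iff.mp hb).resolve_left hne).1
  have hN : 1 ≤ N := Nat.pos_of_ne_zero (NeZero.ne N)
  have h4 : (v27wRho P0 (v27owPsi hres hdeg D b) : ℤ) ≤ m := by omega
  have h5 : v27wRho P0 (v27owPsi hres hdeg D b) ≤ m := by exact_mod_cast h4
  have h6 : (v27owCoord hres hdeg D b j).natDegree ≤ N * (v27owCoord hres hdeg D b j).natDegree :=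
    Nat.le_mul_of_pos_left _ hN
  have h7 : N * (v27owCoord hres hdeg D b j).natDegree + d j ≤ m := le_trans h1 h5
  omega

/-- every element of `L(m P0)` is `ψ` of a box of size `m` -/
theorem v27ow_exists_box_of_mem_L (m Db : ℕ) (hm : m ≤ Db) (f : F) (hf : f ∈ v27dcL P0 m) :
    ∃ (b : V27pB (v27owTable hres hdeg D)) (a : V27coE (v27owShape hres D) Db → K),
      v27owPsi hres hdeg D b = f ∧ v27coEl a = v27owCoord hres hdeg D b := by
  have hfB : f ∈ v27wB P0 := by
    rcases v27dc_mem_L_iff.mp hf with rfl | ⟨-, h⟩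
    · exact (v27wB P0).zero_mem
    · exact v27w_mem_B_iff.mpr h
  rw [← v27owPsi_range hres hdeg D] at hfB
  obtain ⟨b, rfl⟩ := hfB
  obtain ⟨a, ha⟩ := v27ow_exists_box (δ := v27owShape hres D) Db (v27owCoord hres hdeg D b)
    (fun j => (v27ow_natDegree_le hres hdeg D b m hf j).trans hm)
  exact ⟨b, a, rfl, ha⟩

end




section

variable [HasPrincipalDivisors K F]
  (hres : ∀ v : Place K F, Module.Finite K v.ResidueField)
  {P0 : Place K F} (hdeg : P0.deg = 1) {x : F} {d : ZMod N → ℕ} {e : ZMod N → F}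
  (D : V27wData P0 N x d e)

/-- `ψ` as an isomorphism onto the ring of functions regular off `P0` -/
def v27owEquiv : V27pB (v27owTable hres hdeg D) ≃ₐ[K] v27wB P0 :=
  (AlgEquiv.ofInjective (v27owPsi hres hdeg D) (v27owPsi_injective hres hdeg D)).trans
    (Subalgebra.equivOfEq _ _ (v27owPsi_range hres hdeg D))

theorem v27owEquiv_coe (b : V27pB (v27owTable hres hdeg D)) :
    ((v27owEquiv hres hdeg D b : v27wB P0) : F) = v27owPsi hres hdeg D b := rfl

end

/-- **the place of a coordinate point** (characteristic zero, on the curve `F` itself) -/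
theorem v27ow_point_place [IsAlgClosed K] [CharZero K] [IsCurveOver K F]
    [Algebra.EssFiniteType K F]
    (hres : ∀ v : Place K F, Module.Finite K v.ResidueField)
    {P0 : Place K F} (hdeg : P0.deg = 1) {x : F} {d : ZMod N → ℕ} {e : ZMod N → F}
    (D : V27wData P0 N x d e)
    (q : V27coP (v27owShape hres D) → K) (hq : V27coPt (v27owTable hres hdeg D).c q) :
    ∃ Q : Place K F, Q ≠ P0 ∧ ∀ b : V27pB (v27owTable hres hdeg D),
      0 ≤ Q.ord (v27owPsi hres hdeg D b) ∧
      (b ≠ 0 → (0 < Q.ord (v27owPsi hres hdeg D b) ↔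
        v27piPoint (T := v27owTable hres hdeg D) (q none) (fun j => q (some j)) hq b = 0)) := by
  have hx0 : P0.ord x < 0 := by
    rw [D.ord_x hres]
    have : 0 < N := Nat.pos_of_ne_zero (NeZero.ne N)
    omega
  have hxreg : ∀ v : Place K F, v ≠ P0 → 0 ≤ v.ord x := v27w_mem_B_iff.mp D.x_mem
  obtain ⟨i1, i2, i3, hnf, hne, hsurj, hinj, hpos, hnn, hdeg1⟩ :=
    v27ir_points P0 hx0 hxreg (v27wB P0) (fun f => v27w_mem_B_iff)
  have hq' : V27piPtEq (v27owTable hres hdeg D) (q none) (fun j => q (some j)) := hq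
  obtain ⟨qB, hqB⟩ : ∃ qB : v27wB P0 →ₐ[K] K, ∀ b : V27pB (v27owTable hres hdeg D),
      qB (v27owEquiv hres hdeg D b) =
        v27piPoint (T := v27owTable hres hdeg D) (q none) (fun j => q (some j)) hq b := by
    refine ⟨(v27piPoint (q none) (fun j => q (some j)) hq').comp
      (v27owEquiv hres hdeg D).symm.toAlgHom, fun b => ?_⟩
    rw [AlgHom.comp_apply]
    have : (v27owEquiv hres hdeg D).symm.toAlgHom (v27owEquiv hres hdeg D b) = b :=
      (v27owEquiv hres hdeg D).symm_apply_apply b
    rw [this]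
  refine ⟨v27ptPlace F hnf qB, hne qB, fun b => ⟨?_, fun hb => ?_⟩⟩
  · have := hnn qB (v27owEquiv hres hdeg D b)
    rwa [v27owEquiv_coe] at this
  · have hb' : v27owEquiv hres hdeg D b ≠ 0 := by
      intro h0
      exact hb ((v27owEquiv hres hdeg D).injective (h0.trans (map_zero _).symm))
    have := hpos qB (v27owEquiv hres hdeg D b) hb'
    rwa [v27owEquiv_coe, hqB] at this




section

variable [HasPrincipalDivisors K F]
  (hres : ∀ v : Place K F, Module.Finite K v.ResidueField)
  {P0 : Place K F} (hdeg : P0.deg = 1) {x : F} {d : ZMod N → ℕ} {e : ZMod N → F}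
  (D : V27wData P0 N x d e)

/-- the raw generator `x - x0` is the coordinate vector of `x - x0` -/
theorem v27ow_genX (q : V27coP (v27owShape hres D) → K) :
    v27coGenX q = v27owCoord hres hdeg D
      (V27pB.x - algebraMap K (V27pB (v27owTable hres hdeg D)) (q none)) := by
  funext j
  have h1 := V27pB.algebraMap_poly_apply (T := v27owTable hres hdeg D) X j
  have h2 := V27pB.algebraMap_apply (T := v27owTable hres hdeg D) (q none) j
  show v27coGenX q j = (V27pB.x : V27pB (v27owTable hres hdeg D)) j -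
    (algebraMap K (V27pB (v27owTable hres hdeg D)) (q none)) j
  rw [V27pB.x, h1, h2, v27coGenX]
  by_cases hj : j = 0
  · rw [if_pos hj, if_pos hj, if_pos hj]
  · rw [if_neg hj, if_neg hj, if_neg hj, sub_zero]

/-- the raw generator `e i - ε i` is the coordinate vector of `e i - ε i` -/
theorem v27ow_genE (q : V27coP (v27owShape hres D) → K) (i : ZMod N) :
    v27coGenE q i = v27owCoord hres hdeg D
      (V27pB.e i - algebraMap K (V27pB (v27owTable hres hdeg D)) (q (some i))) := by
  funext j
  have h1 := V27pB.e_apply (T := v27owTable hres hdeg D) i j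
  have h2 := V27pB.algebraMap_apply (T := v27owTable hres hdeg D) (q (some i)) j
  show v27coGenE q i j = (V27pB.e i : V27pB (v27owTable hres hdeg D)) j -
    (algebraMap K (V27pB (v27owTable hres hdeg D)) (q (some i))) j
  rw [h1, h2]
  rfl

/-- the raw product is the coordinate vector of the product -/
theorem v27ow_coMul (a b : V27pB (v27owTable hres hdeg D)) :
    v27coMul (v27owTable hres hdeg D).c (v27owCoord hres hdeg D a) (v27owCoord hres hdeg D b) =
      v27owCoord hres hdeg D (a * b) := rfl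

/-- constants lie in every `L(m P0)` -/
theorem v27ow_const_mem_L (m : ℕ) (c : K) : algebraMap K F c ∈ v27dcL P0 m := by
  by_cases hc : c = 0
  · rw [hc, map_zero]; exact Submodule.zero_mem _
  refine v27dc_mem_L_iff.mpr (Or.inr ⟨?_, fun v _ => ?_⟩)
  · rw [Fermat.Agent.S24.PlaceOrd.ord_algebraMap]
    omega
  · rw [Fermat.Agent.S24.PlaceOrd.ord_algebraMap]

include hres D in
theorem v27ow_x_sub_mem_L (c : K) : x - algebraMap K F c ∈ v27dcL P0 N := by
  refine Submodule.sub_mem _ ?_ (v27ow_const_mem_L N c)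
  refine v27dc_mem_L_iff.mpr (Or.inr ⟨?_, v27w_mem_B_iff.mp D.x_mem⟩)
  rw [D.ord_x hres]

include hres D in
theorem v27ow_e_sub_mem_L (i : ZMod N) (c : K) : e i - algebraMap K F c ∈ v27dcL P0 (d i) := by
  refine Submodule.sub_mem _ ?_ (v27ow_const_mem_L (d i) c)
  refine v27dc_mem_L_iff.mpr (Or.inr ⟨?_, v27w_mem_B_iff.mp (D.e_mem i)⟩)
  rw [D.ord_e hres]

end


section

variable [HasPrincipalDivisors K F]
  (hres : ∀ v : Place K F, Module.Finite K v.ResidueField)
  {P0 : Place K F} (hdeg : P0.deg = 1) {x : F} {d : ZMod N → ℕ} {e : ZMod N → F}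
  (D : V27wData P0 N x d e)

/-- the generator `x - x0` of the maximal ideal of the point `q` -/
def v27owGX (q : V27coP (v27owShape hres D) → K) : V27pB (v27owTable hres hdeg D) :=
  V27pB.x - algebraMap K (V27pB (v27owTable hres hdeg D)) (q none)

/-- the generator `e i - ε i` of the maximal ideal of the point `q` -/
def v27owGE (q : V27coP (v27owShape hres D) → K) (i : ZMod N) :
    V27pB (v27owTable hres hdeg D) :=
  V27pB.e i - algebraMap K (V27pB (v27owTable hres hdeg D)) (q (some i))

theorem v27owGX_coord (q : V27coP (v27owShape hres D) → K) :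
    v27owCoord hres hdeg D (v27owGX hres hdeg D q) = v27coGenX q :=
  (v27ow_genX hres hdeg D q).symm

theorem v27owGE_coord (q : V27coP (v27owShape hres D) → K) (i : ZMod N) :
    v27owCoord hres hdeg D (v27owGE hres hdeg D q i) = v27coGenE q i :=
  (v27ow_genE hres hdeg D q i).symm

theorem v27owGX_psi (q : V27coP (v27owShape hres D) → K) :
    v27owPsi hres hdeg D (v27owGX hres hdeg D q) = x - algebraMap K F (q none) := by
  rw [v27owGX, map_sub, v27owPsi_x, AlgHom.commutes]

theorem v27owGE_psi (q : V27coP (v27owShape hres D) → K) (i : ZMod N) :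
    v27owPsi hres hdeg D (v27owGE hres hdeg D q i) = e i - algebraMap K F (q (some i)) := by
  rw [v27owGE, map_sub, v27owPsi_e, AlgHom.commutes]

theorem v27owGX_point (q : V27coP (v27owShape hres D) → K)
    (hq : V27coPt (v27owTable hres hdeg D).c q) :
    v27piPoint (T := v27owTable hres hdeg D) (q none) (fun j => q (some j)) hq
      (v27owGX hres hdeg D q) = 0 := by
  have h1 := v27piPoint_x (T := v27owTable hres hdeg D) (q none) (fun j => q (some j)) hq
  have h2 := (v27piPoint (T := v27owTable hres hdeg D) (q none)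
    (fun j => q (some j)) hq).commutes (q none)
  rw [v27owGX, map_sub, h1, h2]
  exact sub_self _

theorem v27owGE_point (q : V27coP (v27owShape hres D) → K)
    (hq : V27coPt (v27owTable hres hdeg D).c q) (i : ZMod N) :
    v27piPoint (T := v27owTable hres hdeg D) (q none) (fun j => q (some j)) hq
      (v27owGE hres hdeg D q i) = 0 := by
  have h1 := v27piPoint_e (T := v27owTable hres hdeg D) (q none) (fun j => q (some j)) hq i
  have h2 := (v27piPoint (T := v27owTable hres hdeg D) (q none)
    (fun j => q (some j)) hq).commutes (q (some i))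
  rw [v27owGE, map_sub, h1, h2]
  exact sub_self _

end

/-- one generator of the maximal ideal of a point is divisible by `u` after multiplying by `s`,
in coordinates -/
theorem v27ow_P3_gen [IsAlgClosed K] [CharZero K] [IsCurveOver K F] [Algebra.EssFiniteType K F]
    (hres : ∀ v : Place K F, Module.Finite K v.ResidueField)
    {P0 : Place K F} (hdeg : P0.deg = 1) {x : F} {d : ZMod N → ℕ} {e : ZMod N → F}
    (D : V27wData P0 N x d e) {g : ℕ} (Db : ℕ)
    (q : V27coP (v27owShape hres D) → K) (hq : V27coPt (v27owTable hres hdeg D).c q)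
    (Q : Place K F)
    (hQ : ∀ b : V27pB (v27owTable hres hdeg D), b ≠ 0 → (0 < Q.ord (v27owPsi hres hdeg D b) ↔
        v27piPoint (T := v27owTable hres hdeg D) (q none) (fun j => q (some j)) hq b = 0))
    (u s : F) (su bu : V27pB (v27owTable hres hdeg D))
    (hbu : v27owPsi hres hdeg D bu = u) (hsu : v27owPsi hres hdeg D su = s)
    (hall : ∀ (m : ℕ) (y : F), y ∈ v27dcL P0 m → v27dcVan Q y →
        ∃ h : F, h ∈ v27dcL P0 (4 * g + m) ∧ s * y = u * h)
    (m : ℕ) (hm : 4 * g + m ≤ Db) (b : V27pB (v27owTable hres hdeg D))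
    (hbL : v27owPsi hres hdeg D b ∈ v27dcL P0 m)
    (hbq : v27piPoint (T := v27owTable hres hdeg D) (q none) (fun j => q (some j)) hq b = 0) :
    ∃ h : V27coE (v27owShape hres D) Db → K,
      v27coMul (v27owTable hres hdeg D).c (v27owCoord hres hdeg D su)
          (v27owCoord hres hdeg D b) =
        v27coMul (v27owTable hres hdeg D).c (v27owCoord hres hdeg D bu) (v27coEl h) := by
  have hvan : v27dcVan Q (v27owPsi hres hdeg D b) := by
    by_cases hb0 : b = 0
    · left; rw [hb0, map_zero]
    · right; exact (hQ b hb0).mpr hbq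
  obtain ⟨h, hhL, hh⟩ := hall m _ hbL hvan
  obtain ⟨bh, ah, hbh, hah⟩ := v27ow_exists_box_of_mem_L hres hdeg D (4 * g + m) Db hm h hhL
  refine ⟨ah, ?_⟩
  have heq : su * b = bu * bh := by
    apply v27owPsi_injective hres hdeg D
    rw [map_mul, map_mul, hsu, hbu, hbh, hh]
  rw [hah]
  exact (v27ow_coMul hres hdeg D su b).trans
    ((congrArg (v27owCoord hres hdeg D) heq).trans (v27ow_coMul hres hdeg D bu bh).symm)

/-- **(P3) in coordinates** for the table of pole-order-adapted data (characteristic zero). -/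
theorem v27ow_P3 [IsAlgClosed K] [CharZero K] [IsCurveOver K F] [Algebra.EssFiniteType K F]
    {g : ℕ} (R : V27RR K F g) (hdeg1 : ∀ v : Place K F, v.deg = 1)
    (hres : ∀ v : Place K F, Module.Finite K v.ResidueField)
    {P0 : Place K F} {x : F} {d : ZMod N → ℕ} {e : ZMod N → F}
    (D : V27wData P0 N x d e) (Db : ℕ) (hDb1 : 4 * g + N ≤ Db) (hDb2 : ∀ j, 4 * g + d j ≤ Db)
    (hDb3 : 2 * g + 1 ≤ Db) :
    V27coP3 Db (v27owTable hres (hdeg1 P0) D).c := by
  intro q hq
  obtain ⟨Q, hQne, hQ⟩ := v27ow_point_place hres (hdeg1 P0) D q hq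
  obtain ⟨u, s, huL, hsL, hu0, huQ, ⟨hs0, hsQ⟩, hall⟩ := v27dc_P3 R hdeg1 hQne
  obtain ⟨bu, au, hbu, hau⟩ :=
    v27ow_exists_box_of_mem_L hres (hdeg1 P0) D (2 * g + 1) Db hDb3 u huL
  obtain ⟨bs, as, hbs, has⟩ :=
    v27ow_exists_box_of_mem_L hres (hdeg1 P0) D (4 * g) Db (by omega) s hsL
  have hbu0 : bu ≠ 0 := by
    rintro rfl
    rw [map_zero] at hbu
    exact hu0 hbu.symm
  have hbs0 : bs ≠ 0 := by
    rintro rfl
    rw [map_zero] at hbs
    exact hs0 hbs.symm
  -- values at `q`
  have hevu : v27piPoint (T := v27owTable hres (hdeg1 P0) D) (q none) (fun j => q (some j)) hq bu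
      = 0 := by
    rw [← (hQ bu).2 hbu0, hbu, huQ]
    exact one_pos
  have hevs : v27piPoint (T := v27owTable hres (hdeg1 P0) D) (q none) (fun j => q (some j)) hq bs
      ≠ 0 := by
    intro h0
    have := ((hQ bs).2 hbs0).mpr h0
    rw [hbs, hsQ] at this
    exact lt_irrefl _ this
  have hQ' := fun b hb => (hQ b).2 hb
  -- the generator `x - x0`
  obtain ⟨h0, hh0⟩ := v27ow_P3_gen hres (hdeg1 P0) D (g := g) Db q hq Q hQ' u s bs bu hbu hbs hall
    N hDb1 (v27owGX hres (hdeg1 P0) D q)
    (by rw [v27owGX_psi]; exact v27ow_x_sub_mem_L hres D (q none))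
    (v27owGX_point hres (hdeg1 P0) D q hq)
  -- the generators `e i - ε i`
  have hE : ∀ i : ZMod N, ∃ h : V27coE (v27owShape hres D) Db → K,
      v27coMul (v27owTable hres (hdeg1 P0) D).c (v27owCoord hres (hdeg1 P0) D bs)
          (v27owCoord hres (hdeg1 P0) D (v27owGE hres (hdeg1 P0) D q i)) =
        v27coMul (v27owTable hres (hdeg1 P0) D).c (v27owCoord hres (hdeg1 P0) D bu)
          (v27coEl h) := fun i =>
    v27ow_P3_gen hres (hdeg1 P0) D (g := g) Db q hq Q hQ' u s bs bu hbu hbs hall
      (d i) (hDb2 i) (v27owGE hres (hdeg1 P0) D q i)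
      (by rw [v27owGE_psi]; exact v27ow_e_sub_mem_L hres D i (q (some i)))
      (v27owGE_point hres (hdeg1 P0) D q hq i)
  choose h hh using hE
  refine ⟨au, as, h0, h, ?_, ?_, ?_, ?_⟩
  · rw [hau]
    exact hevu
  · rw [has]
    exact hevs
  · rw [has, hau, ← v27owGX_coord hres (hdeg1 P0) D q]
    exact hh0
  · intro i
    rw [has, hau, ← v27owGE_coord hres (hdeg1 P0) D q i]
    exact hh i

end Fermat.Agent.V
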